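/-
S53 (existence of universal deformation rings): shared definitions.
Everything lives in `namespace Fermat.Agent.S53`.
-/
import Mathlib
import Fermat.Prelude.Def_GaloisRep_DeformationRingData
import Fermat.Prelude.Def_GaloisRep_DeformationCondition

set_option autoImplicit false

noncomputable section

namespace Fermat.Agent.S53

open IsLocalRing

/-- The absolute Galois group of `ℚ`. -/
abbrev Gal : Type := AlgebraicClosure ℚ ≃ₐ[ℚ] AlgebraicClosure ℚ

/-- `2 × 2` matrices. -/
abbrev M2 (A : Type) : Type := Matrix (Fin 2) (Fin 2) A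

/-- Continuity of a matrix valued representation of `Gal` over a local ring:
for every `n` it is trivial modulo `𝔪 ^ n` on the subgroup fixing some number field. -/
def MatCont {A : Type} [CommRing A] [IsLocalRing A] (r : Gal →* M2 A) : Prop :=
  ∀ n : ℕ, ∃ L : IntermediateField ℚ (AlgebraicClosure ℚ), FiniteDimensional ℚ L ∧
    ∀ σ : Gal, (∀ x ∈ L, σ x = x) → ∀ i j : Fin 2, (r σ - 1) i j ∈ maximalIdeal A ^ n

/-- A vector all of whose coordinates lie in an ideal `I` lies in `I • ⊤`. -/
theorem mem_smul_top_of_forall_mem {A : Type} [CommRing A] (I : Ideal A) (w : Fin 2 → A)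
    (hw : ∀ i, w i ∈ I) : w ∈ I • (⊤ : Submodule A (Fin 2 → A)) := by
  have h : w = ∑ i, w i • (Pi.single i (1 : A) : Fin 2 → A) := by
    funext j
    simp [Finset.sum_apply, Pi.single_apply]
  rw [h]
  exact Submodule.sum_mem _ fun i _ => Submodule.smul_mem_smul (hw i) Submodule.mem_top

/-- The `GaloisRepAdic` attached to a continuous matrix valued representation. -/
def ofMat {A : Type} [CommRing A] [IsLocalRing A] (r : Gal →* M2 A)
    (hr : MatCont r) : GaloisRepAdic A where
  V := Fin 2 → A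
  finrank_eq := by simp
  ρ :=
    { toFun := fun σ => Matrix.toLin' (r σ)
      map_one' := by rw [map_one, Matrix.toLin'_one]; rfl
      map_mul' := fun σ τ => by rw [map_mul, Matrix.toLin'_mul]; rfl }
  isAdicContinuous := by
    intro n
    obtain ⟨L, hL, h⟩ := hr n
    refine ⟨L, hL, fun σ hσ v => ?_⟩
    apply mem_smul_top_of_forall_mem
    intro i
    have h1 : (Matrix.toLin' (r σ)) v - v = (r σ - 1).mulVec v := by
      rw [Matrix.sub_mulVec, Matrix.one_mulVec, Matrix.toLin'_apply]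
    show ((Matrix.toLin' (r σ)) v - v) i ∈ _
    rw [h1]
    simp only [Matrix.mulVec, dotProduct]
    exact Ideal.sum_mem _ fun j _ => Ideal.mul_mem_right _ _ (h σ hσ i j)

@[simp] theorem ofMat_ρ_apply {A : Type} [CommRing A] [IsLocalRing A] (r : Gal →* M2 A)
    (hr : MatCont r) (σ : Gal) (v : Fin 2 → A) :
    (ofMat r hr).ρ σ v = (r σ).mulVec v := rfl

/-- Push a matrix valued representation forward along a ring homomorphism (entrywise). -/
def mapMat {A B : Type} [CommRing A] [CommRing B] (φ : A →+* B) (r : Gal →* M2 A) : Gal →* M2 B :=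
  (φ.mapMatrix : M2 A →+* M2 B).toMonoidHom.comp r

@[simp] theorem mapMat_apply {A B : Type} [CommRing A] [CommRing B] (φ : A →+* B)
    (r : Gal →* M2 A) (σ : Gal) (i j : Fin 2) : mapMat φ r σ i j = φ (r σ i j) := rfl

/-- The set of all matrix entries of a representation. -/
def entries {A : Type} [CommRing A] (r : Gal →* M2 A) : Set A :=
  Set.range fun x : Gal × Fin 2 × Fin 2 => r x.1 x.2.1 x.2.2

section Setup

variable (𝒪 : Type) [CommRing 𝒪] [IsLocalRing 𝒪]

/-- Rigidifying data for an absolutely irreducible residual representation. -/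
structure Setup (ρbar : ResidualGaloisRep (ResidueField 𝒪)) where
  /-- matrix form of `ρbar` -/
  rb : Gal →* M2 (ResidueField 𝒪)
  /-- the basis in which `rb` is the matrix form of `ρbar` -/
  e : ρbar.V ≃ₗ[ResidueField 𝒪] (Fin 2 → ResidueField 𝒪)
  he : ∀ (σ : Gal) (v : ρbar.V), e (ρbar.ρ σ v) = (rb σ).mulVec (e v)
  g0 : Gal
  g1 : Gal
  i0 : Fin 2
  j0 : Fin 2
  c0 : 𝒪
  /-- a set-theoretic section of the residue map -/
  sec : ResidueField 𝒪 → 𝒪
  sec_spec : ∀ x, residue 𝒪 (sec x) = x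
  h00 : rb g0 0 0 = 0
  h10 : rb g0 1 0 = 1
  hcomm : (rb g1 * rb g0 - rb g0 * rb g1) i0 j0 ≠ 0
  hc0 : residue 𝒪 c0 = rb g1 i0 j0
  schur : ∀ M : M2 (ResidueField 𝒪), (∀ σ, M * rb σ = rb σ * M) →
    ∃ c : ResidueField 𝒪, M = Matrix.scalar (Fin 2) c
  fin : ∃ L : IntermediateField ℚ (AlgebraicClosure ℚ), FiniteDimensional ℚ L ∧
    ∀ σ : Gal, (∀ x ∈ L, σ x = x) → rb σ = 1

variable {𝒪} {ρbar : ResidualGaloisRep (ResidueField 𝒪)}

/-- `r` reduces to `rb` modulo the maximal ideal. -/
def Lifts (S : Setup 𝒪 ρbar) {A : Type} [CommRing A] [IsLocalRing A] [Algebra 𝒪 A]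
    (r : Gal →* M2 A) : Prop :=
  ∀ (σ : Gal) (i j : Fin 2), r σ i j - algebraMap 𝒪 A (S.sec (S.rb σ i j)) ∈ maximalIdeal A

/-- `r` is in normal form. -/
def IsNF (S : Setup 𝒪 ρbar) {A : Type} [CommRing A] [Algebra 𝒪 A] (r : Gal →* M2 A) : Prop :=
  r S.g0 0 0 = 0 ∧ r S.g0 1 0 = 1 ∧ r S.g1 S.i0 S.j0 = algebraMap 𝒪 A S.c0

/-- `r` is a normalised deformation of type `𝒟`. -/
structure IsDefo (S : Setup 𝒪 ρbar)
    (𝒟 : ∀ ⦃A : Type⦄ [CommRing A] [IsLocalRing A] [Algebra 𝒪 A], GaloisRepAdic A → Prop)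
    {A : Type} [CommRing A] [IsLocalRing A] [Algebra 𝒪 A] (r : Gal →* M2 A) : Prop where
  lifts : Lifts S r
  nf : IsNF S r
  cont : MatCont r
  type : 𝒟 (ofMat r cont)

/-- A finite local test algebra of level `n` (i.e. `𝔪 ^ n = 0`) together with a normalised
deformation whose entries generate it. -/
structure LevelObj (S : Setup 𝒪 ρbar)
    (𝒟 : ∀ ⦃A : Type⦄ [CommRing A] [IsLocalRing A] [Algebra 𝒪 A], GaloisRepAdic A → Prop)
    (n : ℕ) where
  A : Type
  [instCommRing : CommRing A]
  [instIsLocalRing : IsLocalRing A]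
  [instAlgebra : Algebra 𝒪 A]
  [instFinite : Finite A]
  test : GaloisRep.IsArtinianTestAlgebra 𝒪 A
  pow_eq : maximalIdeal A ^ n = ⊥
  r : Gal →* M2 A
  defo : IsDefo S 𝒟 r
  gen : Algebra.adjoin 𝒪 (entries r) = ⊤

attribute [instance] LevelObj.instCommRing LevelObj.instIsLocalRing LevelObj.instAlgebra
  LevelObj.instFinite

end Setup

section Dual

variable (𝒪 : Type) [CommRing 𝒪] [IsLocalRing 𝒪]

/-- The `𝒪`-algebra structure on the dual numbers over the residue field which is used
in `GaloisRep.TangentFinite` (NOT declared as a global instance). -/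
@[reducible] def dualAlg : Algebra 𝒪 (DualNumber (ResidueField 𝒪)) :=
  ((algebraMap (ResidueField 𝒪) (DualNumber (ResidueField 𝒪))).comp
    (algebraMap 𝒪 (ResidueField 𝒪))).toAlgebra

/-- The algebra structure on the residue field of the dual numbers used in
`GaloisRep.TangentFinite`. -/
@[reducible] def dualResAlg :
    Algebra (ResidueField 𝒪) (ResidueField (DualNumber (ResidueField 𝒪))) :=
  ((IsLocalRing.residue (DualNumber (ResidueField 𝒪))).comp
    (algebraMap (ResidueField 𝒪) (DualNumber (ResidueField 𝒪)))).toAlgebra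

end Dual

end Fermat.Agent.S53

end
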