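/-
S53 package P-B: dictionary between `GaloisRepAdic A` and matrix valued representations.
-/
import Fermat.Agent.S53.Defs

set_option autoImplicit false

noncomputable section

open scoped TensorProduct

namespace Fermat.Agent.S53.Bridge

open IsLocalRing

section Basics

variable {A : Type} [CommRing A]

/-- Coordinates of an element of `I • ⊤` lie in `I`. -/
theorem basis_repr_mem_of_mem_smul_top {V : Type} [AddCommGroup V] [Module A V] {ι : Type}
    (b : Module.Basis ι A V) (I : Ideal A) {v : V} (hv : v ∈ I • (⊤ : Submodule A V)) (i : ι) :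
    b.repr v i ∈ I := by
  refine Submodule.smul_induction_on (p := fun v => b.repr v i ∈ I) hv ?_ ?_
  · intro a ha w _
    simp only [map_smul, Finsupp.smul_apply, smul_eq_mul]
    exact I.mul_mem_right _ ha
  · intro x y hx hy
    simp only [map_add, Finsupp.add_apply]
    exact I.add_mem hx hy

theorem mapMat_eq_mapMatrix {B : Type} [CommRing B] (φ : A →+* B) (r : Gal →* M2 A) (σ : Gal) :
    mapMat φ r σ = φ.mapMatrix (r σ) := rfl

theorem mapMat_eq_map {B : Type} [CommRing B] (φ : A →+* B) (r : Gal →* M2 A) (σ : Gal) :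
    mapMat φ r σ = (r σ).map φ := rfl

theorem mapMat_id (r : Gal →* M2 A) : mapMat (RingHom.id A) r = r := by
  ext σ i j; rfl

theorem mapMat_comp {B C : Type} [CommRing B] [CommRing C] (ψ : B →+* C) (φ : A →+* B)
    (r : Gal →* M2 A) : mapMat (ψ.comp φ) r = mapMat ψ (mapMat φ r) := by
  ext σ i j; rfl

end Basics

section Adic

variable {A : Type} [CommRing A] [IsLocalRing A]

/-- The matrix-valued action of `ρ` in the basis `b`. -/
def toMat (ρ : GaloisRepAdic A) (b : Module.Basis (Fin 2) A ρ.V) : Gal →* M2 A :=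
  (MonoidHomClass.toMonoidHom (LinearMap.toMatrixAlgEquiv b)).comp ρ.ρ

theorem toMat_apply (ρ : GaloisRepAdic A) (b : Module.Basis (Fin 2) A ρ.V) (σ : Gal) :
    toMat ρ b σ = LinearMap.toMatrix b b (ρ.ρ σ) := rfl

theorem toMat_cont (ρ : GaloisRepAdic A) (b : Module.Basis (Fin 2) A ρ.V) :
    MatCont (toMat ρ b) := by
  intro n
  obtain ⟨L, hL, h⟩ := ρ.isAdicContinuous n
  refine ⟨L, hL, fun σ hσ i j => ?_⟩
  have := basis_repr_mem_of_mem_smul_top b _ (h σ hσ (b j)) i
  rw [Matrix.sub_apply, toMat_apply, LinearMap.toMatrix_apply, Matrix.one_apply]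
  rw [map_sub, Finsupp.sub_apply, Module.Basis.repr_self, Finsupp.single_apply] at this
  simpa [eq_comm] using this

theorem isEquiv_refl (ρ : GaloisRepAdic A) : ρ.IsEquiv ρ := ⟨GaloisRepAdic.Equiv.refl ρ⟩

theorem isEquiv_symm {ρ ρ' : GaloisRepAdic A} (h : ρ.IsEquiv ρ') : ρ'.IsEquiv ρ :=
  h.elim fun e => ⟨e.symm⟩

theorem isEquiv_trans {ρ₁ ρ₂ ρ₃ : GaloisRepAdic A} (h : ρ₁.IsEquiv ρ₂) (h' : ρ₂.IsEquiv ρ₃) :
    ρ₁.IsEquiv ρ₃ :=
  h.elim fun e => h'.elim fun e' => ⟨e.trans e'⟩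

/-- A basis of the underlying free rank-2 module. -/
def stdBasis (ρ : GaloisRepAdic A) : Module.Basis (Fin 2) A ρ.V :=
  Module.finBasisOfFinrankEq A ρ.V ρ.finrank_eq

theorem ofMat_congr {r r' : Gal →* M2 A} (h : r = r') (hr : MatCont r) (hr' : MatCont r') :
    ofMat r hr = ofMat r' hr' := by
  subst h; rfl

/-- The standard basis of the underlying module `Fin 2 → A` of `ofMat r hr`. -/
def ofMatBasis (r : Gal →* M2 A) (hr : MatCont r) : Module.Basis (Fin 2) A (ofMat r hr).V :=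
  Pi.basisFun A (Fin 2)

/-- Every representation is equivalent to the matrix representation it defines in a basis. -/
theorem isEquiv_ofMat_toMat (ρ : GaloisRepAdic A) (b : Module.Basis (Fin 2) A ρ.V) :
    ρ.IsEquiv (ofMat (toMat ρ b) (toMat_cont ρ b)) :=
  ⟨{ toLinearEquiv := b.equivFun
     map_apply := fun σ x => by
       change b.repr (ρ.ρ σ x) = (LinearMap.toMatrix b b (ρ.ρ σ)).mulVec (b.repr x)
       rw [LinearMap.toMatrix_mulVec_repr] }⟩

theorem toMat_ofMat (r : Gal →* M2 A) (hr : MatCont r) :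
    toMat (ofMat r hr) (ofMatBasis r hr) = r := by
  ext σ : 1
  change LinearMap.toMatrix (Pi.basisFun A (Fin 2)) (Pi.basisFun A (Fin 2))
    (Matrix.toLin' (r σ)) = r σ
  rw [LinearMap.toMatrix_eq_toMatrix', LinearMap.toMatrix'_toLin']

/-- The linear automorphism of `Fin 2 → A` given by an invertible matrix. -/
def unitEquiv (P : (M2 A)ˣ) : (Fin 2 → A) ≃ₗ[A] (Fin 2 → A) :=
  LinearEquiv.ofLinearMap (Matrix.toLin' (P : M2 A)) (Matrix.toLin' ((P⁻¹ : (M2 A)ˣ) : M2 A))
    (by rw [← Matrix.toLin'_mul, Units.mul_inv, Matrix.toLin'_one])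
    (by rw [← Matrix.toLin'_mul, Units.inv_mul, Matrix.toLin'_one])

omit [IsLocalRing A] in
theorem unitEquiv_apply (P : (M2 A)ˣ) (x : Fin 2 → A) : unitEquiv P x = (P : M2 A).mulVec x :=
  rfl

omit [IsLocalRing A] in
theorem unitEquiv_intertwine {r r' : Gal →* M2 A} (P : (M2 A)ˣ)
    (h : ∀ σ, (P : M2 A) * r σ = r' σ * P) (σ : Gal) (x : Fin 2 → A) :
    unitEquiv P ((r σ).mulVec x) = (r' σ).mulVec (unitEquiv P x) := by
  rw [unitEquiv_apply, unitEquiv_apply, Matrix.mulVec_mulVec, Matrix.mulVec_mulVec, h]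

/-- Conjugate matrix-valued actions give equivalent representations. -/
theorem ofMat_isEquiv_ofMat_of_conj {r r' : Gal →* M2 A}
    (hr : MatCont r) (hr' : MatCont r') (P : (M2 A)ˣ)
    (h : ∀ σ, (P : M2 A) * r σ = r' σ * P) :
    (ofMat r hr).IsEquiv (ofMat r' hr') :=
  ⟨{ toLinearEquiv := unitEquiv P
     map_apply := fun σ x => unitEquiv_intertwine P h σ x }⟩

/-- Equivalent matrix representations are conjugate. -/
theorem exists_conj_of_ofMat_isEquiv_ofMat {r r' : Gal →* M2 A}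
    (hr : MatCont r) (hr' : MatCont r') (h : (ofMat r hr).IsEquiv (ofMat r' hr')) :
    ∃ P : (M2 A)ˣ, ∀ σ, (P : M2 A) * r σ = r' σ * P := by
  obtain ⟨e⟩ := h
  let f : (Fin 2 → A) ≃ₗ[A] (Fin 2 → A) := e.toLinearEquiv
  refine ⟨⟨LinearMap.toMatrix' f.toLinearMap, LinearMap.toMatrix' f.symm.toLinearMap, ?_, ?_⟩,
    fun σ => ?_⟩
  · rw [← LinearMap.toMatrix'_comp]
    have : f.toLinearMap.comp f.symm.toLinearMap = LinearMap.id := by ext x; simp
    rw [this, LinearMap.toMatrix'_id]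
  · rw [← LinearMap.toMatrix'_comp]
    have : f.symm.toLinearMap.comp f.toLinearMap = LinearMap.id := by ext x; simp
    rw [this, LinearMap.toMatrix'_id]
  · have h1 : f.toLinearMap.comp (Matrix.toLin' (r σ)) =
        (Matrix.toLin' (r' σ)).comp f.toLinearMap :=
      LinearMap.ext fun x => e.map_apply σ x
    have h2 := congrArg LinearMap.toMatrix' h1
    rw [LinearMap.toMatrix'_comp, LinearMap.toMatrix'_comp, LinearMap.toMatrix'_toLin',
      LinearMap.toMatrix'_toLin'] at h2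
    exact h2

theorem ofMat_isEquiv_ofMat_iff {r r' : Gal →* M2 A} (hr : MatCont r) (hr' : MatCont r') :
    (ofMat r hr).IsEquiv (ofMat r' hr') ↔ ∃ P : (M2 A)ˣ, ∀ σ, (P : M2 A) * r σ = r' σ * P :=
  ⟨exists_conj_of_ofMat_isEquiv_ofMat hr hr',
    fun ⟨P, hP⟩ => ofMat_isEquiv_ofMat_of_conj hr hr' P hP⟩

/-- Two representations are equivalent iff their matrix forms (in any bases) are conjugate. -/
theorem isEquiv_iff_exists_conj (ρ ρ' : GaloisRepAdic A) (b : Module.Basis (Fin 2) A ρ.V)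
    (b' : Module.Basis (Fin 2) A ρ'.V) :
    ρ.IsEquiv ρ' ↔ ∃ P : (M2 A)ˣ, ∀ σ, (P : M2 A) * toMat ρ b σ = toMat ρ' b' σ * P := by
  rw [← ofMat_isEquiv_ofMat_iff (toMat_cont ρ b) (toMat_cont ρ' b')]
  constructor
  · intro h
    exact isEquiv_trans (isEquiv_symm (isEquiv_ofMat_toMat ρ b))
      (isEquiv_trans h (isEquiv_ofMat_toMat ρ' b'))
  · intro h
    exact isEquiv_trans (isEquiv_ofMat_toMat ρ b)
      (isEquiv_trans h (isEquiv_symm (isEquiv_ofMat_toMat ρ' b')))

/-- A representation equivalent to a matrix representation `ofMat r` has a basis in which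
its matrix form is exactly `r`. -/
theorem exists_basis_toMat_eq {ρ : GaloisRepAdic A} {r : Gal →* M2 A}
    (hr : MatCont r) (h : ρ.IsEquiv (ofMat r hr)) :
    ∃ b : Module.Basis (Fin 2) A ρ.V, toMat ρ b = r := by
  obtain ⟨e⟩ := h
  let f : ρ.V ≃ₗ[A] (Fin 2 → A) := e.toLinearEquiv
  refine ⟨Module.Basis.ofEquivFun f, ?_⟩
  ext σ i j
  rw [toMat_apply, LinearMap.toMatrix_apply, Module.Basis.coe_ofEquivFun]
  change f (ρ.ρ σ (f.symm (Pi.single j 1))) i = r σ i j
  have := e.map_apply σ (f.symm (Pi.single j 1))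
  change f (ρ.ρ σ (f.symm (Pi.single j 1))) = (r σ).mulVec (f (f.symm (Pi.single j 1))) at this
  rw [this, LinearEquiv.apply_symm_apply, Matrix.mulVec_single_one]
  rfl

end Adic

section BaseChange

variable {A : Type} [CommRing A] [IsLocalRing A] {B : Type} [CommRing B] [IsLocalRing B]

theorem isEquiv_baseChangeAlong (φ : A →+* B) (hφ : IsLocalHom φ) {ρ₁ ρ₂ : GaloisRepAdic A}
    (h : ρ₁.IsEquiv ρ₂) : (ρ₁.baseChangeAlong φ hφ).IsEquiv (ρ₂.baseChangeAlong φ hφ) :=
  h.elim fun e => ⟨e.baseChangeAlong φ hφ⟩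

theorem maximalIdeal_pow_map_le (φ : A →+* B) (hφ : IsLocalHom φ) (n : ℕ) :
    (maximalIdeal A ^ n).map φ ≤ maximalIdeal B ^ n := by
  rw [Ideal.map_pow]
  exact Ideal.pow_right_mono (Ideal.map_le_iff_le_comap.mpr fun a ha =>
    Ideal.mem_comap.mpr (have := hφ; map_nonunit φ a ha)) n

theorem matCont_mapMat' (φ : A →+* B) (hφ : IsLocalHom φ) {r : Gal →* M2 A} (hr : MatCont r) :
    MatCont (mapMat φ r) := by
  intro n
  obtain ⟨L, hL, h⟩ := hr n
  refine ⟨L, hL, fun σ hσ i j => ?_⟩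
  have h1 : mapMat φ r σ - 1 = φ.mapMatrix (r σ - 1) := by
    rw [map_sub, map_one]; rfl
  rw [h1, RingHom.mapMatrix_apply, Matrix.map_apply]
  exact maximalIdeal_pow_map_le φ hφ n (Ideal.mem_map_of_mem φ (h σ hσ i j))

/-- The basis of the base change induced by a basis. -/
def baseChangeBasis (φ : A →+* B) (hφ : IsLocalHom φ) (ρ : GaloisRepAdic A)
    (b : Module.Basis (Fin 2) A ρ.V) : Module.Basis (Fin 2) B (ρ.baseChangeAlong φ hφ).V :=
  letI : Algebra A B := φ.toAlgebra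
  Algebra.TensorProduct.basis B b

/-- Base change corresponds to applying the ring homomorphism entrywise. -/
theorem toMat_baseChangeAlong (φ : A →+* B) (hφ : IsLocalHom φ) (ρ : GaloisRepAdic A)
    (b : Module.Basis (Fin 2) A ρ.V) :
    toMat (ρ.baseChangeAlong φ hφ) (baseChangeBasis φ hφ ρ b) = mapMat φ (toMat ρ b) := by
  ext σ : 1
  rw [toMat_apply]
  exact @LinearMap.toMatrix_baseChange A ρ.V ρ.V (Fin 2) (Fin 2) B _ _ _ _ _ φ.toAlgebra _ _ _ _
    (ρ.ρ σ) b b

theorem baseChangeAlong_isEquiv_ofMat (φ : A →+* B) (hφ : IsLocalHom φ) (ρ : GaloisRepAdic A)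
    (b : Module.Basis (Fin 2) A ρ.V) :
    (ρ.baseChangeAlong φ hφ).IsEquiv
      (ofMat (mapMat φ (toMat ρ b)) (matCont_mapMat' φ hφ (toMat_cont ρ b))) := by
  have h := isEquiv_ofMat_toMat (ρ.baseChangeAlong φ hφ) (baseChangeBasis φ hφ ρ b)
  rwa [ofMat_congr (toMat_baseChangeAlong φ hφ ρ b) _ (matCont_mapMat' φ hφ (toMat_cont ρ b))]
    at h

/-- Base change of a matrix representation is the entrywise mapped matrix representation. -/
theorem ofMat_baseChangeAlong_isEquiv (φ : A →+* B) (hφ : IsLocalHom φ)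
    (r : Gal →* M2 A) (hr : MatCont r) (hr' : MatCont (mapMat φ r)) :
    ((ofMat r hr).baseChangeAlong φ hφ).IsEquiv (ofMat (mapMat φ r) hr') := by
  have h := baseChangeAlong_isEquiv_ofMat φ hφ (ofMat r hr) (ofMatBasis r hr)
  rwa [ofMat_congr (congrArg (mapMat φ) (toMat_ofMat r hr)) _ hr'] at h

end BaseChange

section Conj

variable {A : Type} [CommRing A]

/-- Conjugating a matrix-valued action by an invertible matrix. -/
def conjMat (P : (M2 A)ˣ) (r : Gal →* M2 A) : Gal →* M2 A where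
  toFun σ := P * r σ * ((P⁻¹ : (M2 A)ˣ) : M2 A)
  map_one' := by simp
  map_mul' σ τ := by
    rw [map_mul]
    simp only [mul_assoc, Units.inv_mul_cancel_left]

theorem conjMat_apply (P : (M2 A)ˣ) (r : Gal →* M2 A) (σ : Gal) :
    conjMat P r σ = P * r σ * ((P⁻¹ : (M2 A)ˣ) : M2 A) := rfl

theorem conjMat_mul_eq (P : (M2 A)ˣ) (r : Gal →* M2 A) (σ : Gal) :
    (P : M2 A) * r σ = conjMat P r σ * P := by
  rw [conjMat_apply, mul_assoc, Units.inv_mul, mul_one]

theorem eq_conjMat_of_mul_eq {P : (M2 A)ˣ} {r r' : Gal →* M2 A}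
    (h : ∀ σ, (P : M2 A) * r σ = r' σ * P) : r' = conjMat P r := by
  ext σ : 1
  rw [conjMat_apply, h σ, mul_assoc, Units.mul_inv, mul_one]

theorem conjMat_one (r : Gal →* M2 A) : conjMat 1 r = r := by
  ext σ : 1
  simp [conjMat_apply]

theorem conjMat_conjMat (P Q : (M2 A)ˣ) (r : Gal →* M2 A) :
    conjMat P (conjMat Q r) = conjMat (P * Q) r := by
  ext σ : 1
  simp only [conjMat_apply, Units.val_mul, mul_inv_rev, mul_assoc]

/-- Entrywise maps commute with conjugation. -/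
theorem mapMat_conjMat {B : Type} [CommRing B] (φ : A →+* B) (P : (M2 A)ˣ) (r : Gal →* M2 A) :
    mapMat φ (conjMat P r) =
      conjMat (Units.map (MonoidHomClass.toMonoidHom φ.mapMatrix) P) (mapMat φ r) := by
  ext σ : 1
  change φ.mapMatrix ((P : M2 A) * r σ * ((P⁻¹ : (M2 A)ˣ) : M2 A)) = _
  rw [map_mul, map_mul]
  rfl

end Conj

section ConjLocal

variable {A : Type} [CommRing A] [IsLocalRing A]

theorem matCont_conjMat {r : Gal →* M2 A} (hr : MatCont r) (P : (M2 A)ˣ) :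
    MatCont (conjMat P r) := by
  intro n
  obtain ⟨L, hL, h⟩ := hr n
  refine ⟨L, hL, fun σ hσ i j => ?_⟩
  have h1 : conjMat P r σ - 1 = (P : M2 A) * (r σ - 1) * ((P⁻¹ : (M2 A)ˣ) : M2 A) := by
    rw [conjMat_apply, mul_sub, sub_mul, mul_one, Units.mul_inv]
  rw [h1, Matrix.mul_apply]
  refine Ideal.sum_mem _ fun l _ => Ideal.mul_mem_right _ _ ?_
  rw [Matrix.mul_apply]
  exact Ideal.sum_mem _ fun m _ => Ideal.mul_mem_left _ _ (h σ hσ m l)

/-- Conjugate actions give equivalent representations (`conjMat` form). -/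
theorem ofMat_isEquiv_ofMat_conjMat (r : Gal →* M2 A) (hr : MatCont r) (P : (M2 A)ˣ) :
    (ofMat r hr).IsEquiv (ofMat (conjMat P r) (matCont_conjMat hr P)) :=
  ofMat_isEquiv_ofMat_of_conj hr (matCont_conjMat hr P) P (conjMat_mul_eq P r)

/-- Changing the basis conjugates the matrix form: every conjugate of `toMat ρ b` is the
matrix form of `ρ` in another basis. -/
theorem exists_basis_toMat_eq_conjMat (ρ : GaloisRepAdic A) (b : Module.Basis (Fin 2) A ρ.V)
    (P : (M2 A)ˣ) : ∃ b' : Module.Basis (Fin 2) A ρ.V, toMat ρ b' = conjMat P (toMat ρ b) :=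
  exists_basis_toMat_eq (matCont_conjMat (toMat_cont ρ b) P)
    (isEquiv_trans (isEquiv_ofMat_toMat ρ b) (ofMat_isEquiv_ofMat_conjMat _ _ P))

/-- Any two matrix forms of the same representation are conjugate. -/
theorem exists_conjMat_eq_toMat (ρ : GaloisRepAdic A) (b b' : Module.Basis (Fin 2) A ρ.V) :
    ∃ P : (M2 A)ˣ, toMat ρ b' = conjMat P (toMat ρ b) := by
  obtain ⟨P, hP⟩ := (isEquiv_iff_exists_conj ρ ρ b b').mp (isEquiv_refl ρ)
  exact ⟨P, eq_conjMat_of_mul_eq hP⟩

end ConjLocal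

section Lift

/-- Invertible matrices lift along surjective local homomorphisms. -/
theorem exists_unit_map_eq {A B : Type} [CommRing A] [CommRing B] (φ : A →+* B)
    (hφ : IsLocalHom φ) (hsurj : Function.Surjective φ) (Q : (M2 B)ˣ) :
    ∃ P : (M2 A)ˣ, Units.map (MonoidHomClass.toMonoidHom φ.mapMatrix) P = Q := by
  choose g hg using hsurj
  let P0 : M2 A := Matrix.of fun i j => g (Q.1 i j)
  have hP0 : φ.mapMatrix P0 = Q.1 := by
    ext i j
    simp [P0, hg]
  have hdet : IsUnit P0.det := by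
    have := hφ
    apply isUnit_of_map_unit φ
    rw [RingHom.map_det, hP0]
    exact (Matrix.isUnit_iff_isUnit_det _).mp Q.isUnit
  obtain ⟨P, hP⟩ := (Matrix.isUnit_iff_isUnit_det P0).mpr hdet
  refine ⟨P, Units.ext ?_⟩
  change φ.mapMatrix (P : M2 A) = Q.1
  rw [hP, hP0]

end Lift

end Fermat.Agent.S53.Bridge

namespace Fermat.Agent.S53

open IsLocalRing

variable {A B : Type} [CommRing A] [IsLocalRing A] [CommRing B] [IsLocalRing B]

/-- Continuity is preserved by entrywise push-forward along a local homomorphism. -/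
theorem matCont_mapMat (φ : A →+* B) (hφ : IsLocalHom φ) {r : Gal →* M2 A} (hr : MatCont r) :
    MatCont (mapMat φ r) :=
  Bridge.matCont_mapMat' φ hφ hr

/-- Continuity is preserved by conjugation. -/
theorem matCont_conj (M : M2 A) (hM : IsUnit M) {r r' : Gal →* M2 A}
    (h : ∀ σ, M * r σ = r' σ * M) (hr : MatCont r) : MatCont r' := by
  obtain ⟨P, rfl⟩ := hM
  rw [Bridge.eq_conjMat_of_mul_eq h]
  exact Bridge.matCont_conjMat hr P

/-- Base change of `ofMat r` is `ofMat` of the entrywise image (via `TensorProduct.piScalarRight`). -/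
theorem ofMat_baseChangeAlong (φ : A →+* B) (hφ : IsLocalHom φ) (r : Gal →* M2 A) (hr : MatCont r)
    (hr' : MatCont (mapMat φ r)) :
    ((ofMat r hr).baseChangeAlong φ hφ).IsEquiv (ofMat (mapMat φ r) hr') :=
  Bridge.ofMat_baseChangeAlong_isEquiv φ hφ r hr hr'

/-- Equivalence of `ofMat`'s is conjugacy by an invertible matrix. -/
theorem isEquiv_ofMat_iff (r r' : Gal →* M2 A) (hr : MatCont r) (hr' : MatCont r') :
    (ofMat r hr).IsEquiv (ofMat r' hr') ↔ ∃ M : M2 A, IsUnit M ∧ ∀ σ, M * r σ = r' σ * M := by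
  rw [Bridge.ofMat_isEquiv_ofMat_iff hr hr']
  constructor
  · rintro ⟨P, hP⟩
    exact ⟨P, P.isUnit, hP⟩
  · rintro ⟨M, ⟨P, rfl⟩, hP⟩
    exact ⟨P, hP⟩

/-- Every `GaloisRepAdic` is equivalent to some `ofMat` (choose a basis of the free rank 2 module). -/
theorem exists_ofMat (ρ : GaloisRepAdic A) :
    ∃ (r : Gal →* M2 A) (hr : MatCont r), ρ.IsEquiv (ofMat r hr) :=
  ⟨Bridge.toMat ρ (Bridge.stdBasis ρ), Bridge.toMat_cont ρ (Bridge.stdBasis ρ),
    Bridge.isEquiv_ofMat_toMat ρ (Bridge.stdBasis ρ)⟩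

end Fermat.Agent.S53

end
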