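/-
S53 package P-L: basic stability properties of normalised deformations (`Lifts`, `IsNF`, `IsDefo`)
under `𝒪`-algebra maps.  Uses the statements of `Bridge.lean` and the closure properties of
`GaloisRep.IsDeformationCondition`.
-/
import Fermat.Agent.S53.Defs
import Fermat.Agent.S53.Bridge

set_option autoImplicit false

noncomputable section

namespace Fermat.Agent.S53

open IsLocalRing

variable {𝒪 : Type} [CommRing 𝒪] [IsLocalRing 𝒪] {ρbar : ResidualGaloisRep (ResidueField 𝒪)}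
  {𝒟 : ∀ ⦃A : Type⦄ [CommRing A] [IsLocalRing A] [Algebra 𝒪 A], GaloisRepAdic A → Prop}
  {A B : Type} [CommRing A] [IsLocalRing A] [Algebra 𝒪 A] [CommRing B] [IsLocalRing B] [Algebra 𝒪 B]

theorem Lifts.map (S : Setup 𝒪 ρbar) (φ : A →ₐ[𝒪] B) (hφ : IsLocalHom (φ : A →+* B))
    {r : Gal →* M2 A} (h : Lifts S r) : Lifts S (mapMat (φ : A →+* B) r) := by
  intro σ i j
  have h1 := h σ i j
  have h2 : (φ : A →+* B) (r σ i j - algebraMap 𝒪 A (S.sec (S.rb σ i j))) ∈ maximalIdeal B := by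
    rw [mem_maximalIdeal, mem_nonunits_iff] at h1 ⊢
    intro hu
    exact h1 (hφ.map_nonunit _ hu)
  rw [map_sub] at h2
  rw [mapMat_apply]
  have h3 : (φ : A →+* B) (algebraMap 𝒪 A (S.sec (S.rb σ i j)))
      = algebraMap 𝒪 B (S.sec (S.rb σ i j)) := φ.commutes _
  rwa [h3] at h2

/-- (any ring hom between local rings reflects membership of the maximal ideal) -/
theorem Lifts.of_map (S : Setup 𝒪 ρbar) (φ : A →ₐ[𝒪] B)
    {r : Gal →* M2 A} (h : Lifts S (mapMat (φ : A →+* B) r)) : Lifts S r := by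
  intro σ i j
  have h1 := h σ i j
  rw [mapMat_apply] at h1
  have h3 : (φ : A →+* B) (algebraMap 𝒪 A (S.sec (S.rb σ i j)))
      = algebraMap 𝒪 B (S.sec (S.rb σ i j)) := φ.commutes _
  rw [← h3, ← map_sub] at h1
  rw [mem_maximalIdeal, mem_nonunits_iff] at h1 ⊢
  intro hu
  exact h1 (hu.map (φ : A →+* B))

theorem IsNF.map (S : Setup 𝒪 ρbar) (φ : A →ₐ[𝒪] B) {r : Gal →* M2 A} (h : IsNF S r) :
    IsNF S (mapMat (φ : A →+* B) r) := by
  obtain ⟨h1, h2, h3⟩ := h
  refine ⟨?_, ?_, ?_⟩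
  · rw [mapMat_apply, h1, map_zero]
  · rw [mapMat_apply, h2, map_one]
  · rw [mapMat_apply, h3]
    exact φ.commutes _

theorem IsNF.of_map (S : Setup 𝒪 ρbar) (φ : A →ₐ[𝒪] B) (hinj : Function.Injective φ)
    {r : Gal →* M2 A} (h : IsNF S (mapMat (φ : A →+* B) r)) : IsNF S r := by
  obtain ⟨h1, h2, h3⟩ := h
  rw [mapMat_apply] at h1 h2 h3
  refine ⟨?_, ?_, ?_⟩
  · apply hinj
    rw [map_zero]
    exact h1
  · apply hinj
    rw [map_one]
    exact h2
  · apply hinj
    rw [φ.commutes]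
    exact h3

/-- Over a local ring with nilpotent maximal ideal, continuity means: trivial on the subgroup
fixing some number field. -/
theorem matCont_iff_of_pow_eq_bot {n : ℕ} (hn : maximalIdeal A ^ n = ⊥) (r : Gal →* M2 A) :
    MatCont r ↔ ∃ L : IntermediateField ℚ (AlgebraicClosure ℚ), FiniteDimensional ℚ L ∧
      ∀ σ : Gal, (∀ x ∈ L, σ x = x) → r σ = 1 := by
  constructor
  · intro h
    obtain ⟨L, hL, hσ⟩ := h n
    refine ⟨L, hL, fun σ hfix => ?_⟩
    ext i j
    have h1 := hσ σ hfix i j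
    rw [hn, Ideal.mem_bot, Matrix.sub_apply, sub_eq_zero] at h1
    exact h1
  · rintro ⟨L, hL, hσ⟩ m
    refine ⟨L, hL, fun σ hfix i j => ?_⟩
    rw [hσ σ hfix, sub_self]
    exact Ideal.zero_mem _

/-- Push-forward of a normalised deformation along a local map of Artinian test algebras. -/
theorem IsDefo.map (S : Setup 𝒪 ρbar) (h𝒟 : GaloisRep.IsDeformationCondition 𝒪 𝒟)
    (hA : GaloisRep.IsArtinianTestAlgebra 𝒪 A) (hB : GaloisRep.IsArtinianTestAlgebra 𝒪 B)
    (φ : A →ₐ[𝒪] B) (hφ : IsLocalHom (φ : A →+* B)) {r : Gal →* M2 A} (h : IsDefo S 𝒟 r) :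
    IsDefo S 𝒟 (mapMat (φ : A →+* B) r) := by
  have hcont : MatCont (mapMat (φ : A →+* B) r) := matCont_mapMat (φ : A →+* B) hφ h.cont
  refine ⟨Lifts.map S φ hφ h.lifts, IsNF.map S φ h.nf, hcont, ?_⟩
  exact h𝒟.of_isEquiv hB (ofMat_baseChangeAlong (φ : A →+* B) hφ r h.cont hcont)
    (h𝒟.baseChangeAlong hA hB φ hφ h.type)

/-- An Artinian local ring has nilpotent maximal ideal. -/
theorem exists_maximalIdeal_pow_eq_bot_of_isArtinianRing (C : Type) [CommRing C] [IsLocalRing C]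
    [IsArtinianRing C] : ∃ n : ℕ, maximalIdeal C ^ n = ⊥ := by
  obtain ⟨n, hn⟩ := IsArtinianRing.isNilpotent_jacobson_bot (R := C)
  refine ⟨n, ?_⟩
  rw [← IsLocalRing.jacobson_eq_maximalIdeal (⊥ : Ideal C) bot_ne_top]
  exact hn

/-- Descent of continuity along an injective map into a local ring with nilpotent maximal
ideal. -/
theorem matCont_of_mapMat_injective {n : ℕ} (hn : maximalIdeal B ^ n = ⊥) (φ : A →+* B)
    (hinj : Function.Injective φ) {r : Gal →* M2 A} (h : MatCont (mapMat φ r)) : MatCont r := by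
  obtain ⟨L, hL, hσ⟩ := (matCont_iff_of_pow_eq_bot hn (mapMat φ r)).mp h
  intro m
  refine ⟨L, hL, fun σ hfix i j => ?_⟩
  have h1 : mapMat φ r σ i j = (1 : M2 B) i j := by rw [hσ σ hfix]
  have h2 : r σ i j = (1 : M2 A) i j := by
    apply hinj
    rw [mapMat_apply] at h1
    rw [h1]
    by_cases hij : i = j
    · subst hij
      simp
    · simp [Matrix.one_apply_ne hij]
  rw [Matrix.sub_apply, h2, sub_self]
  exact Ideal.zero_mem _

/-- Descent of a normalised deformation along an injective local map of Artinian test algebras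
(`h𝒟.of_baseChangeAlong_injective`). -/
theorem IsDefo.of_injective (S : Setup 𝒪 ρbar) (h𝒟 : GaloisRep.IsDeformationCondition 𝒪 𝒟)
    (hA : GaloisRep.IsArtinianTestAlgebra 𝒪 A) (hB : GaloisRep.IsArtinianTestAlgebra 𝒪 B)
    (φ : A →ₐ[𝒪] B) (hφ : IsLocalHom (φ : A →+* B)) (hinj : Function.Injective φ)
    {r : Gal →* M2 A} (h : IsDefo S 𝒟 (mapMat (φ : A →+* B) r)) : IsDefo S 𝒟 r := by
  haveI := hB.isArtinian
  obtain ⟨n, hn⟩ := exists_maximalIdeal_pow_eq_bot_of_isArtinianRing B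
  have hcont : MatCont r := matCont_of_mapMat_injective hn (φ : A →+* B) hinj h.cont
  refine ⟨Lifts.of_map S φ h.lifts, IsNF.of_map S φ hinj h.nf, hcont, ?_⟩
  refine h𝒟.of_baseChangeAlong_injective hA hB φ hφ hinj ?_
  exact h𝒟.of_isEquiv hB
    ⟨(ofMat_baseChangeAlong (φ : A →+* B) hφ r hcont h.cont).some.symm⟩ h.type

/-- A local `𝒪`-algebra map out of a ring generated by the entries of `r` is determined by the
image of `r`. -/
theorem algHom_ext_of_entries {r : Gal →* M2 A} (hgen : Algebra.adjoin 𝒪 (entries r) = ⊤)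
    (φ ψ : A →ₐ[𝒪] B) (h : mapMat (φ : A →+* B) r = mapMat (ψ : A →+* B) r) : φ = ψ := by
  refine AlgHom.ext_of_adjoin_eq_top hgen ?_
  rintro _ ⟨⟨σ, i, j⟩, rfl⟩
  have h1 : mapMat (φ : A →+* B) r σ i j = mapMat (ψ : A →+* B) r σ i j := by rw [h]
  simpa [mapMat_apply] using h1

end Fermat.Agent.S53

end
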