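/-
S53: small general lemmas used by the final assembly (team lead).
-/
import Fermat.Agent.S53.Defs

set_option autoImplicit false

noncomputable section

namespace Fermat.Agent.S53

open IsLocalRing

section Equiv

variable {A : Type} [CommRing A] [IsLocalRing A]

theorem isEquiv_refl (ρ : GaloisRepAdic A) : ρ.IsEquiv ρ := ⟨GaloisRepAdic.Equiv.refl ρ⟩

theorem isEquiv_symm {ρ₁ ρ₂ : GaloisRepAdic A} (h : ρ₁.IsEquiv ρ₂) : ρ₂.IsEquiv ρ₁ :=
  h.elim fun e => ⟨e.symm⟩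

theorem isEquiv_trans {ρ₁ ρ₂ ρ₃ : GaloisRepAdic A} (h : ρ₁.IsEquiv ρ₂) (h' : ρ₂.IsEquiv ρ₃) :
    ρ₁.IsEquiv ρ₃ :=
  h.elim fun e => h'.elim fun e' => ⟨e.trans e'⟩

theorem isEquiv_baseChangeAlong {B : Type} [CommRing B] [IsLocalRing B] (φ : A →+* B)
    (hφ : IsLocalHom φ) {ρ₁ ρ₂ : GaloisRepAdic A} (h : ρ₁.IsEquiv ρ₂) :
    (ρ₁.baseChangeAlong φ hφ).IsEquiv (ρ₂.baseChangeAlong φ hφ) :=
  h.elim fun e => ⟨e.baseChangeAlong φ hφ⟩

theorem ofMat_congr {r r' : Gal →* M2 A} (h : r = r') (hr : MatCont r) (hr' : MatCont r') :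
    (ofMat r hr).IsEquiv (ofMat r' hr') := by
  subst h
  exact isEquiv_refl _

theorem resIsEquiv_symm {k : Type} [Field k] {ρ₁ ρ₂ : ResidualGaloisRep k} (h : ρ₁.IsEquiv ρ₂) :
    ρ₂.IsEquiv ρ₁ :=
  h.elim fun e => ⟨e.symm⟩

theorem resIsEquiv_trans {k : Type} [Field k] {ρ₁ ρ₂ ρ₃ : ResidualGaloisRep k}
    (h : ρ₁.IsEquiv ρ₂) (h' : ρ₂.IsEquiv ρ₃) : ρ₁.IsEquiv ρ₃ :=
  h.elim fun e => h'.elim fun e' => ⟨e.trans e'⟩

theorem isEquiv_residual {ρ₁ ρ₂ : GaloisRepAdic A} (h : ρ₁.IsEquiv ρ₂) :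
    ρ₁.residual.IsEquiv ρ₂.residual :=
  h.elim fun e => ⟨e.residual⟩

end Equiv

section LocalHom

variable {A B : Type} [CommRing A] [IsLocalRing A] [CommRing B] [IsLocalRing B]

/-- A ring hom out of a local ring with nilpotent maximal ideal is local. -/
theorem isLocalHom_of_pow_eq_bot {n : ℕ} (hn : maximalIdeal A ^ n = ⊥) (φ : A →+* B) :
    IsLocalHom φ := by
  refine ⟨fun a ha => ?_⟩
  by_contra hna
  have ha' : a ∈ maximalIdeal A := hna
  have h0 : a ^ n = 0 := by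
    have : a ^ n ∈ maximalIdeal A ^ n := Ideal.pow_mem_pow ha' n
    rw [hn] at this
    exact this
  have h1 : (φ a) ^ n = 0 := by rw [← map_pow, h0, map_zero]
  have h2 : IsUnit ((φ a) ^ n) := ha.pow n
  rw [h1] at h2
  exact not_isUnit_zero h2

/-- A local hom maps `𝔪 ^ n` into `𝔪 ^ n`. -/
theorem map_mem_pow_of_isLocalHom (φ : A →+* B) (hφ : IsLocalHom φ) (n : ℕ) {a : A}
    (ha : a ∈ maximalIdeal A ^ n) : φ a ∈ maximalIdeal B ^ n := by
  have h1 : (maximalIdeal A ^ n).map φ ≤ maximalIdeal B ^ n := by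
    rw [Ideal.map_pow]
    exact Ideal.pow_right_mono (IsLocalRing.map_maximalIdeal_le φ) n
  exact h1 (Ideal.mem_map_of_mem φ ha)

/-- A local hom into a ring with `𝔪 ^ n = 0` kills `𝔪 ^ n`. -/
theorem map_eq_zero_of_mem_pow (φ : A →+* B) (hφ : IsLocalHom φ) {n : ℕ}
    (hn : maximalIdeal B ^ n = ⊥) {a : A} (ha : a ∈ maximalIdeal A ^ n) : φ a = 0 := by
  have := map_mem_pow_of_isLocalHom φ hφ n ha
  rw [hn] at this
  exact this

end LocalHom

section Quot

variable {𝒪 : Type} [CommRing 𝒪] [IsLocalRing 𝒪] (A : Type) [CommRing A] [IsLocalRing A]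
  [Algebra 𝒪 A]

theorem quotPow_nontrivial (n : ℕ) : Nontrivial (A ⧸ maximalIdeal A ^ (n + 1)) :=
  Ideal.Quotient.nontrivial_iff.mpr
    (ne_top_of_le_ne_top (maximalIdeal.isMaximal A).ne_top (Ideal.pow_le_self (Nat.succ_ne_zero n)))

theorem quotPow_isLocalRing (n : ℕ) : IsLocalRing (A ⧸ maximalIdeal A ^ (n + 1)) :=
  haveI := quotPow_nontrivial A n
  IsLocalRing.of_surjective' (Ideal.Quotient.mk _) Ideal.Quotient.mk_surjective

attribute [local instance] quotPow_nontrivial quotPow_isLocalRing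

theorem quotPow_isLocalHom_mk (n : ℕ) :
    IsLocalHom (Ideal.Quotient.mk (maximalIdeal A ^ (n + 1))) :=
  IsLocalHom.of_surjective _ Ideal.Quotient.mk_surjective

theorem quotPow_maximalIdeal_pow (n : ℕ) :
    maximalIdeal (A ⧸ maximalIdeal A ^ (n + 1)) ^ (n + 1) = ⊥ := by
  rw [← IsLocalRing.map_maximalIdeal_of_surjective (Ideal.Quotient.mk (maximalIdeal A ^ (n + 1)))
    Ideal.Quotient.mk_surjective, ← Ideal.map_pow, Ideal.map_quotient_self]

theorem quotPow_test [IsNoetherianRing A] (hloc : IsLocalHom (algebraMap 𝒪 A))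
    (hsurj : Function.Surjective (residue A ∘ algebraMap 𝒪 A)) (n : ℕ) :
    GaloisRep.IsArtinianTestAlgebra 𝒪 (A ⧸ maximalIdeal A ^ (n + 1)) where
  isLocalHom := by
    have h1 := quotPow_isLocalHom_mk A n
    have : algebraMap 𝒪 (A ⧸ maximalIdeal A ^ (n + 1)) =
        (Ideal.Quotient.mk (maximalIdeal A ^ (n + 1))).comp (algebraMap 𝒪 A) := rfl
    rw [this]
    exact RingHom.isLocalHom_comp _ _
  residue_surjective := by
    intro x
    obtain ⟨y, rfl⟩ := residue_surjective x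
    obtain ⟨a, rfl⟩ := Ideal.Quotient.mk_surjective y
    obtain ⟨c, hc⟩ := hsurj (residue A a)
    refine ⟨c, ?_⟩
    have hc' : algebraMap 𝒪 A c - a ∈ maximalIdeal A := by
      rw [← Ideal.Quotient.eq]
      exact hc
    show residue _ (Ideal.Quotient.mk _ (algebraMap 𝒪 A c)) = residue _ (Ideal.Quotient.mk _ a)
    rw [← sub_eq_zero, ← map_sub, ← map_sub, residue_eq_zero_iff]
    have h1 := quotPow_isLocalHom_mk A n
    exact map_nonunit (Ideal.Quotient.mk (maximalIdeal A ^ (n + 1))) _ hc'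
  isArtinian := by
    rw [isArtinianRing_iff_isNilpotent_maximalIdeal]
    exact ⟨n + 1, quotPow_maximalIdeal_pow A n⟩

end Quot


section LiftsRes

variable {𝒪 : Type} [CommRing 𝒪] [IsLocalRing 𝒪] {ρbar : ResidualGaloisRep (ResidueField 𝒪)}
  {A : Type} [CommRing A] [IsLocalRing A] [Algebra 𝒪 A] [IsLocalHom (algebraMap 𝒪 A)]

/-- The residue matrices of a lift of `rb` are the images of `rb`. -/
theorem map_residue_of_lifts (S : Setup 𝒪 ρbar) {r : Gal →* M2 A} (h : Lifts S r) (σ : Gal) :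
    (r σ).map (residue A) = (S.rb σ).map (ResidueField.map (algebraMap 𝒪 A)) := by
  ext i j
  rw [Matrix.map_apply, Matrix.map_apply]
  conv_rhs => rw [← S.sec_spec (S.rb σ i j)]
  rw [ResidueField.map_residue]
  exact (Ideal.Quotient.eq).mpr (h σ i j)

end LiftsRes

end Fermat.Agent.S53

end
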