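import Fermat.Prelude.Def_GaloisRep_DeformationCondition

/-!
# S53, package (f): closure lemmas for deformation conditions

Everything is stated on `GaloisRepAdic` (no matrices).
-/

set_option autoImplicit false
set_option linter.unusedSectionVars false
set_option linter.style.haveILetI false
set_option linter.unusedVariables false

noncomputable section

namespace Fermat.Agent.S53.DefCond

open scoped TensorProduct
open IsLocalRing

section BaseChangeComp

theorem cancelBaseChange_baseChange_baseChange {A B C M : Type} [CommRing A] [CommRing B]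
    [CommRing C] [Algebra A B] [Algebra B C] [Algebra A C] [IsScalarTower A B C]
    [AddCommGroup M] [Module A M] (f : M →ₗ[A] M) (x : C ⊗[B] (B ⊗[A] M)) :
    TensorProduct.AlgebraTensorModule.cancelBaseChange A B C C M
        ((f.baseChange B).baseChange C x) =
      f.baseChange C (TensorProduct.AlgebraTensorModule.cancelBaseChange A B C C M x) := by
  induction x using TensorProduct.induction_on with
  | zero => simp only [map_zero]
  | tmul c y =>
    induction y using TensorProduct.induction_on with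
    | zero => simp only [TensorProduct.tmul_zero, map_zero]
    | tmul b v =>
      rw [LinearMap.baseChange_tmul, LinearMap.baseChange_tmul,
        TensorProduct.AlgebraTensorModule.cancelBaseChange_tmul,
        TensorProduct.AlgebraTensorModule.cancelBaseChange_tmul,
        LinearMap.baseChange_tmul]
    | add y z hy hz =>
      simp only [TensorProduct.tmul_add, map_add, hy, hz]
  | add x y hx hy => simp only [map_add, hx, hy]

variable {A B C : Type} [CommRing A] [IsLocalRing A] [CommRing B] [IsLocalRing B]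
  [CommRing C] [IsLocalRing C]

/-- Base change along `φ` and then along `ψ` is base change along any `χ = ψ ∘ φ`. -/
def baseChangeAlongCompEquiv (ρ : GaloisRepAdic A) (φ : A →+* B) (hφ : IsLocalHom φ)
    (ψ : B →+* C) (hψ : IsLocalHom ψ) (χ : A →+* C) (hχ : IsLocalHom χ)
    (h : χ = ψ.comp φ) :
    GaloisRepAdic.Equiv ((ρ.baseChangeAlong φ hφ).baseChangeAlong ψ hψ)
      (ρ.baseChangeAlong χ hχ) := by
  subst h
  letI : Algebra A B := φ.toAlgebra
  letI : Algebra B C := ψ.toAlgebra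
  letI : Algebra A C := (ψ.comp φ).toAlgebra
  haveI : IsScalarTower A B C := IsScalarTower.of_algebraMap_eq (fun _ => rfl)
  exact
    { toLinearEquiv := TensorProduct.AlgebraTensorModule.cancelBaseChange A B C C ρ.V
      map_apply := fun σ x => cancelBaseChange_baseChange_baseChange (ρ.ρ σ) x }

theorem baseChangeAlong_comp_isEquiv (ρ : GaloisRepAdic A) (φ : A →+* B) (hφ : IsLocalHom φ)
    (ψ : B →+* C) (hψ : IsLocalHom ψ) (χ : A →+* C) (hχ : IsLocalHom χ)
    (h : χ = ψ.comp φ) :
    ((ρ.baseChangeAlong φ hφ).baseChangeAlong ψ hψ).IsEquiv (ρ.baseChangeAlong χ hχ) :=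
  ⟨baseChangeAlongCompEquiv ρ φ hφ ψ hψ χ hχ h⟩

end BaseChangeComp

section TestAlgebra

open GaloisRep

variable {𝒪 : Type} [CommRing 𝒪] [IsLocalRing 𝒪]

/-- Any ring hom from an Artinian local ring to a nontrivial ring is a local hom. -/
theorem isLocalHom_of_isArtinianRing {A C : Type} [CommRing A] [IsLocalRing A] [IsArtinianRing A]
    [CommRing C] [Nontrivial C] (f : A →+* C) : IsLocalHom f := by
  constructor
  intro a ha
  by_contra hna
  have hmem : a ∈ maximalIdeal A := (mem_maximalIdeal a).mpr hna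
  have hnil : IsNilpotent a := Ring.KrullDimLE.isNilpotent_iff_mem_maximalIdeal.mpr hmem
  exact (hnil.map f).not_isUnit ha

theorem ta_isLocalHom_algHom {A C : Type} [CommRing A] [IsLocalRing A]
    [Algebra 𝒪 A] [CommRing C] [Nontrivial C] [Algebra 𝒪 C] (hA : IsArtinianTestAlgebra 𝒪 A)
    (f : A →ₐ[𝒪] C) : IsLocalHom (f : A →+* C) :=
  haveI := hA.isArtinian
  isLocalHom_of_isArtinianRing _

/-- The residue field of `𝒪` is an Artinian test algebra. -/
theorem isArtinianTestAlgebra_residueField : IsArtinianTestAlgebra 𝒪 (ResidueField 𝒪) where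
  isLocalHom := by rw [ResidueField.algebraMap_eq]; infer_instance
  residue_surjective := by
    intro y
    obtain ⟨x, rfl⟩ := IsLocalRing.residue_surjective y
    obtain ⟨o, rfl⟩ := IsLocalRing.residue_surjective x
    exact ⟨o, by rw [Function.comp_apply, ResidueField.algebraMap_eq]⟩
  isArtinian := inferInstance

section

variable {A : Type} [CommRing A] [IsLocalRing A] [Algebra 𝒪 A]

/-- Every element of a test algebra is congruent to a constant modulo the maximal ideal. -/
theorem ta_exists_sub_mem (hA : IsArtinianTestAlgebra 𝒪 A) (a : A) :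
    ∃ o : 𝒪, a - algebraMap 𝒪 A o ∈ maximalIdeal A := by
  obtain ⟨o, ho⟩ := hA.residue_surjective (residue A a)
  refine ⟨o, ?_⟩
  rw [← residue_eq_zero_iff, map_sub, sub_eq_zero]
  exact ho.symm

/-- The comparison of residue fields `ResidueField 𝒪 → ResidueField A` is bijective. -/
theorem ta_resMap_bijective (hA : IsArtinianTestAlgebra 𝒪 A) :
    haveI := hA.isLocalHom
    Function.Bijective (ResidueField.map (algebraMap 𝒪 A)) := by
  haveI := hA.isLocalHom
  refine ⟨RingHom.injective _, fun y => ?_⟩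
  obtain ⟨o, ho⟩ := hA.residue_surjective y
  exact ⟨residue 𝒪 o, by rw [ResidueField.map_residue]; exact ho⟩

/-- The canonical `𝒪`-algebra map from a test algebra to the residue field of `𝒪`. -/
def toK (hA : IsArtinianTestAlgebra 𝒪 A) : A →ₐ[𝒪] ResidueField 𝒪 :=
  haveI := hA.isLocalHom
  { toRingHom :=
      ((RingEquiv.ofBijective (ResidueField.map (algebraMap 𝒪 A))
        (ta_resMap_bijective hA)).symm : ResidueField A →+* ResidueField 𝒪).comp (residue A)
    commutes' := fun o => by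
      show (RingEquiv.ofBijective (ResidueField.map (algebraMap 𝒪 A))
        (ta_resMap_bijective hA)).symm (residue A (algebraMap 𝒪 A o)) = algebraMap 𝒪 (ResidueField 𝒪) o
      rw [RingEquiv.symm_apply_eq, ResidueField.algebraMap_eq]
      exact (ResidueField.map_residue (algebraMap 𝒪 A) o).symm }

theorem toK_eq_zero_iff (hA : IsArtinianTestAlgebra 𝒪 A) (a : A) :
    toK hA a = 0 ↔ a ∈ maximalIdeal A := by
  haveI := hA.isLocalHom
  show (RingEquiv.ofBijective (ResidueField.map (algebraMap 𝒪 A))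
    (ta_resMap_bijective hA)).symm (residue A a) = 0 ↔ _
  rw [map_eq_zero_iff _ (RingEquiv.injective _), residue_eq_zero_iff]

theorem toK_ne_zero_iff (hA : IsArtinianTestAlgebra 𝒪 A) (a : A) :
    toK hA a ≠ 0 ↔ IsUnit a := by
  rw [Ne, toK_eq_zero_iff, notMem_maximalIdeal]

/-- Any two `𝒪`-algebra maps from a test algebra to the residue field of `𝒪` agree. -/
theorem ta_algHom_residueField_ext (hA : IsArtinianTestAlgebra 𝒪 A)
    (h₁ h₂ : A →ₐ[𝒪] ResidueField 𝒪) : h₁ = h₂ := by
  haveI := hA.isArtinian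
  have key : ∀ (h : A →ₐ[𝒪] ResidueField 𝒪) (a : A) (o : 𝒪),
      a - algebraMap 𝒪 A o ∈ maximalIdeal A → h a = algebraMap 𝒪 (ResidueField 𝒪) o := by
    intro h a o hmem
    have hnil : IsNilpotent (a - algebraMap 𝒪 A o) :=
      Ring.KrullDimLE.isNilpotent_iff_mem_maximalIdeal.mpr hmem
    have h0 : h (a - algebraMap 𝒪 A o) = 0 := (hnil.map h).eq_zero
    rw [map_sub, sub_eq_zero, AlgHom.commutes] at h0
    exact h0
  ext a
  obtain ⟨o, ho⟩ := ta_exists_sub_mem hA a
  rw [key h₁ a o ho, key h₂ a o ho]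

/-- A test algebra over `𝒪` with finite residue field is a finite ring. -/
theorem ta_finite [Finite (ResidueField 𝒪)] (hA : IsArtinianTestAlgebra 𝒪 A) :
    Finite A := by
  haveI := hA.isArtinian
  haveI := hA.isLocalHom
  haveI : Finite (ResidueField A) :=
    Finite.of_surjective _ (ta_resMap_bijective hA).surjective
  have h1 : Finite (A ⧸ (⊥ : Ideal A)) :=
    finite_quotient_iff.mpr (exists_maximalIdeal_pow_le_of_isArtinianRing_quotient ⊥)
  exact Finite.of_equiv _ (RingEquiv.quotientBot A).toEquiv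

end

/-- In a subalgebra of a finite ring, units are detected in the ambient ring. -/
theorem subalgebra_isUnit_iff {R T : Type} [CommRing R] [CommRing T] [Algebra R T] [Finite T]
    (S : Subalgebra R T) (s : S) : IsUnit s ↔ IsUnit (s : T) := by
  refine ⟨fun h => h.map S.val, fun h => ?_⟩
  apply IsArtinianRing.isUnit_of_mem_nonZeroDivisors
  rw [mem_nonZeroDivisors_iff_right]
  intro z hz
  have hz' : (z : T) * (s : T) = 0 := by
    have := congrArg Subtype.val hz
    simpa using this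
  apply Subtype.ext
  show (z : T) = 0
  exact (IsUnit.mul_left_eq_zero h).mp hz'

section Subalgebra

variable [Finite (ResidueField 𝒪)] {A : Type} [CommRing A] [IsLocalRing A] [Algebra 𝒪 A]

/-- A subalgebra of a test algebra is a local ring. -/
theorem ta_subalgebra_isLocalRing (hA : IsArtinianTestAlgebra 𝒪 A)
    (A' : Subalgebra 𝒪 A) : IsLocalRing A' := by
  haveI := ta_finite hA
  haveI : Nontrivial A' := ⟨⟨0, 1, fun h => zero_ne_one (congrArg Subtype.val h)⟩⟩
  refine IsLocalRing.of_isUnit_or_isUnit_one_sub_self fun a => ?_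
  rcases IsLocalRing.isUnit_or_isUnit_one_sub_self (a : A) with h | h
  · exact Or.inl ((subalgebra_isUnit_iff A' a).mpr h)
  · exact Or.inr ((subalgebra_isUnit_iff A' (1 - a)).mpr h)

/-- A subalgebra of a test algebra is a test algebra. -/
theorem ta_subalgebra (hA : IsArtinianTestAlgebra 𝒪 A)
    (A' : Subalgebra 𝒪 A) :
    haveI := ta_subalgebra_isLocalRing hA A'
    IsArtinianTestAlgebra 𝒪 A' := by
  haveI := ta_subalgebra_isLocalRing hA A'
  haveI := ta_finite hA
  haveI := hA.isLocalHom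
  refine ⟨⟨fun o ho => ?_⟩, fun y => ?_, inferInstance⟩
  · have h1 : IsUnit (algebraMap 𝒪 A o) := ho.map A'.val
    exact IsLocalHom.map_nonunit o h1
  · obtain ⟨x, rfl⟩ := IsLocalRing.residue_surjective y
    obtain ⟨o, ho⟩ := ta_exists_sub_mem hA (x : A)
    refine ⟨o, ?_⟩
    rw [Function.comp_apply, eq_comm, ← sub_eq_zero, ← map_sub, residue_eq_zero_iff,
      mem_maximalIdeal]
    intro hu
    have h1 : IsUnit ((x : A) - algebraMap 𝒪 A o) := hu.map A'.val
    exact (mem_maximalIdeal _).mp ho h1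

/-- The inclusion of a subalgebra of a test algebra is a local hom. -/
theorem ta_subalgebra_val_isLocalHom (hA : IsArtinianTestAlgebra 𝒪 A)
    (A' : Subalgebra 𝒪 A) : IsLocalHom (A'.val : A' →+* A) := by
  haveI := ta_finite hA
  exact ⟨fun a ha => (subalgebra_isUnit_iff A' a).mpr ha⟩

end Subalgebra

section Quotient

variable {A : Type} [CommRing A] [IsLocalRing A] [Algebra 𝒪 A]

theorem ta_quotient_isLocalRing (I : Ideal A) (hI : I ≠ ⊤) :
    IsLocalRing (A ⧸ I) :=
  haveI : Nontrivial (A ⧸ I) := Ideal.Quotient.nontrivial_iff.mpr hI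
  IsLocalRing.of_surjective' (Ideal.Quotient.mk I) Ideal.Quotient.mk_surjective

/-- A proper quotient of a test algebra is a test algebra. -/
theorem ta_quotient (hA : IsArtinianTestAlgebra 𝒪 A) (I : Ideal A)
    (hI : I ≠ ⊤) :
    haveI := ta_quotient_isLocalRing I hI
    IsArtinianTestAlgebra 𝒪 (A ⧸ I) := by
  haveI := ta_quotient_isLocalRing I hI
  haveI := hA.isArtinian
  haveI := hA.isLocalHom
  haveI : Nontrivial (A ⧸ I) := Ideal.Quotient.nontrivial_iff.mpr hI
  haveI hmk : IsLocalHom (Ideal.Quotient.mk I) :=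
    IsLocalHom.of_surjective _ Ideal.Quotient.mk_surjective
  refine ⟨⟨fun o ho => ?_⟩, fun y => ?_, inferInstance⟩
  · have h1 : IsUnit (Ideal.Quotient.mk I (algebraMap 𝒪 A o)) := ho
    exact IsLocalHom.map_nonunit o (IsLocalHom.map_nonunit _ h1)
  · obtain ⟨x, rfl⟩ := IsLocalRing.residue_surjective y
    obtain ⟨a, rfl⟩ := Ideal.Quotient.mk_surjective x
    obtain ⟨o, ho⟩ := ta_exists_sub_mem hA a
    refine ⟨o, ?_⟩
    rw [Function.comp_apply, eq_comm, ← sub_eq_zero, ← map_sub, residue_eq_zero_iff,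
      mem_maximalIdeal]
    intro hu
    have h1 : IsUnit (Ideal.Quotient.mk I (a - algebraMap 𝒪 A o)) := by
      rw [map_sub]; exact hu
    exact (mem_maximalIdeal _).mp ho (IsLocalHom.map_nonunit _ h1)

end Quotient

end TestAlgebra

section FibreProd

open GaloisRep

variable {𝒪 : Type} [CommRing 𝒪] [IsLocalRing 𝒪] [Finite (ResidueField 𝒪)]
variable {A B : Type} [CommRing A] [IsLocalRing A] [Algebra 𝒪 A]
  [CommRing B] [IsLocalRing B] [Algebra 𝒪 B]

/-- The fibre product `A ×_k B` of two test algebras over the residue field `k` of `𝒪`. -/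
def fibreProd (hA : IsArtinianTestAlgebra 𝒪 A) (hB : IsArtinianTestAlgebra 𝒪 B) :
    Subalgebra 𝒪 (A × B) :=
  AlgHom.equalizer ((toK hA).comp (AlgHom.fst 𝒪 A B)) ((toK hB).comp (AlgHom.snd 𝒪 A B))

theorem mem_fibreProd (hA : IsArtinianTestAlgebra 𝒪 A) (hB : IsArtinianTestAlgebra 𝒪 B)
    (x : A × B) : x ∈ fibreProd hA hB ↔ toK hA x.1 = toK hB x.2 :=
  Iff.rfl

theorem fibreProd_isUnit_iff (hA : IsArtinianTestAlgebra 𝒪 A) (hB : IsArtinianTestAlgebra 𝒪 B)
    (x : fibreProd hA hB) : IsUnit x ↔ IsUnit (x : A × B).1 := by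
  haveI := ta_finite hA
  haveI := ta_finite hB
  rw [subalgebra_isUnit_iff, Prod.isUnit_iff]
  refine ⟨fun h => h.1, fun h => ⟨h, ?_⟩⟩
  have hx := (mem_fibreProd hA hB x).mp x.2
  rw [← toK_ne_zero_iff hB, ← hx, toK_ne_zero_iff]
  exact h

theorem fibreProd_isLocalRing (hA : IsArtinianTestAlgebra 𝒪 A)
    (hB : IsArtinianTestAlgebra 𝒪 B) : IsLocalRing (fibreProd hA hB) := by
  haveI : Nontrivial (fibreProd hA hB) :=
    ⟨⟨0, 1, fun h => zero_ne_one (α := A)
      (congrArg (fun z : fibreProd hA hB => (z : A × B).1) h)⟩⟩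
  refine IsLocalRing.of_isUnit_or_isUnit_one_sub_self fun x => ?_
  rcases IsLocalRing.isUnit_or_isUnit_one_sub_self (x : A × B).1 with h | h
  · exact Or.inl ((fibreProd_isUnit_iff hA hB x).mpr h)
  · exact Or.inr ((fibreProd_isUnit_iff hA hB (1 - x)).mpr h)

/-- First projection of the fibre product. -/
def fibreProdFst (hA : IsArtinianTestAlgebra 𝒪 A) (hB : IsArtinianTestAlgebra 𝒪 B) :
    fibreProd hA hB →ₐ[𝒪] A :=
  (AlgHom.fst 𝒪 A B).comp (fibreProd hA hB).val

/-- Second projection of the fibre product. -/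
def fibreProdSnd (hA : IsArtinianTestAlgebra 𝒪 A) (hB : IsArtinianTestAlgebra 𝒪 B) :
    fibreProd hA hB →ₐ[𝒪] B :=
  (AlgHom.snd 𝒪 A B).comp (fibreProd hA hB).val

theorem fibreProd_isArtinianTestAlgebra (hA : IsArtinianTestAlgebra 𝒪 A)
    (hB : IsArtinianTestAlgebra 𝒪 B) :
    haveI := fibreProd_isLocalRing hA hB
    IsArtinianTestAlgebra 𝒪 (fibreProd hA hB) := by
  haveI := fibreProd_isLocalRing hA hB
  haveI := ta_finite hA
  haveI := ta_finite hB
  haveI := hA.isLocalHom
  refine ⟨⟨fun o ho => ?_⟩, fun y => ?_, inferInstance⟩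
  · have h1 : IsUnit (algebraMap 𝒪 A o) := (fibreProd_isUnit_iff hA hB _).mp ho
    exact IsLocalHom.map_nonunit o h1
  · obtain ⟨x, rfl⟩ := IsLocalRing.residue_surjective y
    obtain ⟨o, ho⟩ := ta_exists_sub_mem hA (x : A × B).1
    refine ⟨o, ?_⟩
    rw [Function.comp_apply, eq_comm, ← sub_eq_zero, ← map_sub, residue_eq_zero_iff,
      mem_maximalIdeal]
    intro hu
    have h1 : IsUnit ((x : A × B).1 - algebraMap 𝒪 A o) :=
      (fibreProd_isUnit_iff hA hB _).mp hu
    exact (mem_maximalIdeal _).mp ho h1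

variable {𝒟 : ∀ ⦃A : Type⦄ [CommRing A] [IsLocalRing A] [Algebra 𝒪 A], GaloisRepAdic A → Prop}

/-- A deformation condition can be checked on a jointly injective pair of maps of test
algebras. -/
theorem of_pair_jointly_injective (h𝒟 : IsDeformationCondition 𝒪 𝒟)
    {P : Type} [CommRing P] [IsLocalRing P] [Algebra 𝒪 P]
    (hP : IsArtinianTestAlgebra 𝒪 P) (hA : IsArtinianTestAlgebra 𝒪 A)
    (hB : IsArtinianTestAlgebra 𝒪 B)
    (φA : P →ₐ[𝒪] A) (φB : P →ₐ[𝒪] B)
    (hφA : IsLocalHom (φA : P →+* A)) (hφB : IsLocalHom (φB : P →+* B))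
    (hinj : ∀ x : P, φA x = 0 → φB x = 0 → x = 0) (ρ : GaloisRepAdic P)
    (h1 : 𝒟 (ρ.baseChangeAlong (φA : P →+* A) hφA))
    (h2 : 𝒟 (ρ.baseChangeAlong (φB : P →+* B) hφB)) : 𝒟 ρ := by
  haveI := fibreProd_isLocalRing hA hB
  have hQ := fibreProd_isArtinianTestAlgebra hA hB
  have hmem : ∀ x : P, (φA.prod φB) x ∈ fibreProd hA hB := by
    intro x
    rw [mem_fibreProd]
    exact DFunLike.congr_fun
      (ta_algHom_residueField_ext hP ((toK hA).comp φA) ((toK hB).comp φB)) x
  let ι : P →ₐ[𝒪] fibreProd hA hB := (φA.prod φB).codRestrict _ hmem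
  have hι : IsLocalHom (ι : P →+* fibreProd hA hB) := ta_isLocalHom_algHom hP ι
  have hιinj : Function.Injective ι := by
    intro x y hxy
    have h : (φA x, φB x) = (φA y, φB y) := congrArg Subtype.val hxy
    have hA' : φA (x - y) = 0 := by rw [map_sub, sub_eq_zero]; exact congrArg Prod.fst h
    have hB' : φB (x - y) = 0 := by rw [map_sub, sub_eq_zero]; exact congrArg Prod.snd h
    exact sub_eq_zero.mp (hinj _ hA' hB')
  have hpA : IsLocalHom ((fibreProdFst hA hB : fibreProd hA hB →ₐ[𝒪] A) : fibreProd hA hB →+* A) :=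
    ta_isLocalHom_algHom hQ _
  have hpB : IsLocalHom ((fibreProdSnd hA hB : fibreProd hA hB →ₐ[𝒪] B) : fibreProd hA hB →+* B) :=
    ta_isLocalHom_algHom hQ _
  have e1 : ((ρ.baseChangeAlong (ι : P →+* fibreProd hA hB) hι).baseChangeAlong
      ((fibreProdFst hA hB : fibreProd hA hB →ₐ[𝒪] A) : fibreProd hA hB →+* A) hpA).IsEquiv
      (ρ.baseChangeAlong (φA : P →+* A) hφA) :=
    baseChangeAlong_comp_isEquiv ρ _ hι _ hpA _ hφA (by ext x; rfl)
  have e2 : ((ρ.baseChangeAlong (ι : P →+* fibreProd hA hB) hι).baseChangeAlong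
      ((fibreProdSnd hA hB : fibreProd hA hB →ₐ[𝒪] B) : fibreProd hA hB →+* B) hpB).IsEquiv
      (ρ.baseChangeAlong (φB : P →+* B) hφB) :=
    baseChangeAlong_comp_isEquiv ρ _ hι _ hpB _ hφB (by ext x; rfl)
  have d1 := h𝒟.of_isEquiv hA (e1.elim fun e => ⟨e.symm⟩) h1
  have d2 := h𝒟.of_isEquiv hB (e2.elim fun e => ⟨e.symm⟩) h2
  have dQ : 𝒟 (ρ.baseChangeAlong (ι : P →+* fibreProd hA hB) hι) :=
    h𝒟.of_fibreProduct hA hB isArtinianTestAlgebra_residueField hQ (toK hA) (toK hB)
      (fibreProdFst hA hB) (fibreProdSnd hA hB) hpA hpB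
      (by ext x; exact x.2)
      (fun x y hxy => Subtype.ext hxy)
      (fun a b hab => ⟨⟨(a, b), hab⟩, rfl, rfl⟩) d1 d2
  exact h𝒟.of_baseChangeAlong_injective hP hQ ι hι hιinj dQ

/-- A deformation condition can be checked on a jointly injective family of maps of test
algebras indexed by `Fin n`. -/
theorem of_fin_jointly_injective (h𝒟 : IsDeformationCondition 𝒪 𝒟) :
    ∀ (n : ℕ) (A : Fin n → Type) [∀ i, CommRing (A i)] [∀ i, IsLocalRing (A i)]
      [∀ i, Algebra 𝒪 (A i)] (hA : ∀ i, IsArtinianTestAlgebra 𝒪 (A i))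
      {P : Type} [CommRing P] [IsLocalRing P] [Algebra 𝒪 P] (hP : IsArtinianTestAlgebra 𝒪 P)
      (φ : ∀ i, P →ₐ[𝒪] A i) (hφ : ∀ i, IsLocalHom (φ i : P →+* A i))
      (hinj : ∀ x : P, (∀ i, φ i x = 0) → x = 0) (ρ : GaloisRepAdic P)
      (hρ : ∀ i, 𝒟 (ρ.baseChangeAlong (φ i : P →+* A i) (hφ i))), 𝒟 ρ := by
  intro n
  induction n with
  | zero =>
    intro A _ _ _ hA P _ _ _ hP φ hφ hinj ρ hρ
    exact absurd (hinj 1 (fun i => i.elim0)) one_ne_zero
  | succ n ih =>
    intro A _ _ _ hA P _ _ _ hP φ hφ hinj ρ hρ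
    let K : Ideal P := ⨅ i : Fin n, RingHom.ker (φ i.succ : P →+* A i.succ)
    have hK : ∀ x : P, x ∈ K ↔ ∀ i : Fin n, φ i.succ x = 0 := by
      intro x
      simp only [K, Ideal.mem_iInf, RingHom.mem_ker]
      rfl
    by_cases hKtop : K = ⊤
    · have h0inj : Function.Injective (φ 0) := by
        rw [injective_iff_map_eq_zero]
        intro x hx
        have hxK : x ∈ K := hKtop ▸ Submodule.mem_top
        exact hinj x (fun i => Fin.cases hx (fun j => (hK x).mp hxK j) i)
      exact h𝒟.of_baseChangeAlong_injective hP (hA 0) (φ 0) (hφ 0) h0inj (hρ 0)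
    · haveI := ta_quotient_isLocalRing K hKtop
      have hP₁ := ta_quotient hP K hKtop
      let mk : P →ₐ[𝒪] P ⧸ K := Ideal.Quotient.mkₐ 𝒪 K
      have hmk : IsLocalHom (mk : P →+* P ⧸ K) := ta_isLocalHom_algHom hP mk
      let φ' : ∀ i : Fin n, P ⧸ K →ₐ[𝒪] A i.succ := fun i =>
        Ideal.Quotient.liftₐ K (φ i.succ) (fun a ha => (hK a).mp ha i)
      have hφ' : ∀ i : Fin n, IsLocalHom (φ' i : P ⧸ K →+* A i.succ) :=
        fun i => ta_isLocalHom_algHom hP₁ _
      have hinj' : ∀ y : P ⧸ K, (∀ i, φ' i y = 0) → y = 0 := by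
        intro y hy
        obtain ⟨x, rfl⟩ := Ideal.Quotient.mk_surjective y
        rw [Ideal.Quotient.eq_zero_iff_mem, hK]
        exact hy
      have d' : ∀ i : Fin n, 𝒟 ((ρ.baseChangeAlong (mk : P →+* P ⧸ K) hmk).baseChangeAlong
          (φ' i : P ⧸ K →+* A i.succ) (hφ' i)) := by
        intro i
        have e := baseChangeAlong_comp_isEquiv ρ (mk : P →+* P ⧸ K) hmk
          (φ' i : P ⧸ K →+* A i.succ) (hφ' i) (φ i.succ : P →+* A i.succ) (hφ i.succ)
          (by ext x; rfl)
        exact h𝒟.of_isEquiv (hA i.succ) (e.elim fun e => ⟨e.symm⟩) (hρ i.succ)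
      have d₁ : 𝒟 (ρ.baseChangeAlong (mk : P →+* P ⧸ K) hmk) :=
        ih (fun i => A i.succ) (fun i => hA i.succ) hP₁ φ' hφ' hinj' _ d'
      refine of_pair_jointly_injective h𝒟 hP hP₁ (hA 0) mk (φ 0) hmk (hφ 0) ?_ ρ d₁ (hρ 0)
      intro x hx1 hx2
      have hxK : x ∈ K := Ideal.Quotient.eq_zero_iff_mem.mp hx1
      exact hinj x (fun i => Fin.cases hx2 (fun j => (hK x).mp hxK j) i)

/-- **Main closure lemma.** A deformation condition can be checked on a finite jointly
injective family of maps of test algebras. -/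
theorem of_jointly_injective (h𝒟 : IsDeformationCondition 𝒪 𝒟)
    {ι : Type*} [Finite ι] (A : ι → Type) [∀ i, CommRing (A i)] [∀ i, IsLocalRing (A i)]
    [∀ i, Algebra 𝒪 (A i)] (hA : ∀ i, IsArtinianTestAlgebra 𝒪 (A i))
    {P : Type} [CommRing P] [IsLocalRing P] [Algebra 𝒪 P] (hP : IsArtinianTestAlgebra 𝒪 P)
    (φ : ∀ i, P →ₐ[𝒪] A i) (hφ : ∀ i, IsLocalHom (φ i : P →+* A i))
    (hinj : ∀ x : P, (∀ i, φ i x = 0) → x = 0) (ρ : GaloisRepAdic P)
    (hρ : ∀ i, 𝒟 (ρ.baseChangeAlong (φ i : P →+* A i) (hφ i))) : 𝒟 ρ := by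
  obtain ⟨n, ⟨e⟩⟩ := Finite.exists_equiv_fin ι
  refine of_fin_jointly_injective h𝒟 n (fun j => A (e.symm j)) (fun j => hA (e.symm j)) hP
    (fun j => φ (e.symm j)) (fun j => hφ (e.symm j)) (fun x hx => hinj x fun i => ?_) ρ
    (fun j => hρ (e.symm j))
  obtain ⟨j, rfl⟩ := e.symm.surjective i
  exact hx j

/-- A deformation condition descends to any subalgebra of a test algebra. -/
theorem of_subalgebra (h𝒟 : IsDeformationCondition 𝒪 𝒟) (hA : IsArtinianTestAlgebra 𝒪 A)
    (A' : Subalgebra 𝒪 A) :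
    haveI := ta_subalgebra_isLocalRing hA A'
    ∀ (ρ' : GaloisRepAdic A') (hloc : IsLocalHom (A'.val : A' →+* A)),
      𝒟 (ρ'.baseChangeAlong (A'.val : A' →+* A) hloc) → 𝒟 ρ' := by
  haveI := ta_subalgebra_isLocalRing hA A'
  intro ρ' hloc h
  exact h𝒟.of_baseChangeAlong_injective (ta_subalgebra hA A') hA A'.val hloc
    Subtype.val_injective h

end FibreProd

end Fermat.Agent.S53.DefCond
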