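/-
S53 package P-E: finite local rings (pure commutative algebra, no Galois theory).
-/
import Fermat.Agent.S53.Defs

set_option autoImplicit false

noncomputable section

namespace Fermat.Agent.S53

open IsLocalRing

/-- A module of finite length over a local ring with finite residue field is finite. -/
theorem FiniteLocal.finite_of_isFiniteLength {A : Type*} [CommRing A] [IsLocalRing A]
    [Finite (ResidueField A)] {M : Type*} [AddCommGroup M] [Module A M]
    (h : IsFiniteLength A M) : Finite M := by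
  induction h with
  | of_subsingleton => infer_instance
  | @of_simple_quotient M _ _ N hs _ ih =>
    obtain ⟨I, hI, ⟨e⟩⟩ := isSimpleModule_iff_quot_maximal.mp hs
    have hIm : I = maximalIdeal A := IsLocalRing.eq_maximalIdeal hI
    subst hIm
    have hfin : Finite (A ⧸ maximalIdeal A) := ‹Finite (ResidueField A)›
    have hq : Finite (M ⧸ N) := Finite.of_equiv _ e.symm.toEquiv
    have hcard := Submodule.card_eq_card_quotient_mul_card N
    have hpos : Nat.card M ≠ 0 := by
      rw [hcard]
      exact Nat.mul_ne_zero Nat.card_pos.ne' Nat.card_pos.ne'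
    exact Nat.finite_of_card_ne_zero hpos

/-- An Artinian local ring with finite residue field is finite. -/
theorem finite_of_isArtinianRing (A : Type) [CommRing A] [IsLocalRing A] [IsArtinianRing A]
    [Finite (ResidueField A)] : Finite A :=
  FiniteLocal.finite_of_isFiniteLength (A := A)
    (isFiniteLength_iff_isNoetherian_isArtinian.mpr ⟨inferInstance, inferInstance⟩)

/-- Successive approximation: a finite set `F` with `|F| ≤ q ^ (∑ i < j, e ^ i)` meeting every
residue class modulo `𝔪 ^ j`. -/
theorem FiniteLocal.exists_finset_approx (A : Type) [CommRing A] [IsLocalRing A] [Finite A] (e q : ℕ)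
    (hq : Nat.card (ResidueField A) ≤ q)
    (s : Finset A) (hs : s.card ≤ e) (hspan : Ideal.span (s : Set A) = maximalIdeal A) (j : ℕ) :
    ∃ F : Finset A, F.card ≤ q ^ (∑ i ∈ Finset.range j, e ^ i) ∧
      ∀ a : A, ∃ f ∈ F, a - f ∈ maximalIdeal A ^ j := by
  classical
  have hfin : Finite (ResidueField A) :=
    Finite.of_surjective (residue A) IsLocalRing.residue_surjective
  have : Fintype (ResidueField A) := Fintype.ofFinite _
  have hq1 : 1 ≤ q := le_trans (Nat.succ_le_of_lt Nat.card_pos) hq
  -- representatives of the residue field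
  let t : ResidueField A → A := Function.surjInv (IsLocalRing.residue_surjective (R := A))
  let T : Finset A := Finset.univ.image t
  have hTcard : T.card ≤ q := by
    refine le_trans Finset.card_image_le ?_
    rw [Finset.card_univ, ← Nat.card_eq_fintype_card]
    exact hq
  have hT : ∀ a : A, ∃ u ∈ T, a - u ∈ maximalIdeal A := by
    intro a
    refine ⟨t (residue A a), Finset.mem_image_of_mem _ (Finset.mem_univ _), ?_⟩
    rw [← IsLocalRing.residue_eq_zero_iff, map_sub, sub_eq_zero]
    exact (Function.surjInv_eq (IsLocalRing.residue_surjective (R := A)) _).symm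
  induction j with
  | zero =>
    refine ⟨{0}, by simp, fun a => ⟨0, by simp, by simp⟩⟩
  | succ j ih =>
    obtain ⟨F, hFcard, hF⟩ := ih
    let g : A × (s → A) → A := fun p => p.1 + ∑ x : s, p.2 x * (x : A)
    refine ⟨(T ×ˢ Fintype.piFinset (fun _ : s => F)).image g, ?_, ?_⟩
    · refine le_trans Finset.card_image_le ?_
      rw [Finset.card_product, Fintype.card_piFinset]
      simp only [Finset.prod_const, Finset.card_univ, Fintype.card_coe]
      have h1 : F.card ^ s.card ≤ (q ^ (∑ i ∈ Finset.range j, e ^ i)) ^ e :=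
        le_trans (Nat.pow_le_pow_left hFcard _)
          (Nat.pow_le_pow_right (Nat.pow_pos hq1) hs)
      have h2 : ∑ i ∈ Finset.range (j + 1), e ^ i = 1 + (∑ i ∈ Finset.range j, e ^ i) * e := by
        rw [Finset.sum_range_succ', Finset.sum_mul, pow_zero, add_comm]
        congr 1
      rw [h2, pow_add, pow_one, pow_mul]
      exact Nat.mul_le_mul hTcard h1
    · intro a
      obtain ⟨u, hu, hau⟩ := hT a
      rw [← hspan] at hau
      obtain ⟨y, hy⟩ := Submodule.mem_span_finset'.mp hau
      choose f hfF hf using fun x : s => hF (y x)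
      refine ⟨g (u, f), ?_, ?_⟩
      · refine Finset.mem_image_of_mem _ (Finset.mem_product.mpr ⟨hu, ?_⟩)
        exact Fintype.mem_piFinset.mpr fun x => hfF x
      · have hsum : a - g (u, f) = ∑ x : s, (y x - f x) * (x : A) := by
          have : a = u + ∑ x : s, y x • (x : A) := by rw [hy]; ring
          simp only [g, Finset.sum_sub_distrib, sub_mul, smul_eq_mul] at this ⊢
          rw [this]; ring
        rw [hsum, pow_succ]
        refine Ideal.sum_mem _ fun x _ => Ideal.mul_mem_mul (hf x) ?_
        rw [← hspan]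
        exact Ideal.subset_span x.2

/-- Cardinality bound for a finite local ring with `𝔪 ^ n = 0` whose maximal ideal is generated
by at most `e` elements. -/
theorem card_le_of_span (A : Type) [CommRing A] [IsLocalRing A] [Finite A] (n e q : ℕ)
    (hpow : maximalIdeal A ^ n = ⊥) (hq : Nat.card (ResidueField A) ≤ q)
    (s : Finset A) (hs : s.card ≤ e) (hspan : Ideal.span (s : Set A) = maximalIdeal A) :
    Nat.card A ≤ q ^ (∑ j ∈ Finset.range n, e ^ j) := by
  classical
  have : Fintype A := Fintype.ofFinite _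
  obtain ⟨F, hFcard, hF⟩ := FiniteLocal.exists_finset_approx A e q hq s hs hspan n
  refine le_trans ?_ hFcard
  rw [Nat.card_eq_fintype_card, ← Finset.card_univ]
  refine Finset.card_le_card fun a _ => ?_
  obtain ⟨f, hfF, hf⟩ := hF a
  rw [hpow, Ideal.mem_bot, sub_eq_zero] at hf
  rwa [hf]

section Loc

variable (𝒪 C : Type) [CommRing 𝒪] [IsLocalRing 𝒪] [CommRing C] [Algebra 𝒪 C]

/-- If every element of a nontrivial `𝒪`-algebra `C` is a scalar plus a nilpotent, then `C` is
local. -/
theorem isLocalRing_of_nilpotent_sub [Nontrivial C]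
    (h : ∀ c : C, ∃ a : 𝒪, IsNilpotent (c - algebraMap 𝒪 C a)) : IsLocalRing C := by
  refine IsLocalRing.of_isUnit_or_isUnit_one_sub_self fun c => ?_
  obtain ⟨a, ha⟩ := h c
  rcases IsLocalRing.isUnit_or_isUnit_one_sub_self a with hu | hu
  · left
    have h1 : IsUnit (algebraMap 𝒪 C a) := hu.map (algebraMap 𝒪 C)
    have := ha.isUnit_add_left_of_commute h1 (Commute.all _ _)
    simpa using this
  · right
    have h1 : IsUnit (algebraMap 𝒪 C (1 - a)) := hu.map (algebraMap 𝒪 C)
    have := ha.neg.isUnit_add_left_of_commute h1 (Commute.all _ _)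
    have e : algebraMap 𝒪 C (1 - a) + -(c - algebraMap 𝒪 C a) = 1 - c := by
      rw [map_sub, map_one]; ring
    rwa [e] at this

variable [IsLocalRing C]

theorem isLocalHom_of_nilpotent_sub
    (h : ∀ c : C, ∃ a : 𝒪, IsNilpotent (c - algebraMap 𝒪 C a)) :
    IsLocalHom (algebraMap 𝒪 C) := by
  refine ⟨fun a ha => ?_⟩
  by_contra hna
  -- `a` is a non-unit, so `1 - a * b` is a unit for every `b`
  obtain ⟨b, hb⟩ := h (↑(ha.unit⁻¹) : C)
  have hab : IsUnit (1 - a * b) :=
    IsLocalRing.isUnit_one_sub_self_of_mem_nonunits _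
      ((maximalIdeal 𝒪).mul_mem_right b ((IsLocalRing.mem_maximalIdeal a).mpr hna))
  have h1 : IsUnit (algebraMap 𝒪 C (1 - a * b)) := hab.map (algebraMap 𝒪 C)
  have h2 : algebraMap 𝒪 C (1 - a * b) =
      algebraMap 𝒪 C a * ((↑(ha.unit⁻¹) : C) - algebraMap 𝒪 C b) := by
    have h3 : algebraMap 𝒪 C a * (↑(ha.unit⁻¹) : C) = 1 := ha.mul_val_inv
    rw [map_sub, map_one, map_mul, mul_sub, h3]
  have h4 : IsNilpotent (algebraMap 𝒪 C (1 - a * b)) := by
    rw [h2]
    exact (Commute.all _ _).isNilpotent_mul_left hb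
  exact h1.not_isNilpotent h4

set_option linter.unusedSectionVars false in
theorem residue_surjective_of_nilpotent_sub
    (h : ∀ c : C, ∃ a : 𝒪, IsNilpotent (c - algebraMap 𝒪 C a)) :
    Function.Surjective (residue C ∘ algebraMap 𝒪 C) := by
  intro x
  obtain ⟨c, rfl⟩ := IsLocalRing.residue_surjective x
  obtain ⟨a, ha⟩ := h c
  refine ⟨a, ?_⟩
  have hm : c - algebraMap 𝒪 C a ∈ maximalIdeal C := by
    rw [IsLocalRing.mem_maximalIdeal, mem_nonunits_iff]
    exact fun hu => hu.not_isNilpotent ha
  have := (IsLocalRing.residue_eq_zero_iff _).mpr hm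
  rw [map_sub, sub_eq_zero] at this
  exact this.symm

/-- In a nontrivial ring nilpotent elements are non-units. -/
theorem mem_maximalIdeal_of_isNilpotent {c : C} (hc : IsNilpotent c) : c ∈ maximalIdeal C := by
  rw [IsLocalRing.mem_maximalIdeal, mem_nonunits_iff]
  exact fun hu => hu.not_isNilpotent hc

/-- CORRECTED form of the stub (the stub without `hnil` is false, e.g. `𝒪 = C` a DVR):
if moreover the maximal ideal of `𝒪` maps to nilpotent elements, then the maximal ideal of `C`
is the set of nilpotent elements. -/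
theorem mem_maximalIdeal_iff_isNilpotent_of_nilpotent_sub
    (h : ∀ c : C, ∃ a : 𝒪, IsNilpotent (c - algebraMap 𝒪 C a))
    (hnil : ∀ a ∈ maximalIdeal 𝒪, IsNilpotent (algebraMap 𝒪 C a)) (c : C) :
    c ∈ maximalIdeal C ↔ IsNilpotent c := by
  refine ⟨fun hc => ?_, mem_maximalIdeal_of_isNilpotent C⟩
  obtain ⟨a, ha⟩ := h c
  have ha' : algebraMap 𝒪 C a ∈ maximalIdeal C := by
    have : algebraMap 𝒪 C a = c - (c - algebraMap 𝒪 C a) := by ring
    rw [this]
    exact (maximalIdeal C).sub_mem hc (mem_maximalIdeal_of_isNilpotent C ha)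
  have ham : a ∈ maximalIdeal 𝒪 := by
    rw [IsLocalRing.mem_maximalIdeal, mem_nonunits_iff]
    intro hu
    exact (IsLocalRing.mem_maximalIdeal _).mp ha' (hu.map (algebraMap 𝒪 C))
  have : c = (c - algebraMap 𝒪 C a) + algebraMap 𝒪 C a := by ring
  rw [this]
  exact (Commute.all _ _).isNilpotent_add ha (hnil a ham)

end Loc

/-- In an Artinian local ring the maximal ideal is the set of nilpotent elements. -/
theorem mem_maximalIdeal_iff_isNilpotent_of_isArtinianRing (C : Type) [CommRing C] [IsLocalRing C]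
    [IsArtinianRing C] (c : C) : c ∈ maximalIdeal C ↔ IsNilpotent c := by
  refine ⟨fun hc => ?_, mem_maximalIdeal_of_isNilpotent C⟩
  obtain ⟨n, hn⟩ := IsArtinianRing.isNilpotent_jacobson_bot (R := C)
  rw [IsLocalRing.jacobson_eq_maximalIdeal ⊥ bot_ne_top] at hn
  refine ⟨n, ?_⟩
  have : c ^ n ∈ maximalIdeal C ^ n := Ideal.pow_mem_pow hc n
  rw [hn] at this
  simpa using this

/-- In a local ring with nilpotent maximal ideal, the maximal ideal is the set of nilpotent
elements. -/
theorem mem_maximalIdeal_iff_isNilpotent_of_pow_eq_bot (C : Type) [CommRing C] [IsLocalRing C]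
    (n : ℕ) (hn : maximalIdeal C ^ n = ⊥) (c : C) : c ∈ maximalIdeal C ↔ IsNilpotent c := by
  refine ⟨fun hc => ⟨n, ?_⟩, mem_maximalIdeal_of_isNilpotent C⟩
  have : c ^ n ∈ maximalIdeal C ^ n := Ideal.pow_mem_pow hc n
  rw [hn] at this
  simpa using this

/-- Nakayama for a nilpotent maximal ideal, in the form needed for generators:
if `𝔪 ^ n = 0` and `I + 𝔪 ^ 2 = 𝔪` then `I = 𝔪`. -/
theorem eq_maximalIdeal_of_sup_sq (A : Type) [CommRing A] [IsLocalRing A] (n : ℕ)
    (hpow : maximalIdeal A ^ n = ⊥) (I : Ideal A) (hI : I ≤ maximalIdeal A)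
    (h : maximalIdeal A ≤ I ⊔ maximalIdeal A ^ 2) : I = maximalIdeal A := by
  refine le_antisymm hI ?_
  -- `𝔪 ≤ I ⊔ 𝔪 ^ (j + 1)` for all `j`
  have key : ∀ j : ℕ, maximalIdeal A ≤ I ⊔ maximalIdeal A ^ (j + 1) := by
    intro j
    induction j with
    | zero => simp
    | succ j ih =>
      -- `𝔪 ^ (j+1) ≤ I ⊔ 𝔪 ^ (j+2)`
      have h1 : maximalIdeal A ^ (j + 1) ≤ I ⊔ maximalIdeal A ^ (j + 2) := by
        calc maximalIdeal A ^ (j + 1) = maximalIdeal A * maximalIdeal A ^ j := by
              rw [pow_succ']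
          _ ≤ (I ⊔ maximalIdeal A ^ 2) * maximalIdeal A ^ j := Ideal.mul_mono_left h
          _ = I * maximalIdeal A ^ j ⊔ maximalIdeal A ^ 2 * maximalIdeal A ^ j := by
              rw [Ideal.sup_mul]
          _ ≤ I ⊔ maximalIdeal A ^ (j + 2) := by
              refine sup_le_sup Ideal.mul_le_left ?_
              rw [← pow_add, add_comm]
      calc maximalIdeal A ≤ I ⊔ maximalIdeal A ^ (j + 1) := ih
        _ ≤ I ⊔ (I ⊔ maximalIdeal A ^ (j + 2)) := sup_le_sup_left h1 I
        _ = I ⊔ maximalIdeal A ^ (j + 1 + 1) := by rw [← sup_assoc, sup_idem]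
  have h2 := key n
  have h3 : maximalIdeal A ^ (n + 1) = ⊥ := by rw [pow_succ, hpow, Ideal.bot_mul]
  rwa [h3, sup_bot_eq] at h2

end Fermat.Agent.S53

end
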