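/-
S53 package P-J (auxiliary): pairing and restricting matrix valued representations.
-/
import Fermat.Agent.S53.Defs

set_option autoImplicit false

noncomputable section

namespace Fermat.Agent.S53.LevelAux

open IsLocalRing

section Pair

variable {A B : Type} [CommRing A] [CommRing B]

/-- A pair of matrices as a matrix over the product ring. -/
def pairM (M : M2 A) (M' : M2 B) : M2 (A × B) := Matrix.of fun i j => (M i j, M' i j)

omit [CommRing A] [CommRing B] in
@[simp] theorem pairM_apply (M : M2 A) (M' : M2 B) (i j : Fin 2) :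
    pairM M M' i j = (M i j, M' i j) := rfl

theorem pairM_one : pairM (1 : M2 A) (1 : M2 B) = 1 := by
  ext i j
  · by_cases h : i = j <;> simp [pairM, Matrix.one_apply, h]
  · by_cases h : i = j <;> simp [pairM, Matrix.one_apply, h]

theorem pairM_mul (M N : M2 A) (M' N' : M2 B) :
    pairM (M * N) (M' * N') = pairM M M' * pairM N N' := by
  ext i j
  · simp only [pairM_apply, Matrix.mul_apply, Prod.fst_sum, Prod.fst_mul]
  · simp only [pairM_apply, Matrix.mul_apply, Prod.snd_sum, Prod.snd_mul]

/-- The pair of two matrix valued representations, with values in the product ring. -/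
def pairMat (r : Gal →* M2 A) (r' : Gal →* M2 B) : Gal →* M2 (A × B) where
  toFun σ := pairM (r σ) (r' σ)
  map_one' := by rw [map_one, map_one, pairM_one]
  map_mul' σ τ := by rw [map_mul, map_mul, pairM_mul]

@[simp] theorem pairMat_apply (r : Gal →* M2 A) (r' : Gal →* M2 B) (σ : Gal) (i j : Fin 2) :
    pairMat r r' σ i j = (r σ i j, r' σ i j) := rfl

end Pair

section Restrict

variable {𝒪 : Type} [CommRing 𝒪] {A : Type} [CommRing A] [Algebra 𝒪 A]

/-- Restriction of a matrix valued representation to a subalgebra containing all its entries. -/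
def restrictMat (A' : Subalgebra 𝒪 A) (r : Gal →* M2 A) (h : ∀ σ i j, r σ i j ∈ A') :
    Gal →* M2 A' where
  toFun σ := Matrix.of fun i j => (⟨r σ i j, h σ i j⟩ : A')
  map_one' := by
    ext i j
    show r 1 i j = (((1 : M2 A') i j : A') : A)
    rw [map_one, Matrix.one_apply, Matrix.one_apply]
    split_ifs <;> rfl
  map_mul' σ τ := by
    ext i j
    show r (σ * τ) i j = ((((Matrix.of fun i j => (⟨r σ i j, h σ i j⟩ : A')) *
      (Matrix.of fun i j => (⟨r τ i j, h τ i j⟩ : A')) : M2 A') i j : A') : A)
    rw [map_mul, Matrix.mul_apply, Matrix.mul_apply, AddSubmonoidClass.coe_finsetSum]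
    rfl

@[simp] theorem restrictMat_apply (A' : Subalgebra 𝒪 A) (r : Gal →* M2 A)
    (h : ∀ σ i j, r σ i j ∈ A') (σ : Gal) (i j : Fin 2) :
    (restrictMat A' r h σ i j : A) = r σ i j := rfl

theorem mapMat_val_restrictMat (A' : Subalgebra 𝒪 A) (r : Gal →* M2 A)
    (h : ∀ σ i j, r σ i j ∈ A') :
    mapMat (A'.val : A' →+* A) (restrictMat A' r h) = r := by
  ext σ i j
  rfl

/-- The entries of the restriction to the subalgebra they generate generate everything. -/
theorem adjoin_entries_restrictMat (r : Gal →* M2 A) :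
    Algebra.adjoin 𝒪 (entries (restrictMat (Algebra.adjoin 𝒪 (entries r)) r
      (fun σ i j => Algebra.subset_adjoin ⟨(σ, i, j), rfl⟩))) = ⊤ := by
  have h : entries (restrictMat (Algebra.adjoin 𝒪 (entries r)) r
      (fun σ i j => Algebra.subset_adjoin ⟨(σ, i, j), rfl⟩)) =
      ((↑) : Algebra.adjoin 𝒪 (entries r) → A) ⁻¹' (entries r) := by
    ext x
    constructor
    · rintro ⟨⟨σ, i, j⟩, rfl⟩
      exact ⟨(σ, i, j), rfl⟩
    · rintro ⟨⟨σ, i, j⟩, hx⟩
      exact ⟨(σ, i, j), Subtype.ext hx⟩
  rw [h]
  exact Algebra.adjoin_adjoin_coe_preimage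

end Restrict

end Fermat.Agent.S53.LevelAux

end
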