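/-
S53 package P-C: residual representations of `ofMat` in terms of residue matrices.
-/
import Fermat.Agent.S53.Defs

set_option autoImplicit false
set_option linter.style.haveILetI false

noncomputable section

namespace Fermat.Agent.S53

open IsLocalRing

namespace Residual

open scoped TensorProduct

/-- Compatibility of `TensorProduct.piScalarRight` with the action of a matrix. -/
theorem piScalarRight_baseChange_toLin' {R S : Type} [CommRing R] [CommRing S] [Algebra R S]
    (M : Matrix (Fin 2) (Fin 2) R) (x : S ⊗[R] (Fin 2 → R)) :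
    TensorProduct.piScalarRight R S S (Fin 2) ((Matrix.toLin' M).baseChange S x) =
      (M.map (algebraMap R S)).mulVec (TensorProduct.piScalarRight R S S (Fin 2) x) := by
  induction x using TensorProduct.induction_on with
  | zero => simp
  | tmul s v =>
    rw [LinearMap.baseChange_tmul, TensorProduct.piScalarRight_apply,
      TensorProduct.piScalarRight_apply, TensorProduct.piScalarRightHom_tmul,
      TensorProduct.piScalarRightHom_tmul]
    funext i
    simp only [Matrix.toLin'_apply, Matrix.mulVec, dotProduct, Matrix.map_apply]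
    rw [Finset.sum_smul]
    refine Finset.sum_congr rfl fun j _ => ?_
    rw [mul_smul, Algebra.smul_def (M i j)]
  | add x y hx hy => simp only [map_add, hx, hy, Matrix.mulVec_add]

variable {A : Type} [CommRing A] [IsLocalRing A]

/-- The underlying space of the residual representation of `ofMat r` is `k_A²`. -/
def resEquivPi (r : Gal →* M2 A) (hr : MatCont r) :
    (ofMat r hr).residual.V ≃ₗ[ResidueField A] (Fin 2 → ResidueField A) :=
  TensorProduct.piScalarRight A (ResidueField A) (ResidueField A) (Fin 2)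

theorem resEquivPi_apply (r : Gal →* M2 A) (hr : MatCont r) (σ : Gal)
    (x : (ofMat r hr).residual.V) :
    resEquivPi r hr ((ofMat r hr).residual.ρ σ x) =
      ((r σ).map (residue A)).mulVec (resEquivPi r hr x) :=
  piScalarRight_baseChange_toLin' (r σ) x

/-- The underlying space of the base change of a residual representation with a chosen basis
is `K²`. -/
def bcEquivPi {k' K : Type} [Field k'] [Field K] [Algebra k' K] (ρ' : ResidualGaloisRep k')
    (e : ρ'.V ≃ₗ[k'] (Fin 2 → k')) : (ρ'.baseChange K).V ≃ₗ[K] (Fin 2 → K) :=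
  (LinearEquiv.baseChange k' K ρ'.V (Fin 2 → k') e) ≪≫ₗ
    TensorProduct.piScalarRight k' K K (Fin 2)

theorem baseChange_equiv_apply {k' K : Type} [Field k'] [Field K] [Algebra k' K]
    {V : Type} [AddCommGroup V] [Module k' V] (e : V ≃ₗ[k'] (Fin 2 → k'))
    (f : V →ₗ[k'] V) (M : Matrix (Fin 2) (Fin 2) k') (he : ∀ v, e (f v) = M.mulVec (e v))
    (y : K ⊗[k'] V) :
    LinearEquiv.baseChange k' K V (Fin 2 → k') e (f.baseChange K y) =
      (Matrix.toLin' M).baseChange K (LinearEquiv.baseChange k' K V (Fin 2 → k') e y) := by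
  induction y using TensorProduct.induction_on with
  | zero => simp only [map_zero]
  | tmul c v =>
    rw [LinearMap.baseChange_tmul, LinearEquiv.baseChange_tmul, LinearEquiv.baseChange_tmul,
      LinearMap.baseChange_tmul, he, Matrix.toLin'_apply]
  | add x y hx hy => simp only [map_add, hx, hy]

theorem bcEquivPi_apply {k' K : Type} [Field k'] [Field K] [Algebra k' K]
    (ρ' : ResidualGaloisRep k') (e : ρ'.V ≃ₗ[k'] (Fin 2 → k')) (rb' : Gal → M2 k')
    (he : ∀ (σ : Gal) (v : ρ'.V), e (ρ'.ρ σ v) = (rb' σ).mulVec (e v)) (σ : Gal)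
    (y : (ρ'.baseChange K).V) :
    bcEquivPi ρ' e ((ρ'.baseChange K).ρ σ y) =
      ((rb' σ).map (algebraMap k' K)).mulVec (bcEquivPi ρ' e y) := by
  show TensorProduct.piScalarRight k' K K (Fin 2)
      (LinearEquiv.baseChange k' K ρ'.V (Fin 2 → k') e ((ρ'.ρ σ).baseChange K y)) = _
  rw [baseChange_equiv_apply e (ρ'.ρ σ) (rb' σ) (he σ) y, piScalarRight_baseChange_toLin']
  rfl

/-- Core statement: the residual representation of `ofMat r` is equivalent to a base change of a
residual representation given by matrices `rb'` iff the residue matrices are conjugate. -/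
theorem residual_isEquiv_baseChange_iff {k' : Type} [Field k'] [Algebra k' (ResidueField A)]
    (ρ' : ResidualGaloisRep k') (e : ρ'.V ≃ₗ[k'] (Fin 2 → k')) (rb' : Gal → M2 k')
    (he : ∀ (σ : Gal) (v : ρ'.V), e (ρ'.ρ σ v) = (rb' σ).mulVec (e v))
    (r : Gal →* M2 A) (hr : MatCont r) :
    (ofMat r hr).residual.IsEquiv (ρ'.baseChange (ResidueField A)) ↔
      ∃ N : M2 (ResidueField A), IsUnit N ∧ ∀ σ : Gal,
        N * (r σ).map (residue A) = (rb' σ).map (algebraMap k' (ResidueField A)) * N := by
  constructor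
  · rintro ⟨E⟩
    let T : (Fin 2 → ResidueField A) ≃ₗ[ResidueField A] (Fin 2 → ResidueField A) :=
      (resEquivPi r hr).symm ≪≫ₗ E.toLinearEquiv ≪≫ₗ bcEquivPi ρ' e
    have hT : ∀ (σ : Gal) (v : Fin 2 → ResidueField A),
        T (((r σ).map (residue A)).mulVec v) =
          ((rb' σ).map (algebraMap k' (ResidueField A))).mulVec (T v) := by
      intro σ v
      obtain ⟨x, rfl⟩ := (resEquivPi r hr).surjective v
      rw [← resEquivPi_apply]
      show bcEquivPi ρ' e (E.toLinearEquiv ((resEquivPi r hr).symm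
          (resEquivPi r hr ((ofMat r hr).residual.ρ σ x)))) =
        ((rb' σ).map (algebraMap k' (ResidueField A))).mulVec
          (bcEquivPi ρ' e (E.toLinearEquiv ((resEquivPi r hr).symm (resEquivPi r hr x))))
      rw [LinearEquiv.symm_apply_apply, LinearEquiv.symm_apply_apply, E.map_apply,
        bcEquivPi_apply ρ' e rb' he]
    refine ⟨LinearMap.toMatrix' (T : (Fin 2 → ResidueField A) →ₗ[ResidueField A] _), ?_, ?_⟩
    · rw [isUnit_iff_exists]
      refine ⟨LinearMap.toMatrix' (T.symm : (Fin 2 → ResidueField A) →ₗ[ResidueField A] _),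
        ?_, ?_⟩
      · rw [← LinearMap.toMatrix'_comp, LinearEquiv.comp_coe, LinearEquiv.symm_trans_self,
          LinearEquiv.refl_toLinearMap, LinearMap.toMatrix'_id]
      · rw [← LinearMap.toMatrix'_comp, LinearEquiv.comp_coe, LinearEquiv.self_trans_symm,
          LinearEquiv.refl_toLinearMap, LinearMap.toMatrix'_id]
    · intro σ
      apply Matrix.toLin'.injective
      apply LinearMap.ext
      intro v
      rw [Matrix.toLin'_mul, Matrix.toLin'_mul, Matrix.toLin'_toMatrix', LinearMap.comp_apply,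
        LinearMap.comp_apply, Matrix.toLin'_apply, Matrix.toLin'_apply]
      exact hT σ v
  · rintro ⟨N, hN, hconj⟩
    let TN : (Fin 2 → ResidueField A) ≃ₗ[ResidueField A] (Fin 2 → ResidueField A) :=
      N.toLinearEquiv' hN.nonempty_invertible.some
    have hTN : ∀ v, TN v = N.mulVec v := fun v => rfl
    refine ⟨{ toLinearEquiv := resEquivPi r hr ≪≫ₗ TN ≪≫ₗ (bcEquivPi ρ' e).symm
              map_apply := fun σ x => ?_ }⟩
    apply (bcEquivPi ρ' e).injective
    rw [bcEquivPi_apply ρ' e rb' he]
    show bcEquivPi ρ' e ((bcEquivPi ρ' e).symm (TN (resEquivPi r hr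
        ((ofMat r hr).residual.ρ σ x)))) =
      ((rb' σ).map (algebraMap k' (ResidueField A))).mulVec
        (bcEquivPi ρ' e ((bcEquivPi ρ' e).symm (TN (resEquivPi r hr x))))
    rw [LinearEquiv.apply_symm_apply, LinearEquiv.apply_symm_apply, resEquivPi_apply, hTN, hTN,
      Matrix.mulVec_mulVec, Matrix.mulVec_mulVec, hconj σ]

end Residual

variable {𝒪 : Type} [CommRing 𝒪] [IsLocalRing 𝒪] {ρbar : ResidualGaloisRep (ResidueField 𝒪)}

/-- `rb` is continuous (over the field `k`, the maximal ideal is zero). -/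
theorem matCont_rb (S : Setup 𝒪 ρbar) : MatCont S.rb := by
  intro n
  obtain ⟨L, hL, h⟩ := S.fin
  refine ⟨L, hL, fun σ hσ i j => ?_⟩
  rw [h σ hσ, sub_self]
  exact Ideal.zero_mem _

/-- `ρbar`, viewed as a `GaloisRepAdic k`, is `ofMat rb`. -/
theorem ofResidual_isEquiv (S : Setup 𝒪 ρbar) :
    (GaloisRepAdic.ofResidualGaloisRep ρbar).IsEquiv (ofMat S.rb (matCont_rb S)) :=
  ⟨{ toLinearEquiv := S.e
     map_apply := fun σ x => S.he σ x }⟩

/-- P-C (main): the residual representation of `ofMat r` is equivalent to the base change of `ρbar`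
iff the residue matrices of `r` are simultaneously conjugate to (the image of) `rb`.
(`(ofMat r hr).residual.V = k_A ⊗[A] (Fin 2 → A) ≃ (Fin 2 → k_A)` by `TensorProduct.piScalarRight`;
`(ρbar.baseChangeAlong ι).V = k_A ⊗[k] ρbar.V ≃ (Fin 2 → k_A)` using `S.e`.) -/
theorem residual_isEquiv_iff (S : Setup 𝒪 ρbar) {A : Type} [CommRing A] [IsLocalRing A]
    [Algebra 𝒪 A] [IsLocalHom (algebraMap 𝒪 A)] (r : Gal →* M2 A) (hr : MatCont r) :
    (ofMat r hr).residual.IsEquiv
        (ρbar.baseChangeAlong (ResidueField.map (algebraMap 𝒪 A))) ↔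
      ∃ N : M2 (ResidueField A), IsUnit N ∧ ∀ σ : Gal,
        N * (r σ).map (residue A) =
          (S.rb σ).map (ResidueField.map (algebraMap 𝒪 A)) * N := by
  letI : Algebra (ResidueField 𝒪) (ResidueField A) :=
    (ResidueField.map (algebraMap 𝒪 A)).toAlgebra
  exact Residual.residual_isEquiv_baseChange_iff ρbar S.e S.rb S.he r hr

/-- The form of the residual condition which appears in `GaloisRep.TangentFinite`
(dual numbers with the algebra structures `dualAlg`, `dualResAlg`). -/
theorem residual_isEquiv_dual (S : Setup 𝒪 ρbar)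
    (r : Gal →* M2 (DualNumber (ResidueField 𝒪))) (hr : MatCont r)
    (hl : @Lifts 𝒪 _ _ ρbar S (DualNumber (ResidueField 𝒪)) _ _ (dualAlg 𝒪) r) :
    (ofMat r hr).residual.IsEquiv
      (@ResidualGaloisRep.baseChange (ResidueField 𝒪) _
        (ResidueField (DualNumber (ResidueField 𝒪))) _ (dualResAlg 𝒪) ρbar) := by
  letI : Algebra (ResidueField 𝒪) (ResidueField (DualNumber (ResidueField 𝒪))) := dualResAlg 𝒪
  refine (Residual.residual_isEquiv_baseChange_iff ρbar S.e S.rb S.he r hr).mpr
    ⟨1, isUnit_one, fun σ => ?_⟩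
  rw [one_mul, mul_one]
  ext i j
  rw [Matrix.map_apply, Matrix.map_apply]
  have h := hl σ i j
  have h2 : @algebraMap 𝒪 (DualNumber (ResidueField 𝒪)) _ _ (dualAlg 𝒪)
      (S.sec (S.rb σ i j)) =
      algebraMap (ResidueField 𝒪) (DualNumber (ResidueField 𝒪)) (S.rb σ i j) := by
    show algebraMap (ResidueField 𝒪) (DualNumber (ResidueField 𝒪))
      (algebraMap 𝒪 (ResidueField 𝒪) (S.sec (S.rb σ i j))) = _
    rw [ResidueField.algebraMap_eq, S.sec_spec]
  rw [h2, ← residue_eq_zero_iff, map_sub, sub_eq_zero] at h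
  exact h

end Fermat.Agent.S53

end
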