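/-
S53 package P-F: few algebra maps to the dual numbers ⇒ few generators of the maximal ideal
(pure commutative algebra, no Galois theory).
-/
import Fermat.Agent.S53.Defs

set_option autoImplicit false
set_option linter.unusedSectionVars false
set_option linter.unusedVariables false

noncomputable section

namespace Fermat.Agent.S53

open IsLocalRing

namespace Tangent1

variable {𝒪 : Type} [CommRing 𝒪] [IsLocalRing 𝒪]
  {A : Type} [CommRing A] [IsLocalRing A] [Algebra 𝒪 A]

/-- The functionals on the cotangent space which kill the classes of all scalars. -/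
def Good (lam : Module.Dual (ResidueField A) (CotangentSpace A)) : Prop :=
  ∀ (x : 𝒪) (h : algebraMap 𝒪 A x ∈ maximalIdeal A),
    lam ((maximalIdeal A).toCotangent ⟨algebraMap 𝒪 A x, h⟩) = 0

/-- a chosen scalar with the same residue -/
def cof (hsurj : Function.Surjective (residue A ∘ algebraMap 𝒪 A)) (a : A) : 𝒪 :=
  Classical.choose (hsurj (residue A a))

theorem cof_spec (hsurj : Function.Surjective (residue A ∘ algebraMap 𝒪 A)) (a : A) :
    residue A (algebraMap 𝒪 A (cof hsurj a)) = residue A a :=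
  Classical.choose_spec (hsurj (residue A a))

theorem sub_mem_of_residue_eq {a b : A} (h : residue A b = residue A a) :
    a - b ∈ maximalIdeal A := by
  rw [← residue_eq_zero_iff, map_sub, h, sub_self]

/-- the derivation attached to a functional -/
def der (hsurj : Function.Surjective (residue A ∘ algebraMap 𝒪 A))
    (lam : Module.Dual (ResidueField A) (CotangentSpace A)) (a : A) : ResidueField A :=
  lam ((maximalIdeal A).toCotangent
    ⟨a - algebraMap 𝒪 A (cof hsurj a), sub_mem_of_residue_eq (cof_spec hsurj a)⟩)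

theorem der_eq (hsurj : Function.Surjective (residue A ∘ algebraMap 𝒪 A))
    {lam : Module.Dual (ResidueField A) (CotangentSpace A)} (hlam : Good (𝒪 := 𝒪) lam)
    (a : A) (c : 𝒪) (h : a - algebraMap 𝒪 A c ∈ maximalIdeal A) :
    der hsurj lam a = lam ((maximalIdeal A).toCotangent ⟨a - algebraMap 𝒪 A c, h⟩) := by
  have h1 : algebraMap 𝒪 A (c - cof hsurj a) ∈ maximalIdeal A := by
    have : algebraMap 𝒪 A (c - cof hsurj a) =
        (a - algebraMap 𝒪 A (cof hsurj a)) - (a - algebraMap 𝒪 A c) := by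
      rw [map_sub]; ring
    rw [this]
    exact Ideal.sub_mem _ (sub_mem_of_residue_eq (cof_spec hsurj a)) h
  have h2 : (⟨a - algebraMap 𝒪 A (cof hsurj a), sub_mem_of_residue_eq (cof_spec hsurj a)⟩ :
      maximalIdeal A) = ⟨a - algebraMap 𝒪 A c, h⟩ + ⟨algebraMap 𝒪 A (c - cof hsurj a), h1⟩ := by
    apply Subtype.ext
    show a - algebraMap 𝒪 A (cof hsurj a) = (a - algebraMap 𝒪 A c) + algebraMap 𝒪 A (c - cof hsurj a)
    rw [map_sub]; ring
  unfold der
  rw [h2, map_add, map_add, hlam _ h1, add_zero]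

theorem smul_toCotangent (a : A) (m : maximalIdeal A)
    (lam : Module.Dual (ResidueField A) (CotangentSpace A)) :
    lam ((maximalIdeal A).toCotangent (a • m)) = residue A a * lam ((maximalIdeal A).toCotangent m) := by
  rw [map_smul, ← IsScalarTower.algebraMap_smul (ResidueField A) a, map_smul, smul_eq_mul,
    IsLocalRing.ResidueField.algebraMap_eq]

theorem der_add (hsurj : Function.Surjective (residue A ∘ algebraMap 𝒪 A))
    {lam : Module.Dual (ResidueField A) (CotangentSpace A)} (hlam : Good (𝒪 := 𝒪) lam)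
    (a b : A) : der hsurj lam (a + b) = der hsurj lam a + der hsurj lam b := by
  have ha := sub_mem_of_residue_eq (cof_spec hsurj a)
  have hb := sub_mem_of_residue_eq (cof_spec hsurj b)
  have hab : a + b - algebraMap 𝒪 A (cof hsurj a + cof hsurj b) ∈ maximalIdeal A := by
    have : a + b - algebraMap 𝒪 A (cof hsurj a + cof hsurj b) =
        (a - algebraMap 𝒪 A (cof hsurj a)) + (b - algebraMap 𝒪 A (cof hsurj b)) := by
      rw [map_add]; ring
    rw [this]; exact Ideal.add_mem _ ha hb
  rw [der_eq hsurj hlam (a + b) (cof hsurj a + cof hsurj b) hab]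
  have h2 : (⟨a + b - algebraMap 𝒪 A (cof hsurj a + cof hsurj b), hab⟩ : maximalIdeal A) =
      ⟨a - algebraMap 𝒪 A (cof hsurj a), ha⟩ + ⟨b - algebraMap 𝒪 A (cof hsurj b), hb⟩ := by
    apply Subtype.ext
    show a + b - algebraMap 𝒪 A (cof hsurj a + cof hsurj b) =
      (a - algebraMap 𝒪 A (cof hsurj a)) + (b - algebraMap 𝒪 A (cof hsurj b))
    rw [map_add]; ring
  rw [h2, map_add, map_add]
  rfl

theorem der_mul (hsurj : Function.Surjective (residue A ∘ algebraMap 𝒪 A))
    {lam : Module.Dual (ResidueField A) (CotangentSpace A)} (hlam : Good (𝒪 := 𝒪) lam)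
    (a b : A) :
    der hsurj lam (a * b) = residue A a * der hsurj lam b + residue A b * der hsurj lam a := by
  have ha := sub_mem_of_residue_eq (cof_spec hsurj a)
  have hb := sub_mem_of_residue_eq (cof_spec hsurj b)
  set ca := algebraMap 𝒪 A (cof hsurj a) with hca
  set cb := algebraMap 𝒪 A (cof hsurj b) with hcb
  have hdec : a * b - algebraMap 𝒪 A (cof hsurj a * cof hsurj b) =
      (a - ca) * (b - cb) + ca * (b - cb) + cb * (a - ca) := by
    rw [map_mul]; ring
  have hab : a * b - algebraMap 𝒪 A (cof hsurj a * cof hsurj b) ∈ maximalIdeal A := by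
    rw [hdec]
    exact Ideal.add_mem _ (Ideal.add_mem _ (Ideal.mul_mem_left _ _ hb) (Ideal.mul_mem_left _ _ hb))
      (Ideal.mul_mem_left _ _ ha)
  rw [der_eq hsurj hlam (a * b) (cof hsurj a * cof hsurj b) hab]
  have hsq : (a - ca) * (b - cb) ∈ maximalIdeal A := Ideal.mul_mem_left _ _ hb
  have h2 : (⟨a * b - algebraMap 𝒪 A (cof hsurj a * cof hsurj b), hab⟩ : maximalIdeal A) =
      ⟨(a - ca) * (b - cb), hsq⟩ + ca • ⟨b - cb, hb⟩ + cb • ⟨a - ca, ha⟩ := by
    apply Subtype.ext
    show a * b - algebraMap 𝒪 A (cof hsurj a * cof hsurj b) =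
      (a - ca) * (b - cb) + ca * (b - cb) + cb * (a - ca)
    exact hdec
  have h3 : (maximalIdeal A).toCotangent ⟨(a - ca) * (b - cb), hsq⟩ = 0 := by
    rw [Ideal.toCotangent_eq_zero, pow_two]
    exact Ideal.mul_mem_mul ha hb
  have e1 : residue A ca = residue A a := cof_spec hsurj a
  have e2 : residue A cb = residue A b := cof_spec hsurj b
  rw [h2, map_add, map_add, map_add, map_add, h3, map_zero, zero_add, smul_toCotangent,
    smul_toCotangent, e1, e2]
  rfl

theorem der_algebraMap (hsurj : Function.Surjective (residue A ∘ algebraMap 𝒪 A))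
    {lam : Module.Dual (ResidueField A) (CotangentSpace A)} (hlam : Good (𝒪 := 𝒪) lam)
    (c : 𝒪) : der hsurj lam (algebraMap 𝒪 A c) = 0 := by
  have h : algebraMap 𝒪 A c - algebraMap 𝒪 A c ∈ maximalIdeal A := by
    rw [sub_self]; exact Ideal.zero_mem _
  rw [der_eq hsurj hlam _ c h]
  have : (⟨algebraMap 𝒪 A c - algebraMap 𝒪 A c, h⟩ : maximalIdeal A) = 0 := by
    apply Subtype.ext
    show algebraMap 𝒪 A c - algebraMap 𝒪 A c = 0
    exact sub_self _
  rw [this, map_zero, map_zero]

theorem der_of_mem (hsurj : Function.Surjective (residue A ∘ algebraMap 𝒪 A))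
    {lam : Module.Dual (ResidueField A) (CotangentSpace A)} (hlam : Good (𝒪 := 𝒪) lam)
    (m : maximalIdeal A) : der hsurj lam (m : A) = lam ((maximalIdeal A).toCotangent m) := by
  have h : (m : A) - algebraMap 𝒪 A 0 ∈ maximalIdeal A := by
    rw [map_zero, sub_zero]; exact m.2
  rw [der_eq hsurj hlam _ 0 h]
  congr 2
  apply Subtype.ext
  show (m : A) - algebraMap 𝒪 A 0 = m
  rw [map_zero, sub_zero]


section Hom

variable (𝒪 A)

/-- the identification of the residue field of `A` with that of `𝒪` -/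
def resEquiv (hloc : IsLocalHom (algebraMap 𝒪 A))
    (hsurj : Function.Surjective (residue A ∘ algebraMap 𝒪 A)) :
    ResidueField 𝒪 ≃+* ResidueField A :=
  haveI := hloc
  RingEquiv.ofBijective (ResidueField.map (algebraMap 𝒪 A))
    ⟨(ResidueField.map (algebraMap 𝒪 A)).injective, fun y => by
      obtain ⟨c, hc⟩ := hsurj y
      exact ⟨residue 𝒪 c, by rw [ResidueField.map_residue]; exact hc⟩⟩

theorem resEquiv_symm_residue (hloc : IsLocalHom (algebraMap 𝒪 A))
    (hsurj : Function.Surjective (residue A ∘ algebraMap 𝒪 A)) (c : 𝒪) :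
    (resEquiv 𝒪 A hloc hsurj).symm (residue A (algebraMap 𝒪 A c)) = residue 𝒪 c := by
  haveI := hloc
  rw [RingEquiv.symm_apply_eq]
  show residue A (algebraMap 𝒪 A c) = ResidueField.map (algebraMap 𝒪 A) (residue 𝒪 c)
  rw [ResidueField.map_residue]

variable {𝒪 A}

/-- the algebra map to the dual numbers attached to a good functional -/
def homOf (hloc : IsLocalHom (algebraMap 𝒪 A))
    (hsurj : Function.Surjective (residue A ∘ algebraMap 𝒪 A))
    (lam : Module.Dual (ResidueField A) (CotangentSpace A)) (hlam : Good (𝒪 := 𝒪) lam) :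
    @AlgHom 𝒪 A (DualNumber (ResidueField 𝒪)) _ _ _ _ (dualAlg 𝒪) :=
  letI := dualAlg 𝒪
  { toFun := fun a => TrivSqZeroExt.inl ((resEquiv 𝒪 A hloc hsurj).symm (residue A a)) +
      TrivSqZeroExt.inr ((resEquiv 𝒪 A hloc hsurj).symm (der hsurj lam a))
    map_one' := by
      have h1 : der hsurj lam (1 : A) = 0 := by
        have := der_algebraMap hsurj hlam (1 : 𝒪)
        rwa [map_one] at this
      rw [h1, map_one, map_one, map_zero, TrivSqZeroExt.inr_zero, add_zero, TrivSqZeroExt.inl_one]
    map_mul' := fun a b => by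
      rw [der_mul hsurj hlam]
      apply TrivSqZeroExt.ext
      · simp
      · simp
        ring
    map_zero' := by
      have h1 : der hsurj lam (0 : A) = 0 := by
        have := der_algebraMap hsurj hlam (0 : 𝒪)
        rwa [map_zero] at this
      rw [h1, map_zero, map_zero, TrivSqZeroExt.inr_zero, add_zero, TrivSqZeroExt.inl_zero]
    map_add' := fun a b => by
      rw [der_add hsurj hlam]
      apply TrivSqZeroExt.ext
      · simp
      · simp
    commutes' := fun c => by
      rw [der_algebraMap hsurj hlam, resEquiv_symm_residue, map_zero, TrivSqZeroExt.inr_zero,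
        add_zero]
      rfl }

theorem snd_homOf (hloc : IsLocalHom (algebraMap 𝒪 A))
    (hsurj : Function.Surjective (residue A ∘ algebraMap 𝒪 A))
    (lam : Module.Dual (ResidueField A) (CotangentSpace A)) (hlam : Good (𝒪 := 𝒪) lam) (a : A) :
    TrivSqZeroExt.snd (homOf hloc hsurj lam hlam a) =
      (resEquiv 𝒪 A hloc hsurj).symm (der hsurj lam a) := by
  show TrivSqZeroExt.snd (TrivSqZeroExt.inl ((resEquiv 𝒪 A hloc hsurj).symm (residue A a)) +
      TrivSqZeroExt.inr ((resEquiv 𝒪 A hloc hsurj).symm (der hsurj lam a))) = _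
  simp

theorem homOf_injective (hloc : IsLocalHom (algebraMap 𝒪 A))
    (hsurj : Function.Surjective (residue A ∘ algebraMap 𝒪 A))
    (lam lam' : Module.Dual (ResidueField A) (CotangentSpace A)) (hlam : Good (𝒪 := 𝒪) lam)
    (hlam' : Good (𝒪 := 𝒪) lam') (h : homOf hloc hsurj lam hlam = homOf hloc hsurj lam' hlam') :
    lam = lam' := by
  apply LinearMap.ext
  intro w
  obtain ⟨m, rfl⟩ := (maximalIdeal A).toCotangent_surjective w
  have h1 := snd_homOf hloc hsurj lam hlam (m : A)
  have h2 := snd_homOf hloc hsurj lam' hlam' (m : A)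
  rw [h, h2] at h1
  have h3 := (resEquiv 𝒪 A hloc hsurj).symm.injective h1
  rw [der_of_mem hsurj hlam, der_of_mem hsurj hlam'] at h3
  exact h3.symm

end Hom


section Count

variable (𝒪 : Type) [CommRing 𝒪] [IsDomain 𝒪] [IsDiscreteValuationRing 𝒪]
  (A : Type) [CommRing A] [IsLocalRing A] [Algebra 𝒪 A]

/-- functionals killing the class of a uniformizer are good -/
theorem good_of_mem_dualAnnihilator (hloc : IsLocalHom (algebraMap 𝒪 A)) {ϖ : 𝒪}
    (hϖ : Irreducible ϖ) (hϖA : algebraMap 𝒪 A ϖ ∈ maximalIdeal A)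
    (lam : Module.Dual (ResidueField A) (CotangentSpace A))
    (hlam : lam ∈ (Submodule.span (ResidueField A)
      {(maximalIdeal A).toCotangent ⟨algebraMap 𝒪 A ϖ, hϖA⟩}).dualAnnihilator) :
    Good (𝒪 := 𝒪) lam := by
  intro x hx
  haveI := hloc
  have hx' : x ∈ maximalIdeal 𝒪 := by
    rw [mem_maximalIdeal, mem_nonunits_iff]
    intro hu
    exact (mem_nonunits_iff.mp ((mem_maximalIdeal _).mp hx)) (hu.map (algebraMap 𝒪 A))
  rw [hϖ.maximalIdeal_eq, Ideal.mem_span_singleton'] at hx'
  obtain ⟨u, rfl⟩ := hx'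
  have h2 : (⟨algebraMap 𝒪 A (u * ϖ), hx⟩ : maximalIdeal A) =
      algebraMap 𝒪 A u • ⟨algebraMap 𝒪 A ϖ, hϖA⟩ := by
    apply Subtype.ext
    show algebraMap 𝒪 A (u * ϖ) = algebraMap 𝒪 A u * algebraMap 𝒪 A ϖ
    rw [map_mul]
  rw [h2, smul_toCotangent]
  rw [Submodule.mem_dualAnnihilator] at hlam
  rw [hlam _ (Submodule.subset_span rfl), mul_zero]

end Count


end Tangent1

open Tangent1 in
/-- P-F (main).  `A` a finite local `𝒪`-algebra with residue field `k`.  Every `k`-linear functional
`λ` on `W = 𝔪_A / (𝔪_A ^ 2 + 𝔪_𝒪 A)` gives an `𝒪`-algebra map `A → k[ε]`,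
`a ↦ ā + λ [a - algebraMap (sec ā)] ε`, and `λ ↦ φ_λ` is injective; `|W^*| = |W|`.
Hence `|W| ≤ t`, and `𝔪_A` is generated by `algebraMap ϖ` and lifts of the elements of `W`
(Nakayama, `𝔪_A` nilpotent).  The target carries the algebra structure `dualAlg 𝒪`. -/
theorem exists_finset_span_maximalIdeal (𝒪 : Type) [CommRing 𝒪] [IsDomain 𝒪]
    [IsDiscreteValuationRing 𝒪] [Finite (ResidueField 𝒪)]
    (A : Type) [CommRing A] [IsLocalRing A] [Algebra 𝒪 A] [Finite A]
    (hloc : IsLocalHom (algebraMap 𝒪 A))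
    (hsurj : Function.Surjective (residue A ∘ algebraMap 𝒪 A))
    (t : ℕ)
    (ht : Nat.card (@AlgHom 𝒪 A (DualNumber (ResidueField 𝒪)) _ _ _ _ (dualAlg 𝒪)) ≤ t) :
    ∃ s : Finset A, s.card ≤ t + 1 ∧ Ideal.span (s : Set A) = maximalIdeal A := by
  obtain ⟨ϖ, hϖ⟩ := IsDiscreteValuationRing.exists_irreducible 𝒪
  obtain ⟨s, hs, hspan⟩ := Submodule.FG.exists_span_finset_card_eq_spanFinrank
    (maximalIdeal A).fg_of_isNoetherianRing
  refine ⟨s, ?_, hspan⟩
  rw [hs, spanFinrank_maximalIdeal_eq_finrank_cotangentSpace]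
  have hϖA : algebraMap 𝒪 A ϖ ∈ maximalIdeal A := by
    rw [mem_maximalIdeal, mem_nonunits_iff]
    intro hu
    haveI := hloc
    exact hϖ.not_isUnit (isUnit_of_map_unit (algebraMap 𝒪 A) ϖ hu)
  have hfin : Module.finrank (ResidueField A) (Submodule.span (ResidueField A)
      {(maximalIdeal A).toCotangent ⟨algebraMap 𝒪 A ϖ, hϖA⟩}) +
      Module.finrank (ResidueField A) ((Submodule.span (ResidueField A)
      {(maximalIdeal A).toCotangent ⟨algebraMap 𝒪 A ϖ, hϖA⟩}).dualAnnihilator) =
      Module.finrank (ResidueField A) (CotangentSpace A) :=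
    Subspace.finrank_add_finrank_dualAnnihilator_eq
      (Submodule.span (ResidueField A) {(maximalIdeal A).toCotangent ⟨algebraMap 𝒪 A ϖ, hϖA⟩})
  have hW₀ : Module.finrank (ResidueField A) (Submodule.span (ResidueField A)
      {(maximalIdeal A).toCotangent ⟨algebraMap 𝒪 A ϖ, hϖA⟩}) ≤ 1 := by
    have := finrank_span_le_card (R := ResidueField A)
      ({(maximalIdeal A).toCotangent ⟨algebraMap 𝒪 A ϖ, hϖA⟩} : Set (CotangentSpace A))
    simpa using this
  haveI : Finite (DualNumber (ResidueField 𝒪)) :=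
    inferInstanceAs (Finite (ResidueField 𝒪 × ResidueField 𝒪))
  haveI : Finite (@AlgHom 𝒪 A (DualNumber (ResidueField 𝒪)) _ _ _ _ (dualAlg 𝒪)) :=
    letI := dualAlg 𝒪
    Finite.of_injective (fun f : A →ₐ[𝒪] DualNumber (ResidueField 𝒪) => (f : A → _))
      DFunLike.coe_injective
  have hcard : Nat.card ((Submodule.span (ResidueField A)
      {(maximalIdeal A).toCotangent ⟨algebraMap 𝒪 A ϖ, hϖA⟩}).dualAnnihilator) ≤ t := by
    refine le_trans (Nat.card_le_card_of_injective
      (fun lam => homOf hloc hsurj lam.1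
        (good_of_mem_dualAnnihilator 𝒪 A hloc hϖ hϖA lam.1 lam.2)) ?_) ht
    intro l l' h
    exact Subtype.ext (homOf_injective hloc hsurj _ _ _ _ h)
  haveI : Finite (ResidueField A) := Finite.of_surjective _ (residue_surjective (R := A))
  rw [Module.natCard_eq_pow_finrank (K := ResidueField A)] at hcard
  have h2 : 2 ≤ Nat.card (ResidueField A) := Finite.one_lt_card
  have h3 := Nat.lt_two_pow_self (n := Module.finrank (ResidueField A)
    ((Submodule.span (ResidueField A)
      {(maximalIdeal A).toCotangent ⟨algebraMap 𝒪 A ϖ, hϖA⟩}).dualAnnihilator))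
  have h4 := Nat.pow_le_pow_left h2 (Module.finrank (ResidueField A)
    ((Submodule.span (ResidueField A)
      {(maximalIdeal A).toCotangent ⟨algebraMap 𝒪 A ϖ, hϖA⟩}).dualAnnihilator))
  omega

end Fermat.Agent.S53

end
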