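/-
S53 package P-D1: uniqueness of normal forms (explicit 2 × 2 algebra + Schur over k).
-/
import Fermat.Agent.S53.Defs

set_option autoImplicit false

noncomputable section

namespace Fermat.Agent.S53

open IsLocalRing

variable {𝒪 : Type} [CommRing 𝒪] [IsLocalRing 𝒪] {ρbar : ResidualGaloisRep (ResidueField 𝒪)}
variable {A : Type} [CommRing A] [IsLocalRing A] [Algebra 𝒪 A] [IsLocalHom (algebraMap 𝒪 A)]

namespace NFUnique

/-- `Lifts` in terms of residue matrices. -/
theorem lifts_iff (S : Setup 𝒪 ρbar) (r : Gal →* M2 A) :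
    Lifts S r ↔ ∀ σ : Gal, (r σ).map (residue A) =
      (S.rb σ).map (ResidueField.map (algebraMap 𝒪 A)) := by
  have key : ∀ (σ : Gal) (i j : Fin 2),
      (r σ i j - algebraMap 𝒪 A (S.sec (S.rb σ i j)) ∈ maximalIdeal A) ↔
        residue A (r σ i j) = ResidueField.map (algebraMap 𝒪 A) (S.rb σ i j) := by
    intro σ i j
    rw [← residue_eq_zero_iff, map_sub, sub_eq_zero, ← ResidueField.map_residue, S.sec_spec]
  constructor
  · intro h σ
    ext i j
    exact (key σ i j).mp (h σ i j)
  · intro h σ i j
    refine (key σ i j).mpr ?_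
    have := congrFun (congrFun (h σ) i) j
    simpa using this

end NFUnique

/-- If the residue matrices of `r` are conjugate to `rb`, then `r` is conjugate to a lift of `rb`
(lift the conjugating matrix entrywise; its determinant is a unit). -/
theorem exists_lifts_of_conj (S : Setup 𝒪 ρbar) (r : Gal →* M2 A)
    (N : M2 (ResidueField A)) (hN : IsUnit N)
    (h : ∀ σ : Gal, N * (r σ).map (residue A) =
      (S.rb σ).map (ResidueField.map (algebraMap 𝒪 A)) * N) :
    ∃ (M : M2 A) (r' : Gal →* M2 A), IsUnit M ∧ (∀ σ, M * r σ = r' σ * M) ∧ Lifts S r' := by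
  classical
  have hsurj : Function.Surjective (residue A) := IsLocalRing.residue_surjective
  choose lift hlift using hsurj
  set M : M2 A := Matrix.of fun i j => lift (N i j) with hMdef
  have hMN : (residue A).mapMatrix M = N := by
    ext i j
    simp [hMdef, hlift]
  have hdet : IsUnit M.det := by
    have h1 : residue A M.det = N.det := by
      rw [← hMN]
      exact RingHom.map_det (residue A) M
    have h2 : IsUnit N.det := (Matrix.isUnit_iff_isUnit_det N).mp hN
    rw [← h1] at h2
    exact isUnit_of_map_unit (residue A) _ h2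
  have hMu : IsUnit M := (Matrix.isUnit_iff_isUnit_det M).mpr hdet
  obtain ⟨u, hu⟩ := hMu
  let r' : Gal →* M2 A :=
    { toFun := fun σ => (u : M2 A) * r σ * ((u⁻¹ : (M2 A)ˣ) : M2 A)
      map_one' := by simp
      map_mul' := fun a b => by
        rw [map_mul]
        simp only [mul_assoc, Units.inv_mul_cancel_left] }
  have hr' : ∀ σ, r' σ = (u : M2 A) * r σ * ((u⁻¹ : (M2 A)ˣ) : M2 A) := fun _ => rfl
  refine ⟨M, r', ⟨u, hu⟩, fun σ => ?_, ?_⟩
  · rw [hr', ← hu, mul_assoc, Units.inv_mul, mul_one]
  · rw [NFUnique.lifts_iff]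
    intro σ
    rw [hr']
    have e2 : ((u : M2 A) * r σ * ((u⁻¹ : (M2 A)ˣ) : M2 A)).map (residue A) =
        (residue A).mapMatrix (u : M2 A) * (residue A).mapMatrix (r σ) *
          (residue A).mapMatrix ((u⁻¹ : (M2 A)ˣ) : M2 A) := by
      rw [← map_mul, ← map_mul]
      rfl
    rw [e2, hu, hMN]
    have e3 : (residue A).mapMatrix (r σ) = (r σ).map (residue A) := rfl
    rw [e3, h σ, mul_assoc, ← hMN, ← hu, ← map_mul, Units.mul_inv, map_one, mul_one]

/-- NF-uniq: two lifts of `rb` in normal form which are conjugate are equal.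
(`M` reduces to a scalar by `S.schur` (use `hsurj` to compare residue fields); after rescaling
`M ≡ 1`; then `M = (1 + x) • (1 + y • r' g0)` with `x, y ∈ 𝔪` because `M e₂ = r' g0 (M e₁)`;
the normalisation at `g1` for both `r` and `r'` gives `y * (α y + β) = 0`, `β` a unit, so `y = 0`.) -/
theorem normalForm_unique (S : Setup 𝒪 ρbar)
    (hsurj : Function.Surjective (residue A ∘ algebraMap 𝒪 A))
    (r r' : Gal →* M2 A) (hl : Lifts S r) (hl' : Lifts S r') (hn : IsNF S r) (hn' : IsNF S r')
    (M : M2 A) (hM : IsUnit M) (hconj : ∀ σ, M * r σ = r' σ * M) : r = r' := by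
  classical
  rw [NFUnique.lifts_iff] at hl hl'
  set ι : ResidueField 𝒪 →+* ResidueField A := ResidueField.map (algebraMap 𝒪 A) with hι
  have hιinj : Function.Injective ι := ι.injective
  have hιsurj : Function.Surjective ι := by
    intro y
    obtain ⟨x, hx⟩ := hsurj y
    exact ⟨residue 𝒪 x, by rw [hι, ResidueField.map_residue]; exact hx⟩
  -- the residue of `M` commutes with the image of `rb`
  set Mb : M2 (ResidueField A) := (residue A).mapMatrix M with hMb
  have hMb_comm : ∀ σ, Mb * ι.mapMatrix (S.rb σ) = ι.mapMatrix (S.rb σ) * Mb := by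
    intro σ
    have h1 := congrArg (residue A).mapMatrix (hconj σ)
    rw [map_mul, map_mul] at h1
    have e1 : (residue A).mapMatrix (r σ) = ι.mapMatrix (S.rb σ) := hl σ
    have e2 : (residue A).mapMatrix (r' σ) = ι.mapMatrix (S.rb σ) := hl' σ
    rw [e1, e2] at h1
    exact h1
  -- pull `Mb` back to the residue field of `𝒪` and apply Schur
  choose pre hpre using hιsurj
  set M0 : M2 (ResidueField 𝒪) := Matrix.of fun i j => pre (Mb i j) with hM0
  have hM0map : ι.mapMatrix M0 = Mb := by
    ext i j
    simp [hM0, hpre]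
  have hmapinj : Function.Injective (ι.mapMatrix : M2 (ResidueField 𝒪) → M2 (ResidueField A)) :=
    Matrix.map_injective hιinj
  have hM0comm : ∀ σ, M0 * S.rb σ = S.rb σ * M0 := by
    intro σ
    apply hmapinj
    rw [map_mul, map_mul, hM0map]
    exact hMb_comm σ
  obtain ⟨c, hc⟩ := S.schur M0 hM0comm
  have hMbc : Mb = (ι c) • (1 : M2 (ResidueField A)) := by
    rw [← hM0map, hc]
    ext i j
    simp only [RingHom.mapMatrix_apply, Matrix.map_apply, Matrix.scalar_apply,
      Matrix.diagonal_apply, Matrix.smul_apply, Matrix.one_apply, smul_eq_mul]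
    split_ifs <;> simp
  -- `ι c ≠ 0`
  have hc0 : ι c ≠ 0 := by
    intro h0
    have hMbu : IsUnit Mb := hM.map (residue A).mapMatrix
    rw [hMbc, h0, zero_smul] at hMbu
    exact not_isUnit_zero hMbu
  -- the entries of `M`
  set p : A := M 0 0 with hp
  set q : A := M 1 0 with hq
  have hresp : residue A p = ι c := by
    have := congrFun (congrFun hMbc 0) 0
    simpa [hMb] using this
  have hresq : residue A q = 0 := by
    have := congrFun (congrFun hMbc 1) 0
    simpa [hMb] using this
  have hpu : IsUnit p := by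
    by_contra hnu
    exact hc0 (hresp ▸ (residue_eq_zero_iff p).mpr hnu)
  obtain ⟨h00, h10, h1c⟩ := hn
  obtain ⟨h00', h10', h1c'⟩ := hn'
  -- `M = p • 1 + q • r' g0`
  have hMeq : M = p • (1 : M2 A) + q • r' S.g0 := by
    have hg0 := hconj S.g0
    have c0 := congrFun (congrFun hg0 0) 0
    have c1 := congrFun (congrFun hg0 1) 0
    simp only [Matrix.mul_apply, Fin.sum_univ_two, h00, h10, h00', h10'] at c0 c1
    ext i j
    fin_cases i <;> fin_cases j
    · simp [hp, h00']
    · simp only [Fin.zero_eta, Fin.mk_one, Matrix.add_apply, Matrix.smul_apply, smul_eq_mul,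
        Matrix.one_apply_ne, ne_eq, zero_ne_one, not_false_eq_true, mul_zero, zero_add]
      linear_combination c0
    · simp [hq, h10']
    · simp only [Fin.mk_one, Matrix.add_apply, Matrix.smul_apply, smul_eq_mul,
        Matrix.one_apply_eq, mul_one]
      linear_combination c1
  -- the commutator computation at `g1`
  set X : M2 A := r S.g1 with hX
  set X' : M2 A := r' S.g1 with hX'
  set R' : M2 A := r' S.g0 with hR'
  set W : M2 A := X' * R' - R' * X' with hW
  have hMD : M * (X - X') = q • W := by
    have h1 : M * X = X' * M := hconj S.g1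
    rw [mul_sub, h1, hMeq]
    simp only [mul_add, add_mul, Matrix.mul_smul, Matrix.smul_mul, mul_one, one_mul, hW, smul_sub]
    abel
  have hdetD : M.det • (X - X') = q • (M.adjugate * W) := by
    have h2 : M.adjugate * (M * (X - X')) = M.det • (X - X') := by
      rw [← mul_assoc, Matrix.adjugate_mul, Matrix.smul_mul, one_mul]
    rw [← h2, hMD, Matrix.mul_smul]
  have hentry : q * (M.adjugate * W) S.i0 S.j0 = 0 := by
    have h3 := congrFun (congrFun hdetD S.i0) S.j0
    simp only [Matrix.smul_apply, Matrix.sub_apply, smul_eq_mul] at h3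
    rw [← h3, h1c, h1c', sub_self, mul_zero]
  -- the cofactor is a unit
  have hu : IsUnit ((M.adjugate * W) S.i0 S.j0) := by
    by_contra hnu
    have hres0 : residue A ((M.adjugate * W) S.i0 S.j0) = 0 := (residue_eq_zero_iff _).mpr hnu
    have e1 : residue A ((M.adjugate * W) S.i0 S.j0) =
        ((residue A).mapMatrix (M.adjugate * W)) S.i0 S.j0 := rfl
    have eW : (residue A).mapMatrix W =
        ι.mapMatrix (S.rb S.g1 * S.rb S.g0 - S.rb S.g0 * S.rb S.g1) := by
      have e2 : (residue A).mapMatrix X' = ι.mapMatrix (S.rb S.g1) := hl' S.g1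
      have e3 : (residue A).mapMatrix R' = ι.mapMatrix (S.rb S.g0) := hl' S.g0
      rw [hW, map_sub, map_mul, map_mul, e2, e3, map_sub, map_mul, map_mul]
    have eadj : (residue A).mapMatrix M.adjugate = (ι c) • (1 : M2 (ResidueField A)) := by
      rw [RingHom.map_adjugate, ← hMb, hMbc]
      ext i j
      fin_cases i <;> fin_cases j <;> simp [Matrix.adjugate_fin_two]
    rw [e1, map_mul, eadj, eW, Matrix.smul_mul, one_mul] at hres0
    simp only [Matrix.smul_apply, smul_eq_mul, RingHom.mapMatrix_apply, Matrix.map_apply,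
      mul_eq_zero] at hres0
    rcases hres0 with h0 | h0
    · exact hc0 h0
    · exact S.hcomm (hιinj (by rw [h0, map_zero]))
  have hq0 : q = 0 := by
    obtain ⟨v, hv⟩ := hu
    have := hentry
    rw [← hv] at this
    exact (Units.mul_left_eq_zero v).mp this
  -- conclusion
  have hMp : M = p • (1 : M2 A) := by rw [hMeq, hq0, zero_smul, add_zero]
  ext σ : 1
  have h4 := hconj σ
  rw [hMp, Matrix.smul_mul, one_mul, Matrix.mul_smul, mul_one] at h4
  obtain ⟨w, hw⟩ := hpu
  rw [← hw] at h4
  have h5 := congrArg (fun Z => ((w⁻¹ : Aˣ) : A) • Z) h4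
  simpa [smul_smul] using h5

end Fermat.Agent.S53

end
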