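/-
S53 package P-G: the tangent count.  `𝒪`-algebra maps from a level object to the dual numbers
inject into the finite set of `TangentFinite`.
-/
import Fermat.Agent.S53.Defs
import Fermat.Agent.S53.Bridge
import Fermat.Agent.S53.Residual
import Fermat.Agent.S53.NFUnique
import Fermat.Agent.S53.DefoBasic

set_option autoImplicit false

noncomputable section

namespace Fermat.Agent.S53.Tangent2

open IsLocalRing

section

variable (𝒪 : Type) [CommRing 𝒪] [IsLocalRing 𝒪]

/-- The structure map of `dualAlg 𝒪` is `x ↦ (residue x, 0)`. -/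
theorem dualAlg_algebraMap_apply (x : 𝒪) :
    @algebraMap 𝒪 (DualNumber (ResidueField 𝒪)) _ _ (dualAlg 𝒪) x =
      TrivSqZeroExt.inl (residue 𝒪 x) := rfl

/-- The structure map of `dualAlg 𝒪` is a local homomorphism. -/
theorem isLocalHom_dualAlg :
    IsLocalHom (@algebraMap 𝒪 (DualNumber (ResidueField 𝒪)) _ _ (dualAlg 𝒪)) := by
  refine ⟨fun x hx => ?_⟩
  rw [dualAlg_algebraMap_apply, TrivSqZeroExt.isUnit_iff_isUnit_fst, TrivSqZeroExt.fst_inl] at hx
  exact (IsLocalRing.residue_ne_zero_iff_isUnit x).mp hx.ne_zero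

/-- `𝒪` surjects onto the residue field of the dual numbers. -/
theorem dual_residue_surjective :
    Function.Surjective (IsLocalRing.residue (DualNumber (ResidueField 𝒪)) ∘
      @algebraMap 𝒪 (DualNumber (ResidueField 𝒪)) _ _ (dualAlg 𝒪)) := by
  intro y
  obtain ⟨d, rfl⟩ := IsLocalRing.residue_surjective y
  obtain ⟨x, hx⟩ := IsLocalRing.residue_surjective d.fst
  refine ⟨x, ?_⟩
  rw [Function.comp_apply, dualAlg_algebraMap_apply, hx, ← sub_eq_zero, ← map_sub,
    IsLocalRing.residue_eq_zero_iff, IsLocalRing.mem_maximalIdeal, mem_nonunits_iff,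
    TrivSqZeroExt.isUnit_iff_isUnit_fst]
  simp

/-- The dual numbers over a field form an Artinian ring. -/
theorem dual_isArtinianRing : IsArtinianRing (DualNumber (ResidueField 𝒪)) :=
  haveI : Module.Finite (ResidueField 𝒪) (DualNumber (ResidueField 𝒪)) :=
    inferInstanceAs (Module.Finite (ResidueField 𝒪) (ResidueField 𝒪 × ResidueField 𝒪))
  IsArtinianRing.of_finite (ResidueField 𝒪) _

/-- The dual numbers over the residue field, with the structure `dualAlg 𝒪`, are an Artinian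
test algebra. -/
theorem dual_isArtinianTestAlgebra :
    @GaloisRep.IsArtinianTestAlgebra 𝒪 _ (DualNumber (ResidueField 𝒪)) _ _ (dualAlg 𝒪) :=
  letI := dualAlg 𝒪
  ⟨isLocalHom_dualAlg 𝒪, dual_residue_surjective 𝒪, dual_isArtinianRing 𝒪⟩

/-- The subtype appearing in `GaloisRep.TangentFinite`. -/
abbrev TangentType (ρbar : ResidualGaloisRep (ResidueField 𝒪))
    (𝒟 : ∀ ⦃A : Type⦄ [CommRing A] [IsLocalRing A] [Algebra 𝒪 A], GaloisRepAdic A → Prop) :
    Type 1 :=
  {ρ : GaloisRepAdic (DualNumber (ResidueField 𝒪)) //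
    @𝒟 (DualNumber (ResidueField 𝒪)) _ _ (dualAlg 𝒪) ρ ∧
      ρ.residual.IsEquiv (@ResidualGaloisRep.baseChange (ResidueField 𝒪) _
        (ResidueField (DualNumber (ResidueField 𝒪))) _ (dualResAlg 𝒪) ρbar)}

/-- The setoid appearing in `GaloisRep.TangentFinite`. -/
def tangentSetoid (ρbar : ResidualGaloisRep (ResidueField 𝒪))
    (𝒟 : ∀ ⦃A : Type⦄ [CommRing A] [IsLocalRing A] [Algebra 𝒪 A], GaloisRepAdic A → Prop) :
    Setoid (TangentType 𝒪 ρbar 𝒟) :=
  ⟨fun ρ ρ' => ρ.1.IsEquiv ρ'.1, ⟨fun ρ => ⟨GaloisRepAdic.Equiv.refl ρ.1⟩,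
    fun ⟨e⟩ => ⟨e.symm⟩, fun ⟨e⟩ ⟨e'⟩ => ⟨e.trans e'⟩⟩⟩

/-- `GaloisRep.TangentFinite` unfolded. -/
theorem tangentFinite_iff (ρbar : ResidualGaloisRep (ResidueField 𝒪))
    (𝒟 : ∀ ⦃A : Type⦄ [CommRing A] [IsLocalRing A] [Algebra 𝒪 A], GaloisRepAdic A → Prop) :
    GaloisRep.TangentFinite 𝒪 ρbar 𝒟 ↔ Finite (Quotient (tangentSetoid 𝒪 ρbar 𝒟)) := Iff.rfl

end

/-- A ring homomorphism from an Artinian local ring to a nontrivial ring is local. -/
theorem isLocalHom_of_isArtinianRing {A B : Type} [CommRing A] [IsLocalRing A] [IsArtinianRing A]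
    [CommRing B] [Nontrivial B] (f : A →+* B) : IsLocalHom f := by
  refine ⟨fun a ha => ?_⟩
  by_contra hna
  have hmem : a ∈ maximalIdeal A := hna
  obtain ⟨n, hn⟩ := IsArtinianRing.isNilpotent_jacobson_bot (R := A)
  rw [IsLocalRing.jacobson_eq_maximalIdeal ⊥ bot_ne_top] at hn
  have h0 : a ^ n = 0 := by
    have := Ideal.pow_mem_pow hmem n
    rwa [hn] at this
  have h1 : IsUnit (f a ^ n) := ha.pow n
  rw [← map_pow, h0, map_zero] at h1
  exact not_isUnit_zero h1

/-- Counting lemma: a map into a type with a setoid, such that related images force equal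
arguments, bounds the cardinality by that of the quotient. -/
theorem card_le_card_quotient {α : Type} {β : Type 1} (s : Setoid β) [Finite (Quotient s)]
    (f : α → β) (hf : ∀ a a', s.r (f a) (f a') → a = a') :
    Nat.card α ≤ Nat.card (Quotient s) := by
  refine Nat.card_le_card_of_injective (fun a => Quotient.mk s (f a)) ?_
  intro a a' h
  exact hf a a' (Quotient.exact h)

end Fermat.Agent.S53.Tangent2

namespace Fermat.Agent.S53

open IsLocalRing

variable {𝒪 : Type} [CommRing 𝒪] [IsDomain 𝒪] [IsDiscreteValuationRing 𝒪]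
  [Finite (ResidueField 𝒪)] {ρbar : ResidualGaloisRep (ResidueField 𝒪)}
  {𝒟 : ∀ ⦃A : Type⦄ [CommRing A] [IsLocalRing A] [Algebra 𝒪 A], GaloisRepAdic A → Prop}

/-- P-G (main).  With `t` the cardinality of the quotient in `TangentFinite`:
`φ ↦ ⟦ofMat (mapMat φ r)⟧` is a well defined injection (type `𝒟` by `h𝒟.baseChangeAlong` +
`ofMat_baseChangeAlong` + `h𝒟.of_isEquiv`; residual condition by `residual_isEquiv_dual`;
injectivity: equivalent ⇒ conjugate (`isEquiv_ofMat_iff`) ⇒ equal (`normalForm_unique` over the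
dual numbers) ⇒ `φ = ψ` on the generating set `entries r`).  All instances on
`DualNumber (ResidueField 𝒪)` must be the ones of `dualAlg 𝒪` (as in `TangentFinite`). -/
theorem card_algHom_dual_le (S : Setup 𝒪 ρbar) (h𝒟 : GaloisRep.IsDeformationCondition 𝒪 𝒟)
    (hfin : GaloisRep.TangentFinite 𝒪 ρbar 𝒟) :
    ∃ t : ℕ, ∀ (A : Type) [CommRing A] [IsLocalRing A] [Algebra 𝒪 A] [Finite A],
      GaloisRep.IsArtinianTestAlgebra 𝒪 A → ∀ r : Gal →* M2 A, IsDefo S 𝒟 r →
      Algebra.adjoin 𝒪 (entries r) = ⊤ →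
      Nat.card (@AlgHom 𝒪 A (DualNumber (ResidueField 𝒪)) _ _ _ _ (dualAlg 𝒪)) ≤ t := by
  have hfin' : Finite (Quotient (Tangent2.tangentSetoid 𝒪 ρbar 𝒟)) :=
    (Tangent2.tangentFinite_iff 𝒪 ρbar 𝒟).mp hfin
  refine ⟨Nat.card (Quotient (Tangent2.tangentSetoid 𝒪 ρbar 𝒟)), ?_⟩
  intro A _ _ _ _ hA r hr hgen
  let _ : Algebra 𝒪 (DualNumber (ResidueField 𝒪)) := dualAlg 𝒪
  have : IsArtinianRing A := hA.isArtinian
  have hD : GaloisRep.IsArtinianTestAlgebra 𝒪 (DualNumber (ResidueField 𝒪)) :=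
    Tangent2.dual_isArtinianTestAlgebra 𝒪
  have : IsLocalHom (algebraMap 𝒪 (DualNumber (ResidueField 𝒪))) := hD.isLocalHom
  have hloc : ∀ φ : A →ₐ[𝒪] DualNumber (ResidueField 𝒪),
      IsLocalHom (φ : A →+* DualNumber (ResidueField 𝒪)) :=
    fun φ => Tangent2.isLocalHom_of_isArtinianRing _
  have hdefo : ∀ φ : A →ₐ[𝒪] DualNumber (ResidueField 𝒪),
      IsDefo S 𝒟 (mapMat (φ : A →+* DualNumber (ResidueField 𝒪)) r) :=
    fun φ => IsDefo.map S h𝒟 hA hD φ (hloc φ) hr
  refine Tangent2.card_le_card_quotient (Tangent2.tangentSetoid 𝒪 ρbar 𝒟)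
    (fun φ => ⟨ofMat (mapMat (φ : A →+* DualNumber (ResidueField 𝒪)) r) (hdefo φ).cont,
      (hdefo φ).type, residual_isEquiv_dual S _ (hdefo φ).cont (hdefo φ).lifts⟩) ?_
  intro φ ψ h
  have h' : (ofMat (mapMat (φ : A →+* DualNumber (ResidueField 𝒪)) r) (hdefo φ).cont).IsEquiv
      (ofMat (mapMat (ψ : A →+* DualNumber (ResidueField 𝒪)) r) (hdefo ψ).cont) := h
  obtain ⟨M, hM, hconj⟩ := (isEquiv_ofMat_iff _ _ _ _).mp h'
  have heq := normalForm_unique S hD.residue_surjective _ _ (hdefo φ).lifts (hdefo ψ).lifts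
    (hdefo φ).nf (hdefo ψ).nf M hM hconj
  exact algHom_ext_of_entries hgen φ ψ heq

end Fermat.Agent.S53

end
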