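/-
S53 package P-J: the universal normalised deformation of level `n` (`𝔪 ^ n = 0`).
-/
import Fermat.Agent.S53.Defs
import Fermat.Agent.S53.Bridge
import Fermat.Agent.S53.Residual
import Fermat.Agent.S53.DefoBasic
import Fermat.Agent.S53.FiniteLocal
import Fermat.Agent.S53.Tangent1
import Fermat.Agent.S53.Tangent2
import Fermat.Agent.S53.DefCond
import Fermat.Agent.S53.LevelAux

set_option autoImplicit false

noncomputable section

namespace Fermat.Agent.S53

open IsLocalRing GaloisRep DefCond LevelAux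

variable {𝒪 : Type} [CommRing 𝒪] [IsDomain 𝒪] [IsDiscreteValuationRing 𝒪]
  [Finite (ResidueField 𝒪)] {ρbar : ResidualGaloisRep (ResidueField 𝒪)}
  {𝒟 : ∀ ⦃A : Type⦄ [CommRing A] [IsLocalRing A] [Algebra 𝒪 A], GaloisRepAdic A → Prop}

/-- Level objects of level `n` have bounded cardinality
(`card_algHom_dual_le` + `exists_finset_span_maximalIdeal` + `card_le_of_span`). -/
theorem exists_card_bound (S : Setup 𝒪 ρbar) (h𝒟 : GaloisRep.IsDeformationCondition 𝒪 𝒟)
    (hfin : GaloisRep.TangentFinite 𝒪 ρbar 𝒟) (n : ℕ) :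
    ∃ c : ℕ, ∀ X : LevelObj S 𝒟 n, Nat.card X.A ≤ c := by
  obtain ⟨t, ht⟩ := card_algHom_dual_le S h𝒟 hfin
  refine ⟨Nat.card (ResidueField 𝒪) ^ (∑ j ∈ Finset.range n, (t + 1) ^ j), fun X => ?_⟩
  have h1 := ht X.A X.test X.r X.defo X.gen
  obtain ⟨s, hs, hspan⟩ := exists_finset_span_maximalIdeal 𝒪 X.A X.test.isLocalHom
    X.test.residue_surjective t h1
  have := X.test.isLocalHom
  have hq : Nat.card (ResidueField X.A) ≤ Nat.card (ResidueField 𝒪) :=
    Nat.card_le_card_of_surjective _ (ta_resMap_bijective X.test).surjective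
  exact card_le_of_span X.A n (t + 1) _ X.pow_eq hq s hs hspan

/-- The residue field with `rb` is a level object (for `n ≥ 1`); uses `hbar`,
`ofResidual_isEquiv` and `h𝒟.of_isEquiv`. -/
theorem nonempty_levelObj (S : Setup 𝒪 ρbar) (h𝒟 : GaloisRep.IsDeformationCondition 𝒪 𝒟)
    (hbar : 𝒟 (GaloisRepAdic.ofResidualGaloisRep ρbar)) (n : ℕ) (hn : 1 ≤ n) :
    Nonempty (LevelObj S 𝒟 n) := by
  have htest : IsArtinianTestAlgebra 𝒪 (ResidueField 𝒪) := isArtinianTestAlgebra_residueField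
  refine ⟨{ A := ResidueField 𝒪
            test := htest
            pow_eq := ?_
            r := S.rb
            defo := ?_
            gen := ?_ }⟩
  · rw [IsLocalRing.maximalIdeal_eq_bot, Ideal.bot_pow]
    omega
  · refine ⟨?_, ⟨S.h00, S.h10, ?_⟩, matCont_rb S, ?_⟩
    · intro σ i j
      rw [ResidueField.algebraMap_eq, S.sec_spec, sub_self]
      exact Ideal.zero_mem _
    · rw [ResidueField.algebraMap_eq, S.hc0]
    · exact h𝒟.of_isEquiv htest (ofResidual_isEquiv S) hbar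
  · rw [eq_top_iff]
    intro x _
    obtain ⟨o, rfl⟩ := IsLocalRing.residue_surjective x
    exact Subalgebra.algebraMap_mem _ o

namespace LevelAux

/-- A local ring with a jointly injective pair of local maps to rings with `𝔪 ^ n = 0` has
`𝔪 ^ n = 0`. -/
theorem pow_eq_bot_of_jointly_injective {n : ℕ} {A B C : Type} [CommRing A] [IsLocalRing A]
    [CommRing B] [IsLocalRing B] [CommRing C] [IsLocalRing C]
    (hpowA : maximalIdeal A ^ n = ⊥) (hpowB : maximalIdeal B ^ n = ⊥)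
    (p₁ : C →+* A) (p₂ : C →+* B) (hp₁ : IsLocalHom p₁) (hp₂ : IsLocalHom p₂)
    (hinj : ∀ x : C, p₁ x = 0 → p₂ x = 0 → x = 0) : maximalIdeal C ^ n = ⊥ := by
  rw [eq_bot_iff]
  have key : ∀ {D : Type} [CommRing D] [IsLocalRing D] (p : C →+* D), IsLocalHom p →
      maximalIdeal D ^ n = ⊥ → maximalIdeal C ^ n ≤ RingHom.ker p := by
    intro D _ _ p hp hD
    have hle : maximalIdeal C ≤ (maximalIdeal D).comap p := by
      intro x hx
      rw [Ideal.mem_comap, mem_maximalIdeal, mem_nonunits_iff]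
      intro hu
      exact (mem_maximalIdeal x).mp hx (hp.map_nonunit x hu)
    calc maximalIdeal C ^ n ≤ ((maximalIdeal D).comap p) ^ n := Ideal.pow_right_mono hle n
      _ ≤ (maximalIdeal D ^ n).comap p := Ideal.le_comap_pow _ n
      _ = RingHom.ker p := by rw [hD]; rfl
  intro x hx
  exact hinj x (key p₁ hp₁ hpowA hx) (key p₂ hp₂ hpowB hx)

/-- A matrix valued representation over a test algebra `C` with a jointly injective pair of maps
to test algebras, whose two images are normalised deformations, is a normalised deformation. -/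
theorem isDefo_of_jointly_injective (S : Setup 𝒪 ρbar)
    (h𝒟 : GaloisRep.IsDeformationCondition 𝒪 𝒟) {n : ℕ}
    {A B C : Type} [CommRing A] [IsLocalRing A] [Algebra 𝒪 A]
    [CommRing B] [IsLocalRing B] [Algebra 𝒪 B] [CommRing C] [IsLocalRing C] [Algebra 𝒪 C]
    (hA : IsArtinianTestAlgebra 𝒪 A) (hB : IsArtinianTestAlgebra 𝒪 B)
    (hC : IsArtinianTestAlgebra 𝒪 C)
    (hpowA : maximalIdeal A ^ n = ⊥) (hpowB : maximalIdeal B ^ n = ⊥)
    (p₁ : C →ₐ[𝒪] A) (p₂ : C →ₐ[𝒪] B) (hinj : ∀ x : C, p₁ x = 0 → p₂ x = 0 → x = 0)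
    (rC : Gal →* M2 C) (h₁ : IsDefo S 𝒟 (mapMat (p₁ : C →+* A) rC))
    (h₂ : IsDefo S 𝒟 (mapMat (p₂ : C →+* B) rC)) :
    maximalIdeal C ^ n = ⊥ ∧ IsDefo S 𝒟 rC := by
  have hp₁ : IsLocalHom (p₁ : C →+* A) := ta_isLocalHom_algHom hC p₁
  have hp₂ : IsLocalHom (p₂ : C →+* B) := ta_isLocalHom_algHom hC p₂
  have hpowC : maximalIdeal C ^ n = ⊥ :=
    pow_eq_bot_of_jointly_injective hpowA hpowB (p₁ : C →+* A) (p₂ : C →+* B) hp₁ hp₂ hinj
  have hinj' : ∀ x y : C, p₁ x = p₁ y → p₂ x = p₂ y → x = y := by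
    intro x y h1 h2
    rw [← sub_eq_zero]
    apply hinj
    · rw [map_sub, h1, sub_self]
    · rw [map_sub, h2, sub_self]
  -- continuity
  have hcont : MatCont rC := by
    rw [matCont_iff_of_pow_eq_bot hpowC]
    obtain ⟨L₁, hL₁, e₁⟩ := (matCont_iff_of_pow_eq_bot hpowA _).mp h₁.cont
    obtain ⟨L₂, hL₂, e₂⟩ := (matCont_iff_of_pow_eq_bot hpowB _).mp h₂.cont
    refine ⟨L₁ ⊔ L₂, inferInstance, fun σ hσ => ?_⟩
    have e₁ := e₁ σ (fun x hx => hσ x ((le_sup_left : L₁ ≤ L₁ ⊔ L₂) hx))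
    have e₂ := e₂ σ (fun x hx => hσ x ((le_sup_right : L₂ ≤ L₁ ⊔ L₂) hx))
    ext i j
    apply hinj'
    · have this : p₁ (rC σ i j) = (1 : M2 A) i j := congrFun (congrFun e₁ i) j
      rw [this, Matrix.one_apply, Matrix.one_apply]
      split_ifs
      · exact (map_one p₁).symm
      · exact (map_zero p₁).symm
    · have this : p₂ (rC σ i j) = (1 : M2 B) i j := congrFun (congrFun e₂ i) j
      rw [this, Matrix.one_apply, Matrix.one_apply]
      split_ifs
      · exact (map_one p₂).symm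
      · exact (map_zero p₂).symm
  -- the deformation condition
  have htype : 𝒟 (ofMat rC hcont) := by
    have e₁ := ofMat_baseChangeAlong (p₁ : C →+* A) hp₁ rC hcont h₁.cont
    have e₂ := ofMat_baseChangeAlong (p₂ : C →+* B) hp₂ rC hcont h₂.cont
    refine of_pair_jointly_injective h𝒟 hC hA hB p₁ p₂ hp₁ hp₂ hinj (ofMat rC hcont) ?_ ?_
    · exact h𝒟.of_isEquiv hA (e₁.elim fun e => ⟨e.symm⟩) h₁.type
    · exact h𝒟.of_isEquiv hB (e₂.elim fun e => ⟨e.symm⟩) h₂.type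
  -- normal form and lifting
  have hlifts : Lifts S rC := Lifts.of_map S p₁ h₁.lifts
  have hnf : IsNF S rC := by
    have a1 : p₁ (rC S.g0 0 0) = 0 := h₁.nf.1
    have a2 : p₁ (rC S.g0 1 0) = 1 := h₁.nf.2.1
    have a3 : p₁ (rC S.g1 S.i0 S.j0) = algebraMap 𝒪 A S.c0 := h₁.nf.2.2
    have b1 : p₂ (rC S.g0 0 0) = 0 := h₂.nf.1
    have b2 : p₂ (rC S.g0 1 0) = 1 := h₂.nf.2.1
    have b3 : p₂ (rC S.g1 S.i0 S.j0) = algebraMap 𝒪 B S.c0 := h₂.nf.2.2
    refine ⟨hinj' _ _ ?_ ?_, hinj' _ _ ?_ ?_, hinj' _ _ ?_ ?_⟩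
    · rw [a1]; exact (map_zero p₁).symm
    · rw [b1]; exact (map_zero p₂).symm
    · rw [a2]; exact (map_one p₁).symm
    · rw [b2]; exact (map_one p₂).symm
    · rw [a3]; exact (p₁.commutes _).symm
    · rw [b3]; exact (p₂.commutes _).symm
  exact ⟨hpowC, hlifts, hnf, hcont, htype⟩

/-- Gluing over an abstract cover: if a test algebra `F` maps jointly injectively to `X.A` and
`B` and carries a representation inducing `X.r` and `r'`, the subalgebra generated by its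
entries is a level object. -/
theorem exists_pair_of_cover (S : Setup 𝒪 ρbar) (h𝒟 : GaloisRep.IsDeformationCondition 𝒪 𝒟)
    {n : ℕ} (X : LevelObj S 𝒟 n) {B : Type} [CommRing B] [IsLocalRing B] [Algebra 𝒪 B]
    (hB : GaloisRep.IsArtinianTestAlgebra 𝒪 B) (hpow : maximalIdeal B ^ n = ⊥)
    (r' : Gal →* M2 B) (hr' : IsDefo S 𝒟 r')
    {F : Type} [CommRing F] [IsLocalRing F] [Algebra 𝒪 F] [Finite F]
    (hF : GaloisRep.IsArtinianTestAlgebra 𝒪 F)
    (q₁ : F →ₐ[𝒪] X.A) (q₂ : F →ₐ[𝒪] B) (hinj : ∀ x : F, q₁ x = 0 → q₂ x = 0 → x = 0)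
    (rF : Gal →* M2 F) (hq₁ : mapMat (q₁ : F →+* X.A) rF = X.r)
    (hq₂ : mapMat (q₂ : F →+* B) rF = r') :
    ∃ (Y : LevelObj S 𝒟 n) (p₁ : Y.A →ₐ[𝒪] X.A) (p₂ : Y.A →ₐ[𝒪] B),
      Function.Surjective p₁ ∧ mapMat (p₁ : Y.A →+* X.A) Y.r = X.r ∧
        mapMat (p₂ : Y.A →+* B) Y.r = r' := by
  have hA := X.test
  -- the subalgebra generated by the entries
  let C : Subalgebra 𝒪 F := Algebra.adjoin 𝒪 (entries rF)
  have hCloc : IsLocalRing C := ta_subalgebra_isLocalRing hF C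
  have hC : IsArtinianTestAlgebra 𝒪 C := ta_subalgebra hF C
  let rC : Gal →* M2 C := restrictMat C rF
    (fun σ i j => Algebra.subset_adjoin ⟨(σ, i, j), rfl⟩)
  have hgen : Algebra.adjoin 𝒪 (entries rC) = ⊤ := adjoin_entries_restrictMat rF
  let p₁ : C →ₐ[𝒪] X.A := q₁.comp C.val
  let p₂ : C →ₐ[𝒪] B := q₂.comp C.val
  have hm₁ : mapMat (p₁ : C →+* X.A) rC = X.r := by
    rw [← hq₁]
    ext σ i j
    rfl
  have hm₂ : mapMat (p₂ : C →+* B) rC = r' := by
    rw [← hq₂]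
    ext σ i j
    rfl
  have hinjC : ∀ x : C, p₁ x = 0 → p₂ x = 0 → x = 0 := by
    intro x h1 h2
    exact Subtype.ext (hinj (x : F) h1 h2)
  have hsurj : Function.Surjective p₁ := by
    rw [← AlgHom.range_eq_top, eq_top_iff, ← X.gen]
    apply Algebra.adjoin_le
    rintro _ ⟨⟨σ, i, j⟩, rfl⟩
    refine ⟨rC σ i j, ?_⟩
    have := congrFun (congrFun (congrArg (fun m : Gal →* M2 X.A => m σ) hm₁) i) j
    exact this
  have hd₁ : IsDefo S 𝒟 (mapMat (p₁ : C →+* X.A) rC) := by rw [hm₁]; exact X.defo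
  have hd₂ : IsDefo S 𝒟 (mapMat (p₂ : C →+* B) rC) := by rw [hm₂]; exact hr'
  obtain ⟨hpowC, hdefo⟩ := isDefo_of_jointly_injective S h𝒟 hA hB hC X.pow_eq hpow p₁ p₂ hinjC
    rC hd₁ hd₂
  exact ⟨{ A := C, test := hC, pow_eq := hpowC, r := rC, defo := hdefo, gen := hgen },
    p₁, p₂, hsurj, hm₁, hm₂⟩

omit [Finite (ResidueField 𝒪)] in
/-- `toK` of an element congruent to a constant modulo the maximal ideal. -/
theorem toK_eq_of_sub_mem {A : Type} [CommRing A] [IsLocalRing A] [Algebra 𝒪 A]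
    (hA : IsArtinianTestAlgebra 𝒪 A) {a : A} {o : 𝒪}
    (h : a - algebraMap 𝒪 A o ∈ maximalIdeal A) :
    toK hA a = algebraMap 𝒪 (ResidueField 𝒪) o := by
  have h0 := (toK_eq_zero_iff hA _).mpr h
  rw [map_sub, sub_eq_zero, AlgHom.commutes] at h0
  exact h0

/-- Two normalised deformations (the first one a level object) can be glued to a level object
mapping to both, surjectively onto the first. -/
theorem exists_pair (S : Setup 𝒪 ρbar) (h𝒟 : GaloisRep.IsDeformationCondition 𝒪 𝒟) {n : ℕ}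
    (X : LevelObj S 𝒟 n) (B : Type) [CommRing B] [IsLocalRing B] [Algebra 𝒪 B]
    (hB : GaloisRep.IsArtinianTestAlgebra 𝒪 B) (hpow : maximalIdeal B ^ n = ⊥)
    (r' : Gal →* M2 B) (hr' : IsDefo S 𝒟 r') :
    ∃ (Y : LevelObj S 𝒟 n) (p₁ : Y.A →ₐ[𝒪] X.A) (p₂ : Y.A →ₐ[𝒪] B),
      Function.Surjective p₁ ∧ mapMat (p₁ : Y.A →+* X.A) Y.r = X.r ∧
        mapMat (p₂ : Y.A →+* B) Y.r = r' := by
  have hA := X.test
  have : Finite B := ta_finite hB
  have hFloc : IsLocalRing (fibreProd hA hB) := fibreProd_isLocalRing hA hB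
  have hF : IsArtinianTestAlgebra 𝒪 (fibreProd hA hB) := fibreProd_isArtinianTestAlgebra hA hB
  -- the pair representation has entries in the fibre product
  have hmemF : ∀ σ i j, pairMat X.r r' σ i j ∈ fibreProd hA hB := by
    intro σ i j
    rw [mem_fibreProd, pairMat_apply]
    rw [toK_eq_of_sub_mem hA (X.defo.lifts σ i j), toK_eq_of_sub_mem hB (hr'.lifts σ i j)]
  have : Finite (fibreProd hA hB) := Finite.of_injective (fun x => (x : X.A × B))
    Subtype.val_injective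
  refine exists_pair_of_cover S h𝒟 X hB hpow r' hr' hF (fibreProdFst hA hB) (fibreProdSnd hA hB)
    ?_ (restrictMat (fibreProd hA hB) (pairMat X.r r') hmemF) ?_ ?_
  · intro x h1 h2
    exact Subtype.ext (Prod.ext h1 h2)
  · ext σ i j
    rfl
  · ext σ i j
    rfl

end LevelAux

/-- P-J (main): a level object of maximal cardinality is universal.
Given `(B, r')`: `B` is finite (`finite_of_isArtinianRing`).  Let `F ⊆ X.A × B` be the fibre product
over `k` (pairs with the same residue; e.g. `{(a, b) | ∃ c : 𝒪, a - c ∈ 𝔪 ∧ b - c ∈ 𝔪}`), a local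
test algebra by `isLocalRing_of_nilpotent_sub`; `(X.r, r')` is a normalised deformation over `F`
(`h𝒟.of_fibreProduct` with `C = k`).  Let `C ⊆ F` be the subalgebra generated by the entries:
a level object (`IsDefo.of_injective`) which surjects onto `X.A`, hence bijects by maximality;
`φ := pr₂ ∘ pr₁⁻¹`. -/
theorem exists_universal (S : Setup 𝒪 ρbar) (h𝒟 : GaloisRep.IsDeformationCondition 𝒪 𝒟)
    (hbar : 𝒟 (GaloisRepAdic.ofResidualGaloisRep ρbar))
    (hfin : GaloisRep.TangentFinite 𝒪 ρbar 𝒟) (n : ℕ) (hn : 1 ≤ n) :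
    ∃ X : LevelObj S 𝒟 n, ∀ (B : Type) [CommRing B] [IsLocalRing B] [Algebra 𝒪 B],
      GaloisRep.IsArtinianTestAlgebra 𝒪 B → maximalIdeal B ^ n = ⊥ →
      ∀ r' : Gal →* M2 B, IsDefo S 𝒟 r' →
        ∃ φ : X.A →ₐ[𝒪] B, mapMat (φ : X.A →+* B) X.r = r' := by
  obtain ⟨c, hc⟩ := exists_card_bound S h𝒟 hfin n
  obtain ⟨X₀⟩ := nonempty_levelObj S h𝒟 hbar n hn
  let s : Set ℕ := {m | ∃ X : LevelObj S 𝒟 n, Nat.card X.A = m}
  have hne : s.Nonempty := ⟨_, X₀, rfl⟩
  have hbdd : BddAbove s := ⟨c, by rintro m ⟨X, rfl⟩; exact hc X⟩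
  obtain ⟨X, hX⟩ := Nat.sSup_mem hne hbdd
  have hmax : ∀ Y : LevelObj S 𝒟 n, Nat.card Y.A ≤ Nat.card X.A := fun Y => by
    rw [hX]; exact le_csSup hbdd ⟨Y, rfl⟩
  refine ⟨X, fun B _ _ _ hB hpow r' hr' => ?_⟩
  obtain ⟨Y, p₁, p₂, hsurj, h1, h2⟩ := exists_pair S h𝒟 X B hB hpow r' hr'
  have hbij : Function.Bijective p₁ := hsurj.bijective_of_nat_card_le (hmax Y)
  let e : Y.A ≃ₐ[𝒪] X.A := AlgEquiv.ofBijective p₁ hbij
  refine ⟨p₂.comp (e.symm : X.A →ₐ[𝒪] Y.A), ?_⟩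
  ext σ i j
  have h1' : p₁ (Y.r σ i j) = X.r σ i j := by
    have := congrArg (fun m : Gal →* M2 X.A => m σ i j) h1
    exact this
  have h2' : p₂ (Y.r σ i j) = r' σ i j := by
    have := congrArg (fun m : Gal →* M2 B => m σ i j) h2
    exact this
  show p₂ (e.symm (X.r σ i j)) = r' σ i j
  rw [← h1', ← h2']
  congr 1
  exact e.symm_apply_apply (Y.r σ i j)

end Fermat.Agent.S53

end
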