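import Mathlib

/-!
# Inverse limits of towers of finite local rings (package P-H of S53)

Generic commutative algebra: for a tower `π n : R (n+1) →ₐ[𝒪] R n` of surjections of finite local
rings with `ker (π n) = 𝔪 ^ (n+1)`, the inverse limit `towerLim π` (a subalgebra of the product)
is a local ring, complete for its maximal ideal, whose maximal ideal is finitely generated and
with `ker (proj n) = 𝔪 ^ (n+1)`.
-/

set_option autoImplicit false

namespace Fermat.Agent.S53

universe u v

/-- In a tower of surjections every element at level `n` extends to a compatible family. -/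
theorem exists_compatible_of_surjective :
    ∀ (n : ℕ) {X : ℕ → Type u} (f : ∀ n, X (n + 1) → X n) (_ : ∀ n, Function.Surjective (f n))
      (y : X n), ∃ x : ∀ m, X m, (∀ m, f m (x (m + 1)) = x m) ∧ x n = y := by
  intro n
  induction n with
  | zero =>
    intro X f hf y
    refine ⟨fun m => Nat.rec y (fun m xm => Function.surjInv (hf m) xm) m, fun m => ?_, rfl⟩
    exact Function.surjInv_eq (hf m) _
  | succ n ih =>
    intro X f hf y
    obtain ⟨x', hx', hx'n⟩ :=
      ih (X := fun m => X (m + 1)) (fun m => f (m + 1)) (fun m => hf (m + 1)) y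
    refine ⟨fun m => match m with | 0 => f 0 (x' 0) | m + 1 => x' m, fun m => ?_, hx'n⟩
    cases m with
    | zero => rfl
    | succ m => exact hx' m

open CategoryTheory in
/-- König's lemma for towers of nonempty finite sets. -/
theorem exists_compatible_of_finite {X : ℕ → Type u} [∀ n, Finite (X n)] [∀ n, Nonempty (X n)]
    (f : ∀ n, X (n + 1) → X n) : ∃ x : ∀ n, X n, ∀ n, f n (x (n + 1)) = x n := by
  let F : ℕᵒᵖ ⥤ Type u := Functor.ofOpSequence (X := X) (fun n => ↾(f n))
  have : ∀ j : ℕᵒᵖ, Finite (F.obj j) := fun j => inferInstanceAs (Finite (X j.unop))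
  have : ∀ j : ℕᵒᵖ, Nonempty (F.obj j) := fun j => inferInstanceAs (Nonempty (X j.unop))
  obtain ⟨s, hs⟩ := nonempty_sections_of_finite_inverse_system F
  refine ⟨fun n => s (Opposite.op n), fun n => ?_⟩
  have := hs (homOfLE (Nat.le_add_right n 1)).op
  rw [Functor.ofOpSequence_map_homOfLE_succ] at this
  exact this

open IsLocalRing

/-- A surjective ring homomorphism of local rings maps the maximal ideal onto the maximal
ideal. -/
theorem map_maximalIdeal_of_surjective {A B F : Type*} [CommRing A] [CommRing B] [IsLocalRing A]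
    [IsLocalRing B] [FunLike F A B] [RingHomClass F A B] (f : F) (hf : Function.Surjective f) :
    (maximalIdeal A).map f = maximalIdeal B := by
  have h1 : (maximalIdeal B).comap f = maximalIdeal A :=
    eq_maximalIdeal (Ideal.comap_isMaximal_of_surjective f hf)
  rw [← h1, Ideal.map_comap_of_surjective f hf]

/-- For a surjective ring homomorphism of local rings, membership in the maximal ideal can be
tested after applying the map. -/
theorem mem_maximalIdeal_iff_of_surjective {A B F : Type*} [CommRing A] [CommRing B]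
    [IsLocalRing A] [IsLocalRing B] [FunLike F A B] [RingHomClass F A B] (f : F)
    (hf : Function.Surjective f) (a : A) :
    f a ∈ maximalIdeal B ↔ a ∈ maximalIdeal A := by
  have h1 : (maximalIdeal B).comap f = maximalIdeal A :=
    eq_maximalIdeal (Ideal.comap_isMaximal_of_surjective f hf)
  rw [← h1, Ideal.mem_comap]

section Tower

variable {𝒪 : Type v} [CommRing 𝒪] {R : ℕ → Type u} [∀ n, CommRing (R n)]
  [∀ n, Algebra 𝒪 (R n)] (π : ∀ n, R (n + 1) →ₐ[𝒪] R n)

/-- The inverse limit of a tower of `𝒪`-algebras, as a subalgebra of the product. -/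
def towerLim : Subalgebra 𝒪 (∀ n, R n) where
  carrier := {x | ∀ n, π n (x (n + 1)) = x n}
  mul_mem' {a b} ha hb n := by
    simp only [Pi.mul_apply, map_mul, ha n, hb n]
  add_mem' {a b} ha hb n := by
    simp only [Pi.add_apply, map_add, ha n, hb n]
  algebraMap_mem' r n := by
    simp only [Pi.algebraMap_apply, AlgHom.commutes]

namespace towerLim

/-- The projection from the inverse limit to the `n`-th level. -/
def proj (n : ℕ) : towerLim π →ₐ[𝒪] R n :=
  (Pi.evalAlgHom 𝒪 R n).comp (towerLim π).val

theorem proj_apply (n : ℕ) (x : towerLim π) : proj π n x = (x : ∀ n, R n) n := rfl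

theorem compat (x : towerLim π) (n : ℕ) : π n (proj π (n + 1) x) = proj π n x :=
  x.2 n

theorem ext' {x y : towerLim π} (h : ∀ n, proj π n x = proj π n y) : x = y :=
  Subtype.ext (funext h)

/-- The element of the limit given by a compatible family. -/
def mk (x : ∀ n, R n) (hx : ∀ n, π n (x (n + 1)) = x n) : towerLim π := ⟨x, hx⟩

@[simp] theorem proj_mk (x : ∀ n, R n) (hx : ∀ n, π n (x (n + 1)) = x n) (n : ℕ) :
    proj π n (mk π x hx) = x n := rfl

/-- Universal property of the inverse limit: a compatible family of algebra maps lifts. -/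
def lift {S : Type*} [CommRing S] [Algebra 𝒪 S] (g : ∀ n, S →ₐ[𝒪] R n)
    (hg : ∀ n, (π n).comp (g (n + 1)) = g n) : S →ₐ[𝒪] towerLim π :=
  AlgHom.codRestrict (AlgHom.pi g) (towerLim π) fun s n => by
    simpa using congrArg (fun φ : S →ₐ[𝒪] R n => φ s) (hg n)

@[simp] theorem proj_lift {S : Type*} [CommRing S] [Algebra 𝒪 S] (g : ∀ n, S →ₐ[𝒪] R n)
    (hg : ∀ n, (π n).comp (g (n + 1)) = g n) (n : ℕ) (s : S) :
    proj π n (lift π g hg s) = g n s := rfl

theorem proj_surjective (hπ : ∀ n, Function.Surjective (π n)) (n : ℕ) :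
    Function.Surjective (proj π n) := by
  intro y
  obtain ⟨x, hx, hxn⟩ := exists_compatible_of_surjective n (fun n => π n) hπ y
  exact ⟨mk π x hx, hxn⟩

theorem proj_eq_zero_of_add (x : towerLim π) (j : ℕ) :
    ∀ d, proj π (j + d) x = 0 → proj π j x = 0 := by
  intro d
  induction d with
  | zero => exact id
  | succ d ih =>
    intro h
    apply ih
    have := compat π x (j + d)
    rw [← this]
    change π (j + d) (proj π (j + (d + 1)) x) = 0
    rw [h, map_zero]

section Local

variable [∀ n, IsLocalRing (R n)] (hπ : ∀ n, Function.Surjective (π n))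

include hπ

theorem isUnit_proj_iff (x : towerLim π) (n : ℕ) :
    IsUnit (proj π (n + 1) x) ↔ IsUnit (proj π n x) := by
  have h := mem_maximalIdeal_iff_of_surjective (π n) (hπ n) (proj π (n + 1) x)
  rw [mem_maximalIdeal, mem_maximalIdeal, mem_nonunits_iff, mem_nonunits_iff] at h
  have h' := not_iff_not.mp h
  rw [← h']
  exact iff_of_eq (congrArg IsUnit (compat π x n))

theorem isUnit_proj_iff_zero (x : towerLim π) (n : ℕ) :
    IsUnit (proj π n x) ↔ IsUnit (proj π 0 x) := by
  induction n with
  | zero => rfl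
  | succ n ih => rw [isUnit_proj_iff π hπ, ih]

theorem isUnit_iff (x : towerLim π) : IsUnit x ↔ IsUnit (proj π 0 x) := by
  refine ⟨fun h => h.map (proj π 0), fun h => ?_⟩
  have hu : ∀ n, IsUnit (proj π n x) := fun n => (isUnit_proj_iff_zero π hπ x n).mpr h
  have hinv : ∀ n, π n ((hu (n + 1)).unit⁻¹ : (R (n + 1))ˣ) = ((hu n).unit⁻¹ : (R n)ˣ) := by
    intro n
    have h1 : π n (proj π (n + 1) x) * π n ((hu (n + 1)).unit⁻¹ : (R (n + 1))ˣ) = 1 := by
      rw [← map_mul, IsUnit.mul_val_inv, map_one]
    rw [compat] at h1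
    calc π n ((hu (n + 1)).unit⁻¹ : (R (n + 1))ˣ)
        = ((hu n).unit⁻¹ : (R n)ˣ) * (proj π n x * π n ((hu (n + 1)).unit⁻¹ : (R (n + 1))ˣ)) := by
          rw [← mul_assoc, IsUnit.val_inv_mul, one_mul]
      _ = ((hu n).unit⁻¹ : (R n)ˣ) := by rw [h1, mul_one]
  refine IsUnit.of_mul_eq_one (mk π (fun n => ((hu n).unit⁻¹ : (R n)ˣ)) hinv) ?_
  apply ext'
  intro n
  rw [map_mul, proj_mk, map_one, IsUnit.mul_val_inv]

theorem isLocalRing : IsLocalRing (towerLim π) := by
  have : Nontrivial (towerLim π) := by
    refine ⟨⟨0, 1, fun h => ?_⟩⟩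
    have := congrArg (proj π 0) h
    rw [map_zero, map_one] at this
    exact zero_ne_one this
  refine IsLocalRing.of_isUnit_or_isUnit_one_sub_self fun a => ?_
  rw [isUnit_iff π hπ, isUnit_iff π hπ, map_sub, map_one]
  exact IsLocalRing.isUnit_or_isUnit_one_sub_self _

end Local

section Main

variable [∀ n, IsLocalRing (R n)] [IsLocalRing (towerLim π)]
  (hπ : ∀ n, Function.Surjective (π n))

include hπ in
theorem mem_maximalIdeal_iff (x : towerLim π) (n : ℕ) :
    x ∈ maximalIdeal (towerLim π) ↔ proj π n x ∈ maximalIdeal (R n) := by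
  rw [mem_maximalIdeal, mem_maximalIdeal, mem_nonunits_iff, mem_nonunits_iff,
    isUnit_iff π hπ, ← isUnit_proj_iff_zero π hπ x n]

include hπ in
theorem map_proj_maximalIdeal_le (n : ℕ) :
    (maximalIdeal (towerLim π)).map (proj π n) ≤ maximalIdeal (R n) := by
  rw [Ideal.map_le_iff_le_comap]
  intro x hx
  exact (mem_maximalIdeal_iff π hπ x n).mp hx

variable (hker : ∀ n, RingHom.ker (π n) = maximalIdeal (R (n + 1)) ^ (n + 1))

omit [IsLocalRing (towerLim π)] in
include hπ hker in
theorem maximalIdeal_pow_succ_eq_bot (n : ℕ) : maximalIdeal (R n) ^ (n + 1) = ⊥ := by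
  rw [← map_maximalIdeal_of_surjective (π n) (hπ n), ← Ideal.map_pow, ← hker n]
  exact (Ideal.map_eq_bot_iff_le_ker _).mpr le_rfl

omit [IsLocalRing (towerLim π)] in
include hπ hker in
theorem proj_mem_pow_of_proj_eq_zero (x : towerLim π) (n : ℕ) (hx : proj π n x = 0) (j : ℕ) :
    proj π j x ∈ maximalIdeal (R j) ^ (n + 1) := by
  rcases le_total j n with h | h
  · obtain ⟨d, rfl⟩ := Nat.exists_eq_add_of_le h
    rw [proj_eq_zero_of_add π x j d hx]
    exact Ideal.zero_mem _
  · obtain ⟨d, rfl⟩ := Nat.exists_eq_add_of_le h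
    induction d with
    | zero => rw [Nat.add_zero, hx]; exact Ideal.zero_mem _
    | succ d ih =>
      have ih' := ih (Nat.le_add_right n d)
      have h1 : π (n + d) (proj π (n + d + 1) x) ∈
          (maximalIdeal (R (n + d + 1)) ^ (n + 1)).map (π (n + d)) := by
        rw [Ideal.map_pow, map_maximalIdeal_of_surjective _ (hπ (n + d)), compat]
        exact ih'
      obtain ⟨b, hb, hb'⟩ := (Ideal.mem_map_iff_of_surjective _ (hπ (n + d))).mp h1
      have h2 : proj π (n + d + 1) x - b ∈ RingHom.ker (π (n + d)) := by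
        rw [RingHom.mem_ker, map_sub, sub_eq_zero]
        exact hb'.symm
      rw [hker] at h2
      have h3 : proj π (n + d + 1) x - b ∈ maximalIdeal (R (n + d + 1)) ^ (n + 1) :=
        Ideal.pow_le_pow_right (by omega) h2
      have := Ideal.add_mem _ h3 hb
      rwa [sub_add_cancel] at this

variable [∀ n, Finite (R n)]

include hπ hker in
/-- There is a finite family of elements of the maximal ideal of the limit whose images generate
the maximal ideal at every level. -/
theorem exists_generators :
    ∃ (ι : Type u) (_ : Finite ι) (g : ι → towerLim π),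
      (∀ i, g i ∈ maximalIdeal (towerLim π)) ∧
      ∀ j, maximalIdeal (R j) = Ideal.span (Set.range fun i => proj π j (g i)) := by
  choose g hg using fun i : maximalIdeal (R 1) => proj_surjective π hπ 1 i.1
  have hgm : ∀ i, g i ∈ maximalIdeal (towerLim π) := fun i => by
    rw [mem_maximalIdeal_iff π hπ _ 1, hg]
    exact i.2
  refine ⟨maximalIdeal (R 1), inferInstance, g, hgm, fun j => le_antisymm ?_ ?_⟩
  · have hfg : (maximalIdeal (R j)).FG := (inferInstance : IsNoetherianRing (R j)).noetherian _
    refine Submodule.le_of_le_smul_of_le_jacobson_bot (I := maximalIdeal (R j)) hfg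
      (IsLocalRing.jacobson_eq_maximalIdeal _ bot_ne_top).ge ?_
    intro u hu
    obtain ⟨a, rfl⟩ := proj_surjective π hπ j u
    have ha : a ∈ maximalIdeal (towerLim π) := (mem_maximalIdeal_iff π hπ a j).mpr hu
    have ha1 : proj π 1 a ∈ maximalIdeal (R 1) := (mem_maximalIdeal_iff π hπ a 1).mp ha
    have hb : proj π 1 (a - g ⟨_, ha1⟩) = 0 := by rw [map_sub, hg, sub_self]
    have hb' := proj_mem_pow_of_proj_eq_zero π hπ hker _ 1 hb j
    have : proj π j a = proj π j (g ⟨_, ha1⟩) + proj π j (a - g ⟨_, ha1⟩) := by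
      rw [map_sub]; ring
    rw [this]
    refine Submodule.add_mem_sup (Ideal.subset_span ⟨_, rfl⟩) ?_
    rw [smul_eq_mul, ← pow_two]
    exact hb'
  · rw [Ideal.span_le]
    rintro _ ⟨i, rfl⟩
    exact (mem_maximalIdeal_iff π hπ (g i) j).mp (hgm i)

include hπ in
omit [IsLocalRing (towerLim π)] in
/-- Key gluing statement (König): an element of the limit all of whose components lie in the
`e`-th power of the maximal ideal lies in the `e`-th power of the ideal generated by `g`. -/
theorem mem_span_pow_of_forall_proj_mem {ι : Type*} [Finite ι] (g : ι → towerLim π)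
    (hg : ∀ j, maximalIdeal (R j) = Ideal.span (Set.range fun i => proj π j (g i))) (e : ℕ) :
    ∀ a : towerLim π, (∀ j, proj π j a ∈ maximalIdeal (R j) ^ e) →
      a ∈ Ideal.span (Set.range g) ^ e := by
  classical
  have := Fintype.ofFinite ι
  induction e with
  | zero => intro a _; rw [pow_zero, Ideal.one_eq_top]; trivial
  | succ e ih =>
    intro a ha
    let S : ℕ → Type _ := fun j =>
      {c : ι → R j // (∀ i, c i ∈ maximalIdeal (R j) ^ e) ∧
        ∑ i, c i * proj π j (g i) = proj π j a}
    have hne : ∀ j, Nonempty (S j) := by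
      intro j
      have h1 := ha j
      rw [pow_succ, ← smul_eq_mul, hg j] at h1
      nth_rewrite 1 [← hg j] at h1
      obtain ⟨c, hc, hsum⟩ := (Submodule.mem_ideal_smul_span_iff_exists_sum _ _ _).mp h1
      refine ⟨⟨fun i => c i, hc, ?_⟩⟩
      rw [← hsum, Finsupp.sum_fintype _ _ (fun i => by simp)]
      rfl
    let f : ∀ j, S (j + 1) → S j := fun j c =>
      ⟨fun i => π j (c.1 i), fun i => by
          have h1 : π j (c.1 i) ∈ (maximalIdeal (R (j + 1)) ^ e).map (π j) :=
            Ideal.mem_map_of_mem _ (c.2.1 i)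
          rwa [Ideal.map_pow, map_maximalIdeal_of_surjective _ (hπ j)] at h1, by
          have h2 := congrArg (π j) c.2.2
          rw [map_sum, compat] at h2
          rw [← h2]
          refine Finset.sum_congr rfl fun i _ => ?_
          rw [map_mul, compat]⟩
    obtain ⟨s, hs⟩ := exists_compatible_of_finite f
    have hs' : ∀ j i, π j ((s (j + 1)).1 i) = (s j).1 i := fun j i =>
      congrFun (congrArg Subtype.val (hs j)) i
    let C : ι → towerLim π := fun i => mk π (fun j => (s j).1 i) (fun j => hs' j i)
    have hC : ∀ i, C i ∈ Ideal.span (Set.range g) ^ e := fun i =>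
      ih (C i) (fun j => (s j).2.1 i)
    have hsum : a = ∑ i, C i * g i := by
      apply ext'
      intro j
      rw [map_sum, ← (s j).2.2]
      refine Finset.sum_congr rfl fun i _ => ?_
      rw [map_mul]
      rfl
    rw [hsum, pow_succ]
    exact Ideal.sum_mem _ fun i _ => Ideal.mul_mem_mul (hC i) (Ideal.subset_span ⟨i, rfl⟩)

include hπ hker in
/-- The maximal ideal of the limit is finitely generated. -/
theorem maximalIdeal_fg : (maximalIdeal (towerLim π)).FG := by
  obtain ⟨ι, _, g, hgm, hg⟩ := exists_generators π hπ hker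
  have h : maximalIdeal (towerLim π) = Ideal.span (Set.range g) := by
    refine le_antisymm (fun a ha => ?_) ?_
    · have := mem_span_pow_of_forall_proj_mem π hπ g hg 1 a (fun j => by
        rw [pow_one]; exact (mem_maximalIdeal_iff π hπ a j).mp ha)
      rwa [pow_one] at this
    · rw [Ideal.span_le]
      rintro _ ⟨i, rfl⟩
      exact hgm i
  rw [h]
  exact Submodule.fg_span (Set.finite_range g)

include hπ hker in
/-- The kernel of the `n`-th projection is the `(n+1)`-st power of the maximal ideal. -/
theorem ker_proj (n : ℕ) : RingHom.ker (proj π n) = maximalIdeal (towerLim π) ^ (n + 1) := by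
  obtain ⟨ι, _, g, hgm, hg⟩ := exists_generators π hπ hker
  have hle : Ideal.span (Set.range g) ≤ maximalIdeal (towerLim π) := by
    rw [Ideal.span_le]
    rintro _ ⟨i, rfl⟩
    exact hgm i
  refine le_antisymm (fun a ha => ?_) (fun a ha => ?_)
  · rw [RingHom.mem_ker] at ha
    exact Ideal.pow_right_mono hle _ (mem_span_pow_of_forall_proj_mem π hπ g hg (n + 1) a
      (proj_mem_pow_of_proj_eq_zero π hπ hker a n ha))
  · rw [RingHom.mem_ker]
    have h1 : proj π n a ∈ (maximalIdeal (towerLim π) ^ (n + 1)).map (proj π n) :=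
      Ideal.mem_map_of_mem _ ha
    rw [Ideal.map_pow] at h1
    have h2 := Ideal.pow_right_mono (map_proj_maximalIdeal_le π hπ n) (n + 1) h1
    rwa [maximalIdeal_pow_succ_eq_bot π hπ hker n, Ideal.mem_bot] at h2

include hπ hker in
/-- The limit is complete for its maximal ideal. -/
theorem isAdicComplete : IsAdicComplete (maximalIdeal (towerLim π)) (towerLim π) := by
  have hmem : ∀ (n : ℕ) (x y : towerLim π),
      x ≡ y [SMOD (maximalIdeal (towerLim π) ^ (n + 1) • ⊤ :
        Submodule (towerLim π) (towerLim π))] ↔ proj π n x = proj π n y := by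
    intro n x y
    rw [SModEq.sub_mem, smul_eq_mul, Ideal.mul_top, ← ker_proj π hπ hker n, RingHom.mem_ker,
      map_sub, sub_eq_zero]
  refine { haus' := ?_, prec' := ?_ }
  · intro x hx
    apply ext'
    intro n
    exact (hmem n x 0).mp (hx (n + 1))
  · intro f hf
    refine ⟨mk π (fun n => proj π n (f (n + 1))) (fun n => ?_), fun n => ?_⟩
    · rw [compat]
      exact ((hmem n _ _).mp (hf (Nat.le_succ (n + 1)))).symm
    · cases n with
      | zero =>
        rw [pow_zero, Ideal.one_eq_top, smul_eq_mul, Ideal.mul_top]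
        exact SModEq.top
      | succ n => exact (hmem n _ _).mpr rfl

omit [∀ n, Finite (R n)] in
include hπ in
/-- If `𝒪` surjects onto the residue field of `R 0`, it surjects onto the residue field of the
limit. -/
theorem residue_comp_algebraMap_surjective
    (h0 : Function.Surjective (IsLocalRing.residue (R 0) ∘ algebraMap 𝒪 (R 0))) :
    Function.Surjective (IsLocalRing.residue (towerLim π) ∘ algebraMap 𝒪 (towerLim π)) := by
  intro y
  obtain ⟨x, rfl⟩ := IsLocalRing.residue_surjective y
  obtain ⟨o, ho⟩ := h0 (IsLocalRing.residue (R 0) (proj π 0 x))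
  refine ⟨o, ?_⟩
  rw [Function.comp_apply, ← sub_eq_zero, ← map_sub, IsLocalRing.residue_eq_zero_iff,
    mem_maximalIdeal_iff π hπ _ 0, map_sub, AlgHom.commutes, ← IsLocalRing.residue_eq_zero_iff,
    map_sub, sub_eq_zero]
  exact ho

omit [IsLocalRing (towerLim π)] [∀ n, IsLocalRing (R n)] [∀ n, Finite (R n)] in
/-- If `𝒪 → R 0` is a local homomorphism then so is `𝒪 → towerLim π`. -/
theorem isLocalHom_algebraMap [IsLocalHom (algebraMap 𝒪 (R 0))] :
    IsLocalHom (algebraMap 𝒪 (towerLim π)) := by
  constructor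
  intro o ho
  have h1 : IsUnit (algebraMap 𝒪 (R 0) o) := by
    have := ho.map (proj π 0)
    rwa [AlgHom.commutes] at this
  exact IsLocalHom.map_nonunit o h1

include hπ hker in
/-- The quotient of the limit by the `(n+1)`-st power of its maximal ideal is the `n`-th level. -/
theorem exists_quotient_equiv (n : ℕ) :
    ∃ e : (towerLim π ⧸ maximalIdeal (towerLim π) ^ (n + 1)) ≃ₐ[𝒪] R n,
      ∀ x : towerLim π, e (Ideal.Quotient.mk _ x) = proj π n x := by
  have hk := ker_proj π hπ hker n
  refine ⟨(Ideal.quotientEquivAlgOfEq 𝒪 hk.symm).trans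
    (Ideal.quotientKerAlgEquivOfSurjective (proj_surjective π hπ n)), fun x => ?_⟩
  rfl

end Main

end towerLim

end Tower

end Fermat.Agent.S53
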