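/-
S53 package P-H: inverse limit of a tower of finite local rings (pure commutative algebra).
-/
import Fermat.Agent.S53.Defs
import Fermat.Agent.S53.LimitGen

set_option autoImplicit false

noncomputable section

namespace Fermat.Agent.S53

open IsLocalRing

section

variable (𝒪 : Type) [CommRing 𝒪] (R : ℕ → Type) [∀ n, CommRing (R n)] [∀ n, Algebra 𝒪 (R n)]
  (π : ∀ n, R (n + 1) →ₐ[𝒪] R n)

/-- The inverse limit of the tower `(R n, π n)` as a subalgebra of the product. -/
def limSubalg : Subalgebra 𝒪 (∀ n, R n) where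
  carrier := {x | ∀ n, π n (x (n + 1)) = x n}
  mul_mem' := fun {a b} ha hb n => by
    show π n (a (n + 1) * b (n + 1)) = a n * b n
    rw [map_mul, ha n, hb n]
  add_mem' := fun {a b} ha hb n => by
    show π n (a (n + 1) + b (n + 1)) = a n + b n
    rw [map_add, ha n, hb n]
  algebraMap_mem' := fun c n => by
    show π n (algebraMap 𝒪 (R (n + 1)) c) = algebraMap 𝒪 (R n) c
    exact (π n).commutes c

/-- The projections of the inverse limit. -/
def limProj (n : ℕ) : limSubalg 𝒪 R π →ₐ[𝒪] R n :=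
  (Pi.evalAlgHom 𝒪 R n).comp (limSubalg 𝒪 R π).val

@[simp] theorem limProj_apply (n : ℕ) (x : limSubalg 𝒪 R π) : limProj 𝒪 R π n x = x.1 n := rfl

theorem limProj_compat (n : ℕ) (x : limSubalg 𝒪 R π) :
    π n (limProj 𝒪 R π (n + 1) x) = limProj 𝒪 R π n x := x.2 n

end

/-- Hypotheses on the tower: finite local `𝒪`-algebras with residue field that of `𝒪`,
surjective transition maps with `ker (R (n+1) → R n) = 𝔪 ^ (n+1)` and `𝔪_{R n} ^ (n+1) = 0`. -/
structure IsTower (𝒪 : Type) [CommRing 𝒪] [IsLocalRing 𝒪] (R : ℕ → Type) [∀ n, CommRing (R n)]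
    [∀ n, IsLocalRing (R n)] [∀ n, Algebra 𝒪 (R n)] (π : ∀ n, R (n + 1) →ₐ[𝒪] R n) : Prop where
  finite : ∀ n, Finite (R n)
  isLocalHom : ∀ n, IsLocalHom (algebraMap 𝒪 (R n))
  residue_surjective : ∀ n, Function.Surjective (residue (R n) ∘ algebraMap 𝒪 (R n))
  surjective : ∀ n, Function.Surjective (π n)
  ker : ∀ n, RingHom.ker (π n : R (n + 1) →+* R n) = maximalIdeal (R (n + 1)) ^ (n + 1)
  pow_eq : ∀ n, maximalIdeal (R n) ^ (n + 1) = ⊥

variable {𝒪 : Type} [CommRing 𝒪] [IsLocalRing 𝒪] {R : ℕ → Type} [∀ n, CommRing (R n)]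
  [∀ n, IsLocalRing (R n)] [∀ n, Algebra 𝒪 (R n)] {π : ∀ n, R (n + 1) →ₐ[𝒪] R n}

/-- P-H (main).  The inverse limit `S` of a tower is a local ring, complete for its maximal ideal,
which is finitely generated; `𝒪 → S` is local with the same residue field; the projections are
surjective with `ker (S → R n) = 𝔪_S ^ (n+1)`.
Sketch: units of `S` = families with unit `0`-th component (`R 0` is a field, each `R n` local).
Projections surjective: lift step by step (or König).  Let `x₁..x_s ∈ 𝔪_S` lift all elements of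
`𝔪_{R 1}`; their images generate every `𝔪_{R N}` (Nakayama with nilpotent `𝔪`, using
`ker (R N → R 1) = 𝔪 ^ 2`).  Key claim `ker (p n) ≤ (x₁..x_s) ^ (n+1)` by induction on `n`:
for `a ∈ ker (p n)` the finite nonempty sets
`C_N = {c : Fin s → R N | c j ∈ 𝔪^n ∧ ∑ c j * x j = a_N}` form an inverse system, so
`nonempty_sections_of_finite_inverse_system` gives `c j ∈ S` with `a = ∑ c j * x j`,
`c j ∈ ker (p (n-1))`.  Completeness then follows directly from `ker (p n) = 𝔪 ^ (n+1)`. -/
theorem lim_spec (h : IsTower 𝒪 R π) :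
    ∃ (_ : IsLocalRing (limSubalg 𝒪 R π)),
      IsAdicComplete (maximalIdeal (limSubalg 𝒪 R π)) (limSubalg 𝒪 R π) ∧
      (maximalIdeal (limSubalg 𝒪 R π)).FG ∧
      IsLocalHom (algebraMap 𝒪 (limSubalg 𝒪 R π)) ∧
      Function.Surjective (residue (limSubalg 𝒪 R π) ∘ algebraMap 𝒪 (limSubalg 𝒪 R π)) ∧
      (∀ n, Function.Surjective (limProj 𝒪 R π n)) ∧
      (∀ n, RingHom.ker (limProj 𝒪 R π n : limSubalg 𝒪 R π →+* R n) =
        maximalIdeal (limSubalg 𝒪 R π) ^ (n + 1)) := by
  have := h.finite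
  have hloc : IsLocalRing (towerLim π) := towerLim.isLocalRing π h.surjective
  have := h.isLocalHom 0
  have hker : ∀ n, RingHom.ker (π n) = maximalIdeal (R (n + 1)) ^ (n + 1) := fun n => h.ker n
  exact ⟨hloc, towerLim.isAdicComplete π h.surjective hker,
    towerLim.maximalIdeal_fg π h.surjective hker, towerLim.isLocalHom_algebraMap π,
    towerLim.residue_comp_algebraMap_surjective π h.surjective (h.residue_surjective 0),
    towerLim.proj_surjective π h.surjective, towerLim.ker_proj π h.surjective hker⟩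

end Fermat.Agent.S53

end
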