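import Mathlib.RingTheory.MvPowerSeries.Equiv
import Mathlib.RingTheory.AdicCompletion.RingHom
import Mathlib.RingTheory.AdicCompletion.Completeness
import Mathlib.RingTheory.AdicCompletion.Noetherian

set_option autoImplicit false

namespace Fermat.Agent.S53.PowerSeriesMap

open MvPowerSeries IsLocalRing

section Eval

variable {𝒪 : Type*} [CommRing 𝒪] {σ : Type*} [Finite σ] {A : Type*} [CommRing A] [Algebra 𝒪 A]

omit [Finite σ] in
theorem aeval_mem_pow (I : Ideal A) (a : σ → A) (ha : ∀ s, a s ∈ I) {n : ℕ}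
    {p : MvPolynomial σ 𝒪} (hp : p ∈ (MvPolynomial.idealOfVars σ 𝒪) ^ n) :
    MvPolynomial.aeval a p ∈ I ^ n := by
  have h1 : Ideal.map (MvPolynomial.aeval a : MvPolynomial σ 𝒪 →ₐ[𝒪] A)
      (MvPolynomial.idealOfVars σ 𝒪) ≤ I := by
    rw [MvPolynomial.idealOfVars, Ideal.map_span, Ideal.span_le]
    rintro _ ⟨_, ⟨s, rfl⟩, rfl⟩
    simpa using ha s
  have h2 := Ideal.mem_map_of_mem (MvPolynomial.aeval a : MvPolynomial σ 𝒪 →ₐ[𝒪] A) hp
  rw [Ideal.map_pow] at h2
  exact Ideal.pow_right_mono h1 n h2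

/-- level-`n` evaluation of truncated polynomials. -/
noncomputable def evalQuot (I : Ideal A) (a : σ → A) (ha : ∀ s, a s ∈ I) (n : ℕ) :
    MvPolynomial σ 𝒪 ⧸ (MvPolynomial.idealOfVars σ 𝒪) ^ n →ₐ[𝒪] A ⧸ I ^ n :=
  Ideal.Quotient.liftₐ _ ((Ideal.Quotient.mkₐ 𝒪 (I ^ n)).comp (MvPolynomial.aeval a)) (by
    intro p hp
    rw [AlgHom.comp_apply, Ideal.Quotient.mkₐ_eq_mk, Ideal.Quotient.eq_zero_iff_mem]
    exact aeval_mem_pow I a ha hp)

omit [Finite σ] in
theorem evalQuot_mk (I : Ideal A) (a : σ → A) (ha : ∀ s, a s ∈ I) (n : ℕ)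
    (p : MvPolynomial σ 𝒪) :
    evalQuot I a ha n (Ideal.Quotient.mk _ p) = Ideal.Quotient.mk (I ^ n) (MvPolynomial.aeval a p) :=
  rfl

/-- level-`n` evaluation of power series. -/
noncomputable def evalLevel (I : Ideal A) (a : σ → A) (ha : ∀ s, a s ∈ I) (n : ℕ) :
    MvPowerSeries σ 𝒪 →ₐ[𝒪] A ⧸ I ^ n :=
  (evalQuot I a ha n).comp ((truncTotalAlgHom σ 𝒪 n).restrictScalars 𝒪)

theorem evalLevel_apply (I : Ideal A) (a : σ → A) (ha : ∀ s, a s ∈ I) (n : ℕ)
    (p : MvPowerSeries σ 𝒪) :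
    evalLevel I a ha n p =
      Ideal.Quotient.mk (I ^ n) (MvPolynomial.aeval a (truncTotal n p)) :=
  rfl

theorem evalLevel_coe (I : Ideal A) (a : σ → A) (ha : ∀ s, a s ∈ I) (n : ℕ)
    (q : MvPolynomial σ 𝒪) :
    evalLevel I a ha n (q : MvPowerSeries σ 𝒪) =
      Ideal.Quotient.mk (I ^ n) (MvPolynomial.aeval a q) := by
  have h := (truncTotalAlgHom σ 𝒪 n).commutes q
  have h' : (truncTotalAlgHom σ 𝒪 n) (q : MvPowerSeries σ 𝒪) = Ideal.Quotient.mk _ q := h
  show evalQuot I a ha n ((truncTotalAlgHom σ 𝒪 n) (q : MvPowerSeries σ 𝒪)) = _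
  rw [h', evalQuot_mk]

theorem evalLevel_compat (I : Ideal A) (a : σ → A) (ha : ∀ s, a s ∈ I) {m n : ℕ} (hle : m ≤ n) :
    (Ideal.Quotient.factorₐ 𝒪 (Ideal.pow_le_pow_right hle)).comp (evalLevel I a ha n) =
      evalLevel I a ha m := by
  ext p
  rw [AlgHom.comp_apply, evalLevel_apply, evalLevel_apply]
  show Ideal.Quotient.factor (Ideal.pow_le_pow_right hle) (Ideal.Quotient.mk (I ^ n) _) = _
  rw [Ideal.Quotient.factor_mk, Ideal.Quotient.eq, ← map_sub]
  exact aeval_mem_pow I a ha (truncTotal_sub_truncTotal_mem_pow_idealOfVars hle le_rfl p)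

variable (I : Ideal A) [IsAdicComplete I A]

/-- Evaluation of power series at elements of an ideal `I` of an `I`-adically complete ring. -/
noncomputable def evalHom (a : σ → A) (ha : ∀ s, a s ∈ I) : MvPowerSeries σ 𝒪 →ₐ[𝒪] A :=
  IsAdicComplete.liftAlgHom I (evalLevel I a ha) (fun hle => evalLevel_compat I a ha hle)

theorem mk_evalHom (a : σ → A) (ha : ∀ s, a s ∈ I) (n : ℕ) (p : MvPowerSeries σ 𝒪) :
    Ideal.Quotient.mk (I ^ n) (evalHom I a ha p) =
      Ideal.Quotient.mk (I ^ n) (MvPolynomial.aeval a (truncTotal n p)) := by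
  rw [evalHom, IsAdicComplete.mk_liftAlgHom, evalLevel_apply]

theorem evalHom_coe (a : σ → A) (ha : ∀ s, a s ∈ I) (q : MvPolynomial σ 𝒪) :
    evalHom I a ha (q : MvPowerSeries σ 𝒪) = MvPolynomial.aeval a q := by
  rw [← sub_eq_zero]
  apply IsHausdorff.haus (I := I) inferInstance
  intro n
  rw [SModEq.zero, smul_eq_mul, Ideal.mul_top, ← Ideal.Quotient.eq]
  rw [evalHom, IsAdicComplete.mk_liftAlgHom, evalLevel_coe]

theorem evalHom_X (a : σ → A) (ha : ∀ s, a s ∈ I) (s : σ) :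
    evalHom (𝒪 := 𝒪) I a ha (X s) = a s := by
  rw [← MvPolynomial.coe_X, evalHom_coe, MvPolynomial.aeval_X]

end Eval

section Order

variable {𝒪 : Type*} [CommRing 𝒪] {σ : Type*}

/-- The ideal of power series all of whose coefficients in total degree `< n` vanish. -/
def ordIdeal (𝒪 : Type*) [CommRing 𝒪] (σ : Type*) (n : ℕ) : Ideal (MvPowerSeries σ 𝒪) where
  carrier := {f | ∀ d : σ →₀ ℕ, d.degree < n → coeff d f = 0}
  add_mem' := by
    intro f g hf hg d hd
    rw [map_add, hf d hd, hg d hd, add_zero]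
  zero_mem' := by
    intro d _
    exact map_zero _
  smul_mem' := by
    intro g f hf d hd
    classical
    rw [smul_eq_mul, coeff_mul]
    apply Finset.sum_eq_zero
    rintro ⟨a, b⟩ hab
    rw [Finset.mem_antidiagonal] at hab
    have hb : coeff b f = 0 := hf b (by
      have h2 : a.degree + b.degree = d.degree := by rw [← hab, map_add]
      omega)
    rw [hb, mul_zero]

theorem mem_ordIdeal {n : ℕ} {f : MvPowerSeries σ 𝒪} :
    f ∈ ordIdeal 𝒪 σ n ↔ ∀ d : σ →₀ ℕ, d.degree < n → coeff d f = 0 :=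
  Iff.rfl

theorem ordIdeal_mul_le (m n : ℕ) : ordIdeal 𝒪 σ m * ordIdeal 𝒪 σ n ≤ ordIdeal 𝒪 σ (m + n) := by
  classical
  rw [Ideal.mul_le]
  intro f hf g hg d hd
  rw [coeff_mul]
  apply Finset.sum_eq_zero
  rintro ⟨a, b⟩ hab
  rw [Finset.mem_antidiagonal] at hab
  have h2 : a.degree + b.degree = d.degree := by rw [← hab, map_add]
  by_cases ha : a.degree < m
  · rw [hf a ha, zero_mul]
  · rw [hg b (by omega), mul_zero]

theorem span_X_le_ordIdeal_one :
    Ideal.span (Set.range (X : σ → MvPowerSeries σ 𝒪)) ≤ ordIdeal 𝒪 σ 1 := by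
  rw [Ideal.span_le]
  rintro _ ⟨s, rfl⟩ d hd
  have hd0 : d = 0 := by
    have : d.degree = 0 := by omega
    exact (Finsupp.degree_eq_zero_iff d).mp this
  rw [hd0]
  exact coeff_zero_X s

theorem span_X_pow_le_ordIdeal (n : ℕ) :
    Ideal.span (Set.range (X : σ → MvPowerSeries σ 𝒪)) ^ n ≤ ordIdeal 𝒪 σ n := by
  induction n with
  | zero =>
    intro f _ d hd
    exact absurd hd (Nat.not_lt_zero _)
  | succ n ih =>
    rw [pow_succ]
    exact (Ideal.mul_mono ih span_X_le_ordIdeal_one).trans (ordIdeal_mul_le n 1)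

theorem coe_mem_span_X_pow {n : ℕ} {q : MvPolynomial σ 𝒪}
    (hq : q ∈ (MvPolynomial.idealOfVars σ 𝒪) ^ n) :
    (q : MvPowerSeries σ 𝒪) ∈ Ideal.span (Set.range (X : σ → MvPowerSeries σ 𝒪)) ^ n := by
  have h1 : Ideal.map (MvPolynomial.coeToMvPowerSeries.ringHom (σ := σ) (R := 𝒪))
      (MvPolynomial.idealOfVars σ 𝒪) ≤ Ideal.span (Set.range (X : σ → MvPowerSeries σ 𝒪)) := by
    rw [MvPolynomial.idealOfVars, Ideal.map_span, Ideal.span_le]
    rintro _ ⟨_, ⟨s, rfl⟩, rfl⟩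
    apply Ideal.subset_span
    exact ⟨s, (MvPolynomial.coe_X s).symm⟩
  have h2 := Ideal.mem_map_of_mem (MvPolynomial.coeToMvPowerSeries.ringHom (σ := σ) (R := 𝒪)) hq
  rw [Ideal.map_pow] at h2
  exact Ideal.pow_right_mono h1 n h2

variable [Finite σ]

/-- A power series differs from its total-degree-`n` truncation by an element of `(X)^n`. -/
theorem sub_truncTotal_mem_span_X_pow (n : ℕ) (p : MvPowerSeries σ 𝒪) :
    p - (truncTotal n p : MvPowerSeries σ 𝒪) ∈
      Ideal.span (Set.range (X : σ → MvPowerSeries σ 𝒪)) ^ n := by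
  obtain ⟨L, hL⟩ := IsPrecomplete.prec (I := Ideal.span (Set.range (X : σ → MvPowerSeries σ 𝒪)))
    (M := MvPowerSeries σ 𝒪) inferInstance
    (f := fun n => (truncTotal n p : MvPowerSeries σ 𝒪)) (by
      intro m n hmn
      rw [SModEq.sub_mem, smul_eq_mul, Ideal.mul_top]
      have hsub : (truncTotal m p : MvPowerSeries σ 𝒪) - (truncTotal n p : MvPowerSeries σ 𝒪) =
          ((truncTotal m p - truncTotal n p : MvPolynomial σ 𝒪) : MvPowerSeries σ 𝒪) :=
        ((MvPolynomial.coeToMvPowerSeries.ringHom (σ := σ) (R := 𝒪)).map_sub _ _).symm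
      rw [hsub]
      exact coe_mem_span_X_pow (truncTotal_sub_truncTotal_mem_pow_idealOfVars le_rfl hmn p))
  have hL' : ∀ n, (truncTotal n p : MvPowerSeries σ 𝒪) - L ∈
      Ideal.span (Set.range (X : σ → MvPowerSeries σ 𝒪)) ^ n := by
    intro n
    have := hL n
    rwa [SModEq.sub_mem, smul_eq_mul, Ideal.mul_top] at this
  have hLp : L = p := by
    ext d
    have h1 := span_X_pow_le_ordIdeal (d.degree + 1) (hL' (d.degree + 1)) d (Nat.lt_succ_self _)
    rw [map_sub, MvPolynomial.coeff_coe, coeff_truncTotal p (Nat.lt_succ_self _), sub_eq_zero]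
      at h1
    exact h1.symm
  rw [hLp] at hL'
  have := hL' n
  rw [← neg_sub]
  exact neg_mem this

theorem span_X_pow_eq_ordIdeal (n : ℕ) :
    Ideal.span (Set.range (X : σ → MvPowerSeries σ 𝒪)) ^ n = ordIdeal 𝒪 σ n := by
  apply le_antisymm (span_X_pow_le_ordIdeal n)
  intro f hf
  have h0 : truncTotal n f = 0 := by
    ext d
    rw [coeff_truncTotal_eq_ite, MvPolynomial.coeff_zero]
    split_ifs with h
    · exact hf d h
    · rfl
  have := sub_truncTotal_mem_span_X_pow n f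
  rwa [h0, MvPolynomial.coe_zero, sub_zero] at this

theorem mem_span_X_pow_iff {n : ℕ} {f : MvPowerSeries σ 𝒪} :
    f ∈ Ideal.span (Set.range (X : σ → MvPowerSeries σ 𝒪)) ^ n ↔
      ∀ d : σ →₀ ℕ, d.degree < n → coeff d f = 0 := by
  rw [span_X_pow_eq_ordIdeal, mem_ordIdeal]

end Order

end Fermat.Agent.S53.PowerSeriesMap
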