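/-
S53 package P-I: a ring which is adically complete for a finitely generated ideal `I`, with `R ⧸ I`
a quotient of a Noetherian ring `𝒪`, is Noetherian (pure commutative algebra).
-/
import Mathlib.RingTheory.AdicCompletion.Functoriality
import Mathlib.RingTheory.Noetherian.Basic
import Fermat.Agent.S53.PowerSeriesMap

set_option autoImplicit false

noncomputable section

namespace Fermat.Agent.S53

namespace Noeth

open PowerSeriesMap

/-- Surjectivity criterion for the evaluation map `evalHom`: if `I = span (range x)` and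
`𝒪 → R ⧸ I` is surjective then `MvPowerSeries σ 𝒪 → R`, `X j ↦ x j`, is surjective. -/
theorem evalHom_surjective {𝒪 R : Type*} [CommRing 𝒪] [CommRing R] [Algebra 𝒪 R]
    {σ : Type*} [Finite σ] (I : Ideal R) [IsAdicComplete I R] (x : σ → R)
    (hx : Ideal.span (Set.range x) = I)
    (hsurj : Function.Surjective ((Ideal.Quotient.mk I).comp (algebraMap 𝒪 R))) :
    Function.Surjective
      (evalHom (𝒪 := 𝒪) I x (fun s => hx ▸ Ideal.subset_span (Set.mem_range_self s))) := by
  set φ := evalHom (𝒪 := 𝒪) I x (fun s => hx ▸ Ideal.subset_span (Set.mem_range_self s))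
    with hφ
  have hmap : Ideal.map (φ : MvPowerSeries σ 𝒪 →+* R)
      (Ideal.span (Set.range (MvPowerSeries.X : σ → MvPowerSeries σ 𝒪))) = I := by
    rw [Ideal.map_span, ← hx]
    congr 1
    ext r
    constructor
    · rintro ⟨_, ⟨s, rfl⟩, rfl⟩
      exact ⟨s, (evalHom_X I x _ s).symm⟩
    · rintro ⟨s, rfl⟩
      exact ⟨MvPowerSeries.X s, ⟨s, rfl⟩, evalHom_X I x _ s⟩
  have : IsHausdorff (Ideal.map (φ : MvPowerSeries σ 𝒪 →+* R)
      (Ideal.span (Set.range (MvPowerSeries.X : σ → MvPowerSeries σ 𝒪)))) R := by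
    rw [hmap]; infer_instance
  have key : Function.Surjective (φ : MvPowerSeries σ 𝒪 →+* R) := by
    apply surjective_of_mk_map_comp_surjective (φ : MvPowerSeries σ 𝒪 →+* R)
      (I := Ideal.span (Set.range (MvPowerSeries.X : σ → MvPowerSeries σ 𝒪)))
    intro y
    obtain ⟨r, rfl⟩ := Ideal.Quotient.mk_surjective y
    obtain ⟨o, ho⟩ := hsurj (Ideal.Quotient.mk I r)
    refine ⟨algebraMap 𝒪 (MvPowerSeries σ 𝒪) o, ?_⟩
    rw [RingHom.comp_apply, Ideal.Quotient.eq]
    have h1 : (φ : MvPowerSeries σ 𝒪 →+* R) (algebraMap 𝒪 (MvPowerSeries σ 𝒪) o) =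
        algebraMap 𝒪 R o := φ.commutes o
    rw [h1, hmap]
    rw [RingHom.comp_apply, Ideal.Quotient.eq] at ho
    exact ho
  exact key

end Noeth

open PowerSeriesMap Noeth in
/-- P-I (main). -/
theorem isNoetherianRing_of_isAdicComplete (𝒪 R : Type) [CommRing 𝒪] [IsNoetherianRing 𝒪]
    [CommRing R] [Algebra 𝒪 R] (I : Ideal R) [IsAdicComplete I R] (hfg : I.FG)
    (hsurj : Function.Surjective ((Ideal.Quotient.mk I).comp (algebraMap 𝒪 R))) :
    IsNoetherianRing R := by
  obtain ⟨s, x, hx⟩ := Submodule.fg_iff_exists_fin_generating_family.mp hfg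
  have hx' : Ideal.span (Set.range x) = I := hx
  have h := evalHom_surjective (𝒪 := 𝒪) I x hx' hsurj
  exact isNoetherianRing_of_surjective (MvPowerSeries (Fin s) 𝒪) R
    (evalHom (𝒪 := 𝒪) I x
      (fun s => hx' ▸ Ideal.subset_span (Set.mem_range_self s)) : MvPowerSeries (Fin s) 𝒪 →+* R) h

end Fermat.Agent.S53

end
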