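import Fermat.Agent.S53.Defs

/-!
# S53, package P-A: linear-algebra setup over the residue field

From absolute irreducibility of a two-dimensional residual representation we extract
* Schur's lemma over the ground field (`SetupAux.schur_of_absIrr`);
* a basis in which some `ρbar g0` has first column `(0, 1)`, and an element `g1` whose
  matrix does not commute with that of `g0` (`SetupAux.exists_setup_basis`), packaged as
  `exists_setup`.
-/

set_option autoImplicit false

noncomputable section

namespace Fermat.Agent.S53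

open scoped TensorProduct

open IsLocalRing

namespace SetupAux

/-- Schur's lemma over the ground field for an absolutely irreducible residual representation. -/
theorem schur_of_absIrr {k : Type} [Field k] (ρbar : ResidualGaloisRep k)
    (habs : ρbar.IsAbsolutelyIrreducible) (f : Module.End k ρbar.V)
    (hf : ∀ σ : AlgebraicClosure ℚ ≃ₐ[ℚ] AlgebraicClosure ℚ,
      f ∘ₗ ρbar.ρ σ = ρbar.ρ σ ∘ₗ f) :
    ∃ c : k, f = c • LinearMap.id := by
  classical
  let K := AlgebraicClosure k
  have hfr : Module.finrank K (K ⊗[k] ρbar.V) = 2 := by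
    rw [Module.finrank_baseChange, ρbar.finrank_eq]
  have : Nontrivial (K ⊗[k] ρbar.V) :=
    Module.nontrivial_of_finrank_pos (R := K) (by omega)
  obtain ⟨μ, hμ⟩ := Module.End.exists_eigenvalue (f.baseChange K)
  have hstab : ∀ σ : AlgebraicClosure ℚ ≃ₐ[ℚ] AlgebraicClosure ℚ,
      ∀ x ∈ Module.End.eigenspace (f.baseChange K) μ,
      (ρbar.baseChange K).ρ σ x ∈ Module.End.eigenspace (f.baseChange K) μ := by
    intro σ x hx
    rw [Module.End.mem_eigenspace_iff] at hx ⊢
    have h1 : (f.baseChange K) ((ρbar.ρ σ).baseChange K x)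
        = (ρbar.ρ σ).baseChange K (f.baseChange K x) := by
      rw [← LinearMap.comp_apply, ← LinearMap.baseChange_comp, hf σ, LinearMap.baseChange_comp,
        LinearMap.comp_apply]
    show f.baseChange K ((ρbar.ρ σ).baseChange K x) = μ • (ρbar.ρ σ).baseChange K x
    rw [h1, hx, map_smul]
  rcases habs _ hstab with h | h
  · exact absurd h hμ
  · -- `f.baseChange K` is multiplication by `μ`
    have hall : ∀ x : K ⊗[k] ρbar.V, f.baseChange K x = μ • x := fun x =>
      Module.End.mem_eigenspace_iff.mp (h ▸ Submodule.mem_top)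
    let b : Module.Basis (Fin 2) k ρbar.V := Module.finBasisOfFinrankEq k ρbar.V ρbar.finrank_eq
    have hM := LinearMap.toMatrix_baseChange K f b b
    have hsc : f.baseChange K = μ • LinearMap.id := LinearMap.ext fun x => by simp [hall x]
    rw [hsc] at hM
    have hentry : ∀ i j : Fin 2, algebraMap k K (LinearMap.toMatrix b b f i j)
        = if i = j then μ else 0 := by
      intro i j
      have := congrFun (congrFun hM i) j
      simp only [Matrix.map_apply] at this
      rw [← this]
      simp [LinearMap.toMatrix_apply, Finsupp.single_apply, eq_comm]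
    refine ⟨LinearMap.toMatrix b b f 0 0, ?_⟩
    apply (LinearMap.toMatrix b b).injective
    ext i j
    apply (algebraMap k K).injective
    rw [hentry i j]
    simp only [map_smul, LinearMap.toMatrix_id, Matrix.smul_apply, Matrix.one_apply, smul_eq_mul,
      mul_ite, mul_one, mul_zero]
    split_ifs with hij
    · rw [hentry 0 0]; simp
    · simp

/-- Matrix form of Schur's lemma, in an arbitrary basis. -/
theorem schur_matrix_of_absIrr {k : Type} [Field k] (ρbar : ResidualGaloisRep k)
    (habs : ρbar.IsAbsolutelyIrreducible) (b : Module.Basis (Fin 2) k ρbar.V)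
    (M : Matrix (Fin 2) (Fin 2) k)
    (hM : ∀ σ : AlgebraicClosure ℚ ≃ₐ[ℚ] AlgebraicClosure ℚ,
      M * LinearMap.toMatrix b b (ρbar.ρ σ) = LinearMap.toMatrix b b (ρbar.ρ σ) * M) :
    ∃ c : k, M = Matrix.scalar (Fin 2) c := by
  classical
  obtain ⟨c, hc⟩ := schur_of_absIrr ρbar habs (Matrix.toLin b b M) (fun σ => by
    apply (LinearMap.toMatrix b b).injective
    rw [LinearMap.toMatrix_comp b b b, LinearMap.toMatrix_comp b b b, LinearMap.toMatrix_toLin]
    exact hM σ)
  refine ⟨c, ?_⟩
  have h2 := congrArg (LinearMap.toMatrix b b) hc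
  rw [LinearMap.toMatrix_toLin, map_smul, LinearMap.toMatrix_id] at h2
  rw [h2]
  ext i j
  simp [Matrix.one_apply, Matrix.diagonal_apply]

/-- Some element of the group acts by a non-scalar endomorphism. -/
theorem exists_not_scalar_of_absIrr {k : Type} [Field k] (ρbar : ResidualGaloisRep k)
    (habs : ρbar.IsAbsolutelyIrreducible) :
    ∃ g0 : AlgebraicClosure ℚ ≃ₐ[ℚ] AlgebraicClosure ℚ, ∀ c : k, ρbar.ρ g0 ≠ c • LinearMap.id := by
  classical
  by_contra hcon
  push Not at hcon
  let b : Module.Basis (Fin 2) k ρbar.V := Module.finBasisOfFinrankEq k ρbar.V ρbar.finrank_eq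
  obtain ⟨c, hc⟩ := schur_matrix_of_absIrr ρbar habs b (Matrix.single 0 1 1) (fun σ => by
    obtain ⟨a, ha⟩ := hcon σ
    rw [ha, map_smul, LinearMap.toMatrix_id]
    simp)
  have h01 := congrFun (congrFun hc 0) 1
  simp at h01

/-- The normalised setup: a basis `b`, elements `g0 g1` and indices `i0 j0` such that the matrix
of `ρbar g0` has first column `(0, 1)`, the commutator of the matrices of `g1` and `g0` is nonzero
at `(i0, j0)`, and Schur's lemma holds in matrix form. -/
theorem exists_setup_basis {k : Type} [Field k] (ρbar : ResidualGaloisRep k)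
    (habs : ρbar.IsAbsolutelyIrreducible) :
    ∃ (b : Module.Basis (Fin 2) k ρbar.V)
      (g0 g1 : AlgebraicClosure ℚ ≃ₐ[ℚ] AlgebraicClosure ℚ) (i0 j0 : Fin 2),
      (LinearMap.toMatrix b b (ρbar.ρ g0)) 0 0 = 0 ∧
      (LinearMap.toMatrix b b (ρbar.ρ g0)) 1 0 = 1 ∧
      (LinearMap.toMatrix b b (ρbar.ρ g1) * LinearMap.toMatrix b b (ρbar.ρ g0)
        - LinearMap.toMatrix b b (ρbar.ρ g0) * LinearMap.toMatrix b b (ρbar.ρ g1)) i0 j0 ≠ 0 ∧
      ∀ M : Matrix (Fin 2) (Fin 2) k,
        (∀ σ : AlgebraicClosure ℚ ≃ₐ[ℚ] AlgebraicClosure ℚ,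
          M * LinearMap.toMatrix b b (ρbar.ρ σ) = LinearMap.toMatrix b b (ρbar.ρ σ) * M) →
        ∃ c : k, M = Matrix.scalar (Fin 2) c := by
  classical
  obtain ⟨g0, hg0⟩ := exists_not_scalar_of_absIrr ρbar habs
  -- a cyclic vector for `ρbar g0`
  obtain ⟨v, hv⟩ : ∃ v : ρbar.V, LinearIndependent k ![v, ρbar.ρ g0 v] := by
    by_contra hcon
    push Not at hcon
    obtain ⟨a, ha⟩ := LinearMap.exists_eq_smul_id_of_forall_notLinearIndependent hcon
    exact hg0 a ha
  let b : Module.Basis (Fin 2) k ρbar.V :=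
    basisOfLinearIndependentOfCardEqFinrank hv (by simp [ρbar.finrank_eq])
  have hb0 : b 0 = v := by simp [b]
  have hb1 : b 1 = ρbar.ρ g0 v := by simp [b]
  have hcol : ∀ i : Fin 2, LinearMap.toMatrix b b (ρbar.ρ g0) i 0 = if i = 1 then 1 else 0 := by
    intro i
    rw [LinearMap.toMatrix_apply, hb0, ← hb1, Module.Basis.repr_self, Finsupp.single_apply]
    simp [eq_comm]
  have hschur := schur_matrix_of_absIrr ρbar habs b
  -- an element not commuting with `g0`
  have hg1 : ∃ (g1 : AlgebraicClosure ℚ ≃ₐ[ℚ] AlgebraicClosure ℚ) (i0 j0 : Fin 2),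
      (LinearMap.toMatrix b b (ρbar.ρ g1) * LinearMap.toMatrix b b (ρbar.ρ g0)
        - LinearMap.toMatrix b b (ρbar.ρ g0) * LinearMap.toMatrix b b (ρbar.ρ g1)) i0 j0 ≠ 0 := by
    by_contra hcon
    push Not at hcon
    obtain ⟨c, hc⟩ := hschur (LinearMap.toMatrix b b (ρbar.ρ g0)) (fun σ => by
      have : LinearMap.toMatrix b b (ρbar.ρ σ) * LinearMap.toMatrix b b (ρbar.ρ g0)
          - LinearMap.toMatrix b b (ρbar.ρ g0) * LinearMap.toMatrix b b (ρbar.ρ σ) = 0 := by
        ext i j
        exact hcon σ i j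
      exact (sub_eq_zero.mp this).symm)
    apply hg0 c
    apply (LinearMap.toMatrix b b).injective
    rw [hc, map_smul, LinearMap.toMatrix_id]
    ext i j
    simp [Matrix.one_apply, Matrix.diagonal_apply]
  obtain ⟨g1, i0, j0, h1⟩ := hg1
  exact ⟨b, g0, g1, i0, j0, by simpa using hcol 0, by simpa using hcol 1, h1, hschur⟩

end SetupAux

open SetupAux in
/-- P-A (main): an absolutely irreducible residual representation admits rigidifying data. -/
theorem exists_setup (𝒪 : Type) [CommRing 𝒪] [IsLocalRing 𝒪]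
    (ρbar : ResidualGaloisRep (ResidueField 𝒪)) (habs : ρbar.IsAbsolutelyIrreducible) :
    Nonempty (Setup 𝒪 ρbar) := by
  classical
  obtain ⟨b, g0, g1, i0, j0, h00, h10, hcomm, hschur⟩ := exists_setup_basis ρbar habs
  let sec : ResidueField 𝒪 → 𝒪 := Function.surjInv (IsLocalRing.residue_surjective (R := 𝒪))
  have hsec : ∀ x, residue 𝒪 (sec x) = x :=
    Function.surjInv_eq (IsLocalRing.residue_surjective (R := 𝒪))
  let rb : Gal →* M2 (ResidueField 𝒪) :=
    { toFun := fun σ => LinearMap.toMatrix b b (ρbar.ρ σ)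
      map_one' := by rw [map_one]; exact LinearMap.toMatrix_one b
      map_mul' := fun σ τ => by rw [map_mul]; exact LinearMap.toMatrix_mul b _ _ }
  refine ⟨
    { rb := rb
      e := b.equivFun
      he := fun σ v => (LinearMap.toMatrix_mulVec_repr b b (ρbar.ρ σ) v).symm
      g0 := g0
      g1 := g1
      i0 := i0
      j0 := j0
      c0 := sec (rb g1 i0 j0)
      sec := sec
      sec_spec := hsec
      h00 := h00
      h10 := h10
      hcomm := hcomm
      hc0 := hsec _
      schur := hschur
      fin := ?_ }⟩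
  obtain ⟨L, hL, h1⟩ := ρbar.factorsThroughFiniteLevel
  refine ⟨L, hL, fun σ hσ => ?_⟩
  show LinearMap.toMatrix b b (ρbar.ρ σ) = 1
  rw [h1 σ hσ]
  exact LinearMap.toMatrix_one b

end Fermat.Agent.S53

end
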