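/-
S53 assembly, part 1: the tower of universal level objects (team lead).
-/
import Fermat.Agent.S53.Defs
import Fermat.Agent.S53.Glue
import Fermat.Agent.S53.DefoBasic
import Fermat.Agent.S53.Limit
import Fermat.Agent.S53.Level

set_option autoImplicit false

noncomputable section

namespace Fermat.Agent.S53

open IsLocalRing

theorem mapMat_comp {A B C : Type} [CommRing A] [CommRing B] [CommRing C] (ψ : B →+* C)
    (φ : A →+* B) (r : Gal →* M2 A) : mapMat (ψ.comp φ) r = mapMat ψ (mapMat φ r) := rfl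

theorem mapMat_congr_apply {A B : Type} [CommRing A] [CommRing B] {φ : A →+* B}
    {r : Gal →* M2 A} {r' : Gal →* M2 B} (h : mapMat φ r = r') (σ : Gal) (i j : Fin 2) :
    φ (r σ i j) = r' σ i j := by
  rw [← h]; rfl

variable {𝒪 : Type} [CommRing 𝒪] [IsLocalRing 𝒪] {ρbar : ResidualGaloisRep (ResidueField 𝒪)}
  {𝒟 : ∀ ⦃A : Type⦄ [CommRing A] [IsLocalRing A] [Algebra 𝒪 A], GaloisRepAdic A → Prop}

/-- Universality of a level object. -/
def IsUniversal (S : Setup 𝒪 ρbar) {n : ℕ} (X : LevelObj S 𝒟 n) : Prop :=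
  ∀ (B : Type) [CommRing B] [IsLocalRing B] [Algebra 𝒪 B],
    GaloisRep.IsArtinianTestAlgebra 𝒪 B → maximalIdeal B ^ n = ⊥ →
    ∀ r' : Gal →* M2 B, IsDefo S 𝒟 r' →
      ∃ φ : X.A →ₐ[𝒪] B, mapMat (φ : X.A →+* B) X.r = r'

/-- The transition map between universal objects of consecutive levels. -/
theorem exists_transition (S : Setup 𝒪 ρbar) (h𝒟 : GaloisRep.IsDeformationCondition 𝒪 𝒟)
    (k : ℕ) (X : LevelObj S 𝒟 (k + 1)) (Y : LevelObj S 𝒟 (k + 2))
    (hX : IsUniversal S X) (hY : IsUniversal S Y) :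
    ∃ π : Y.A →ₐ[𝒪] X.A, mapMat (π : Y.A →+* X.A) Y.r = X.r ∧ Function.Surjective π ∧
      RingHom.ker (π : Y.A →+* X.A) = maximalIdeal Y.A ^ (k + 1) := by
  have hXpow : maximalIdeal X.A ^ (k + 2) = ⊥ := by
    rw [pow_succ, X.pow_eq, Ideal.bot_mul]
  obtain ⟨π, hπ⟩ := hY X.A X.test hXpow X.r X.defo
  refine ⟨π, hπ, ?_, ?_⟩
  · -- surjectivity: the range contains the generating entries
    have hrange : (⊤ : Subalgebra 𝒪 X.A) ≤ π.range := by
      rw [← X.gen]
      refine Algebra.adjoin_le ?_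
      rintro _ ⟨⟨σ, i, j⟩, rfl⟩
      exact ⟨Y.r σ i j, mapMat_congr_apply hπ σ i j⟩
    intro x
    exact hrange (Algebra.mem_top)
  · apply le_antisymm
    · -- `ker π ≤ 𝔪 ^ (k+1)` via the quotient `Y.A ⧸ 𝔪 ^ (k+1)`
      have := quotPow_nontrivial Y.A k
      have := quotPow_isLocalRing Y.A k
      have htest : GaloisRep.IsArtinianTestAlgebra 𝒪 (Y.A ⧸ maximalIdeal Y.A ^ (k + 1)) :=
        quotPow_test Y.A Y.test.isLocalHom Y.test.residue_surjective k
      let q : Y.A →ₐ[𝒪] (Y.A ⧸ maximalIdeal Y.A ^ (k + 1)) :=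
        Ideal.Quotient.mkₐ 𝒪 (maximalIdeal Y.A ^ (k + 1))
      have hq : IsLocalHom (q : Y.A →+* (Y.A ⧸ maximalIdeal Y.A ^ (k + 1))) :=
        quotPow_isLocalHom_mk Y.A k
      have hdefo := IsDefo.map S h𝒟 Y.test htest q hq Y.defo
      obtain ⟨ψ, hψ⟩ := hX _ htest (quotPow_maximalIdeal_pow Y.A k) _ hdefo
      have hcomp : ψ.comp π = q := by
        apply algHom_ext_of_entries Y.gen
        show mapMat ((ψ : X.A →+* (Y.A ⧸ maximalIdeal Y.A ^ (k + 1))).comp
          (π : Y.A →+* X.A)) Y.r = _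
        rw [mapMat_comp, hπ, hψ]
      intro a ha
      have h1 : q a = 0 := by
        rw [← hcomp]
        show ψ (π a) = 0
        rw [show π a = 0 from ha, map_zero]
      exact Ideal.Quotient.eq_zero_iff_mem.mp h1
    · intro a ha
      have hloc : IsLocalHom (π : Y.A →+* X.A) := isLocalHom_of_pow_eq_bot Y.pow_eq _
      exact map_eq_zero_of_mem_pow (π : Y.A →+* X.A) hloc X.pow_eq ha

end Fermat.Agent.S53

end
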