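/-
S53 package P-D2: existence of normal forms (explicit 2 × 2 algebra + Hensel).
-/
import Fermat.Agent.S53.Defs

set_option autoImplicit false

noncomputable section

namespace Fermat.Agent.S53

open IsLocalRing

variable {𝒪 : Type} [CommRing 𝒪] [IsLocalRing 𝒪] {ρbar : ResidualGaloisRep (ResidueField 𝒪)}
variable {A : Type} [CommRing A] [IsLocalRing A] [Algebra 𝒪 A] [IsLocalHom (algebraMap 𝒪 A)]

namespace NFExist

/-- `Lifts` in terms of residue matrices. -/
theorem lifts_iff_mapMatrix (S : Setup 𝒪 ρbar) (r : Gal →* M2 A) :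
    Lifts S r ↔ ∀ σ : Gal, (residue A).mapMatrix (r σ) =
      (ResidueField.map (algebraMap 𝒪 A)).mapMatrix (S.rb σ) := by
  constructor
  · intro h σ
    ext i j
    have h1 := h σ i j
    rw [← residue_eq_zero_iff, map_sub, sub_eq_zero] at h1
    rw [RingHom.mapMatrix_apply, RingHom.mapMatrix_apply, Matrix.map_apply, Matrix.map_apply, h1,
      ← ResidueField.map_residue, S.sec_spec]
  · intro h σ i j
    have h1 := congrFun (congrFun (h σ) i) j
    rw [RingHom.mapMatrix_apply, RingHom.mapMatrix_apply, Matrix.map_apply, Matrix.map_apply] at h1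
    rw [← residue_eq_zero_iff, map_sub, sub_eq_zero, h1, ← ResidueField.map_residue, S.sec_spec]

/-- Conjugate a matrix representation by a unit matrix: `σ ↦ U⁻¹ * r σ * U`. -/
def conjMat {B : Type} [CommRing B] (U : (M2 B)ˣ) (r : Gal →* M2 B) : Gal →* M2 B where
  toFun σ := (↑U⁻¹ : M2 B) * r σ * (↑U : M2 B)
  map_one' := by simp
  map_mul' σ τ := by simp [mul_assoc]

@[simp] theorem conjMat_apply {B : Type} [CommRing B] (U : (M2 B)ˣ) (r : Gal →* M2 B) (σ : Gal) :
    conjMat U r σ = (↑U⁻¹ : M2 B) * r σ * (↑U : M2 B) := rfl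

theorem conjMat_intertwine {B : Type} [CommRing B] (U : (M2 B)ˣ) (r : Gal →* M2 B) (σ : Gal) :
    (↑U⁻¹ : M2 B) * r σ = conjMat U r σ * (↑U⁻¹ : M2 B) := by
  simp [mul_assoc]

theorem lifts_conjMat (S : Setup 𝒪 ρbar) (U : (M2 A)ˣ)
    (hU : (residue A).mapMatrix (U : M2 A) = 1) {r : Gal →* M2 A} (h : Lifts S r) :
    Lifts S (conjMat U r) := by
  rw [lifts_iff_mapMatrix] at h ⊢
  intro σ
  have hUinv : (residue A).mapMatrix (↑U⁻¹ : M2 A) = 1 := by
    have h2 := congrArg (residue A).mapMatrix U.inv_mul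
    rw [map_mul, hU, mul_one, map_one] at h2
    exact h2
  rw [conjMat_apply, map_mul, map_mul, hU, hUinv, one_mul, mul_one, h σ]

/-- `2 × 2` identity: `S + adj S = tr S`. -/
theorem add_adjugate_fin_two {B : Type} [CommRing B] (X : M2 B) :
    X + X.adjugate = X.trace • (1 : M2 B) := by
  ext i j
  fin_cases i <;> fin_cases j <;>
    simp [Matrix.adjugate_fin_two, Matrix.trace_fin_two, add_comm]

/-- Step 1: make the first column of `r g0` equal to `e₂`. -/
theorem exists_step1 (S : Setup 𝒪 ρbar) (r : Gal →* M2 A) (hl : Lifts S r) :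
    ∃ U : (M2 A)ˣ, (residue A).mapMatrix (U : M2 A) = 1 ∧
      conjMat U r S.g0 0 0 = 0 ∧ conjMat U r S.g0 1 0 = 1 := by
  have hl' := (lifts_iff_mapMatrix S r).mp hl S.g0
  have ha : residue A (r S.g0 0 0) = 0 := by
    have := congrFun (congrFun hl' 0) 0
    rw [RingHom.mapMatrix_apply, RingHom.mapMatrix_apply, Matrix.map_apply, Matrix.map_apply,
      S.h00, map_zero] at this
    exact this
  have hd : residue A (r S.g0 1 0) = 1 := by
    have := congrFun (congrFun hl' 1) 0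
    rw [RingHom.mapMatrix_apply, RingHom.mapMatrix_apply, Matrix.map_apply, Matrix.map_apply,
      S.h10, map_one] at this
    exact this
  have hdu : IsUnit (r S.g0 1 0) := by
    by_contra hnu
    have hm : r S.g0 1 0 ∈ maximalIdeal A := hnu
    rw [← residue_eq_zero_iff, hd] at hm
    exact one_ne_zero hm
  obtain ⟨u, hu⟩ := hdu
  have hud : (↑u⁻¹ : A) * r S.g0 1 0 = 1 := by rw [← hu]; exact Units.inv_mul u
  have hdu' : r S.g0 1 0 * (↑u⁻¹ : A) = 1 := by rw [← hu]; exact Units.mul_inv u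
  let P : M2 A := !![1, r S.g0 0 0; 0, r S.g0 1 0]
  let Pi : M2 A := !![1, - r S.g0 0 0 * ↑u⁻¹; 0, ↑u⁻¹]
  have hP00 : P 0 0 = 1 := rfl
  have hP01 : P 0 1 = r S.g0 0 0 := rfl
  have hP10 : P 1 0 = 0 := rfl
  have hP11 : P 1 1 = r S.g0 1 0 := rfl
  have hPi00 : Pi 0 0 = 1 := rfl
  have hPi01 : Pi 0 1 = - r S.g0 0 0 * ↑u⁻¹ := rfl
  have hPi10 : Pi 1 0 = 0 := rfl
  have hPi11 : Pi 1 1 = ↑u⁻¹ := rfl
  have h1 : P * Pi = 1 := by
    ext i j
    fin_cases i <;> fin_cases j
    · show (P * Pi) 0 0 = (1 : M2 A) 0 0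
      rw [Matrix.mul_apply, Fin.sum_univ_two, hP00, hP01, hPi00, hPi10, Matrix.one_apply_eq]
      ring
    · show (P * Pi) 0 1 = (1 : M2 A) 0 1
      rw [Matrix.mul_apply, Fin.sum_univ_two, hP00, hP01, hPi01, hPi11,
        Matrix.one_apply_ne (by decide)]
      ring
    · show (P * Pi) 1 0 = (1 : M2 A) 1 0
      rw [Matrix.mul_apply, Fin.sum_univ_two, hP10, hP11, hPi00, hPi10,
        Matrix.one_apply_ne (by decide)]
      ring
    · show (P * Pi) 1 1 = (1 : M2 A) 1 1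
      rw [Matrix.mul_apply, Fin.sum_univ_two, hP10, hP11, hPi01, hPi11, Matrix.one_apply_eq]
      linear_combination hdu'
  have h2 : Pi * P = 1 := by
    ext i j
    fin_cases i <;> fin_cases j
    · show (Pi * P) 0 0 = (1 : M2 A) 0 0
      rw [Matrix.mul_apply, Fin.sum_univ_two, hP00, hP10, hPi00, hPi01, Matrix.one_apply_eq]
      ring
    · show (Pi * P) 0 1 = (1 : M2 A) 0 1
      rw [Matrix.mul_apply, Fin.sum_univ_two, hP01, hP11, hPi00, hPi01,
        Matrix.one_apply_ne (by decide)]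
      linear_combination (-(r S.g0 0 0)) * hud
    · show (Pi * P) 1 0 = (1 : M2 A) 1 0
      rw [Matrix.mul_apply, Fin.sum_univ_two, hP00, hP10, hPi10, hPi11,
        Matrix.one_apply_ne (by decide)]
      ring
    · show (Pi * P) 1 1 = (1 : M2 A) 1 1
      rw [Matrix.mul_apply, Fin.sum_univ_two, hP01, hP11, hPi10, hPi11, Matrix.one_apply_eq]
      linear_combination hud
  refine ⟨⟨P, Pi, h1, h2⟩, ?_, ?_, ?_⟩
  · ext i j
    fin_cases i <;> fin_cases j
    · show residue A (P 0 0) = (1 : M2 (ResidueField A)) 0 0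
      rw [hP00, map_one, Matrix.one_apply_eq]
    · show residue A (P 0 1) = (1 : M2 (ResidueField A)) 0 1
      rw [hP01, ha, Matrix.one_apply_ne (by decide)]
    · show residue A (P 1 0) = (1 : M2 (ResidueField A)) 1 0
      rw [hP10, map_zero, Matrix.one_apply_ne (by decide)]
    · show residue A (P 1 1) = (1 : M2 (ResidueField A)) 1 1
      rw [hP11, hd, Matrix.one_apply_eq]
  · show (Pi * r S.g0 * P) 0 0 = 0
    rw [Matrix.mul_apply, Fin.sum_univ_two, hP00, hP10, Matrix.mul_apply, Fin.sum_univ_two,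
      hPi00, hPi01]
    linear_combination (-(r S.g0 0 0)) * hud
  · show (Pi * r S.g0 * P) 1 0 = 1
    rw [Matrix.mul_apply, Fin.sum_univ_two, hP00, hP10, Matrix.mul_apply, Fin.sum_univ_two,
      hPi10, hPi11]
    linear_combination hud

open Polynomial in
/-- Hensel for the quadratic `α y² + β y + γ = 0` with `γ ∈ 𝔪`, `β` a unit: a root `y ∈ 𝔪`. -/
theorem exists_root_quadratic [IsAdicComplete (maximalIdeal A) A] (α β γ : A)
    (hγ : residue A γ = 0) (hβ : residue A β ≠ 0) :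
    ∃ y : A, residue A y = 0 ∧ α * y ^ 2 + β * y + γ = 0 := by
  have hmonic : (X ^ 2 + (C (-β) * X + C (α * γ)) : A[X]).Monic :=
    monic_X_pow_add (lt_of_le_of_lt (degree_linear_le) (by norm_num))
  have heval : (X ^ 2 + (C (-β) * X + C (α * γ)) : A[X]).eval β = α * γ := by
    simp only [eval_add, eval_pow, eval_X, eval_mul, eval_C]
    ring
  have hder : (derivative (X ^ 2 + (C (-β) * X + C (α * γ)) : A[X])).eval β = β := by
    simp only [derivative_add, derivative_X_pow, derivative_mul, derivative_C, derivative_X,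
      eval_add, eval_mul, eval_C, eval_X, eval_pow, zero_mul, zero_add, mul_one, add_zero,
      Nat.cast_ofNat]
    norm_num
    ring
  obtain ⟨w, hw, hwβ⟩ := HenselianRing.is_henselian (R := A) (I := maximalIdeal A)
    (X ^ 2 + (C (-β) * X + C (α * γ)) : A[X]) hmonic β
    (by
      rw [heval, ← residue_eq_zero_iff, map_mul, hγ, mul_zero])
    (by
      rw [hder]
      exact isUnit_iff_ne_zero.mpr hβ)
  have hroot : w ^ 2 + (-β * w + α * γ) = 0 := by
    have := hw
    simp only [IsRoot.def, eval_add, eval_pow, eval_X, eval_mul, eval_C] at this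
    exact this
  have hwres : residue A w = residue A β := by
    rw [← sub_eq_zero, ← map_sub, residue_eq_zero_iff]
    exact hwβ
  have hwu : IsUnit w := by
    by_contra hnu
    have hm : w ∈ maximalIdeal A := hnu
    rw [← residue_eq_zero_iff, hwres] at hm
    exact hβ hm
  obtain ⟨u, hu⟩ := hwu
  have hv : (↑u⁻¹ : A) * w = 1 := by rw [← hu]; exact Units.inv_mul u
  refine ⟨-γ * ↑u⁻¹, by rw [map_mul, map_neg, hγ, neg_zero, zero_mul], ?_⟩
  linear_combination (γ * (↑u⁻¹ : A) ^ 2) * hroot +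
    (β * γ * (↑u⁻¹ : A) - γ * (1 + (↑u⁻¹ : A) * w)) * hv

/-- Step 2: keeping `r g0` fixed, normalise the `(i0, j0)` entry of `r g1`. -/
theorem exists_step2 (S : Setup 𝒪 ρbar) [IsAdicComplete (maximalIdeal A) A]
    (r : Gal →* M2 A) (hl : Lifts S r) :
    ∃ U : (M2 A)ˣ, (residue A).mapMatrix (U : M2 A) = 1 ∧
      conjMat U r S.g0 = r S.g0 ∧
      conjMat U r S.g1 S.i0 S.j0 = algebraMap 𝒪 A S.c0 := by
  have hl' := (lifts_iff_mapMatrix S r).mp hl
  obtain ⟨S₁, hS₁⟩ : ∃ S₁ : M2 A, S₁ = r S.g0 := ⟨_, rfl⟩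
  obtain ⟨T, hT⟩ : ∃ T : M2 A, T = r S.g1 := ⟨_, rfl⟩
  obtain ⟨c, hc⟩ : ∃ c : A, c = algebraMap 𝒪 A S.c0 := ⟨_, rfl⟩
  obtain ⟨γ, hγ⟩ : ∃ γ : A, γ = T S.i0 S.j0 - c := ⟨_, rfl⟩
  obtain ⟨β, hβ⟩ : ∃ β : A, β = (S₁.adjugate * T) S.i0 S.j0 + (T * S₁) S.i0 S.j0 - c * S₁.trace :=
    ⟨_, rfl⟩
  obtain ⟨α, hα⟩ : ∃ α : A, α = (S₁.adjugate * T * S₁) S.i0 S.j0 - c * S₁.det := ⟨_, rfl⟩
  -- `γ ∈ 𝔪`
  have hγm : residue A γ = 0 := by
    have h1 := congrFun (congrFun (hl' S.g1) S.i0) S.j0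
    rw [RingHom.mapMatrix_apply, RingHom.mapMatrix_apply, Matrix.map_apply, Matrix.map_apply,
      ← S.hc0, ResidueField.map_residue] at h1
    rw [hγ, hT, hc, map_sub, h1, sub_self]
  -- `β` is a unit
  have hadj : S₁.adjugate = S₁.trace • (1 : M2 A) - S₁ := by
    rw [← add_adjugate_fin_two]; abel
  have hβ' : β = S₁.trace * γ + (T * S₁ - S₁ * T) S.i0 S.j0 := by
    rw [hβ, hγ, hadj, sub_mul, smul_mul_assoc, one_mul, Matrix.sub_apply, Matrix.smul_apply,
      Matrix.sub_apply, smul_eq_mul]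
    ring
  have hβu : residue A β ≠ 0 := by
    have h2 : (residue A).mapMatrix (T * S₁ - S₁ * T) =
        (ResidueField.map (algebraMap 𝒪 A)).mapMatrix
          (S.rb S.g1 * S.rb S.g0 - S.rb S.g0 * S.rb S.g1) := by
      rw [hT, hS₁, map_sub, map_mul, map_mul, hl', hl', map_sub, map_mul, map_mul]
    have h3 := congrFun (congrFun h2 S.i0) S.j0
    rw [RingHom.mapMatrix_apply, RingHom.mapMatrix_apply, Matrix.map_apply, Matrix.map_apply] at h3
    rw [hβ', map_add, map_mul, hγm, mul_zero, zero_add, h3]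
    exact (map_ne_zero _).mpr S.hcomm
  obtain ⟨y, hy, hquad⟩ := exists_root_quadratic α β γ hγm hβu
  -- the conjugating matrix
  obtain ⟨δ, hδ⟩ : ∃ δ : A, δ = 1 + y * S₁.trace + y * y * S₁.det := ⟨_, rfl⟩
  have hδres : residue A δ = 1 := by
    rw [hδ, map_add, map_add, map_one, map_mul, map_mul, map_mul, hy]
    ring
  have hδu : IsUnit δ := by
    by_contra hnu
    have hm : δ ∈ maximalIdeal A := hnu
    rw [← residue_eq_zero_iff, hδres] at hm
    exact one_ne_zero hm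
  obtain ⟨d, hd⟩ := hδu
  have hdδ : (↑d⁻¹ : A) * δ = 1 := by rw [← hd]; exact Units.inv_mul d
  have hQP : (1 + y • S₁.adjugate) * (1 + y • S₁) = δ • (1 : M2 A) := by
    have h1 : (1 + y • S₁.adjugate) * (1 + y • S₁) =
        1 + y • (S₁ + S₁.adjugate) + (y * y) • (S₁.adjugate * S₁) := by
      simp only [add_mul, mul_add, one_mul, mul_one, smul_mul_assoc, mul_smul_comm, smul_smul,
        smul_add]
      abel
    rw [h1, add_adjugate_fin_two, Matrix.adjugate_mul, hδ, smul_smul, smul_smul, add_smul,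
      add_smul, one_smul]
  have hPQ : (1 + y • S₁) * (1 + y • S₁.adjugate) = δ • (1 : M2 A) := by
    have h1 : (1 + y • S₁) * (1 + y • S₁.adjugate) =
        1 + y • (S₁ + S₁.adjugate) + (y * y) • (S₁ * S₁.adjugate) := by
      simp only [add_mul, mul_add, one_mul, mul_one, smul_mul_assoc, mul_smul_comm, smul_smul,
        smul_add]
      abel
    rw [h1, add_adjugate_fin_two, Matrix.mul_adjugate, hδ, smul_smul, smul_smul, add_smul,
      add_smul, one_smul]
  have hU1 : (1 + y • S₁) * ((↑d⁻¹ : A) • (1 + y • S₁.adjugate)) = 1 := by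
    rw [mul_smul_comm, hPQ, smul_smul, hdδ, one_smul]
  have hU2 : ((↑d⁻¹ : A) • (1 + y • S₁.adjugate)) * (1 + y • S₁) = 1 := by
    rw [smul_mul_assoc, hQP, smul_smul, hdδ, one_smul]
  refine ⟨⟨1 + y • S₁, (↑d⁻¹ : A) • (1 + y • S₁.adjugate), hU1, hU2⟩, ?_, ?_, ?_⟩
  · show (residue A).mapMatrix (1 + y • S₁) = 1
    rw [map_add, map_one]
    have h0 : (residue A).mapMatrix (y • S₁) = 0 := by
      ext i j
      rw [RingHom.mapMatrix_apply, Matrix.map_apply, Matrix.smul_apply, smul_eq_mul, map_mul, hy,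
        zero_mul]
      rfl
    rw [h0, add_zero]
  · show ((↑d⁻¹ : A) • (1 + y • S₁.adjugate)) * r S.g0 * (1 + y • S₁) = r S.g0
    rw [← hS₁]
    have hcomm : S₁ * (1 + y • S₁) = (1 + y • S₁) * S₁ := by
      simp only [add_mul, mul_add, one_mul, mul_one, smul_mul_assoc, mul_smul_comm]
    rw [mul_assoc, hcomm, ← mul_assoc, hU2, one_mul]
  · show (((↑d⁻¹ : A) • (1 + y • S₁.adjugate)) * r S.g1 * (1 + y • S₁)) S.i0 S.j0 =
      algebraMap 𝒪 A S.c0
    rw [← hT, ← hc]
    have h1 : (1 + y • S₁.adjugate) * T * (1 + y • S₁) =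
        T + y • (S₁.adjugate * T) + y • (T * S₁) + (y * y) • (S₁.adjugate * T * S₁) := by
      simp only [add_mul, mul_add, one_mul, mul_one, smul_mul_assoc, mul_smul_comm, smul_smul,
        smul_add]
      abel
    rw [smul_mul_assoc, smul_mul_assoc, h1, Matrix.smul_apply, Matrix.add_apply, Matrix.add_apply,
      Matrix.add_apply, Matrix.smul_apply, Matrix.smul_apply, Matrix.smul_apply, smul_eq_mul,
      smul_eq_mul, smul_eq_mul, smul_eq_mul]
    rw [hα, hβ, hγ] at hquad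
    linear_combination (↑d⁻¹ : A) * hquad + c * hdδ - (↑d⁻¹ : A) * c * hδ

end NFExist

open NFExist in
/-- NF-exist: over a complete local ring, every lift of `rb` is conjugate to a lift in normal form.
Step 1: conjugate by `P = [e₁ | r g0 e₁]` (≡ 1 mod 𝔪) to get `r g0 e₁ = e₂`.
Step 2: with `S₀ = r g0`, `T = r g1`, `P_y = 1 + y • S₀` (commutes with `S₀`), solve
`(adj(P_y) * T * P_y) i0 j0 = c * det P_y` for `y ∈ 𝔪`: this is `α y² + β y + γ = 0` with `γ ∈ 𝔪`
and `β ≡ (T * S₀ - S₀ * T) i0 j0` a unit; take a root `w ≡ β` of the MONIC `w² - β w + α γ`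
(Hensel: `IsAdicComplete.henselianRing`) and `y = - γ / w`. -/
theorem exists_normalForm (S : Setup 𝒪 ρbar) [IsAdicComplete (maximalIdeal A) A]
    (r : Gal →* M2 A) (hl : Lifts S r) :
    ∃ (M : M2 A) (r' : Gal →* M2 A), IsUnit M ∧ (∀ σ, M * r σ = r' σ * M) ∧
      Lifts S r' ∧ IsNF S r' := by
  obtain ⟨U₁, hU₁, h00, h10⟩ := exists_step1 S r hl
  have hl₁ := lifts_conjMat S U₁ hU₁ hl
  obtain ⟨U₂, hU₂, hg0, hg1⟩ := exists_step2 S (conjMat U₁ r) hl₁
  have hl₂ := lifts_conjMat S U₂ hU₂ hl₁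
  refine ⟨(↑U₂⁻¹ : M2 A) * (↑U₁⁻¹ : M2 A), conjMat U₂ (conjMat U₁ r), ?_, ?_, hl₂, ?_, ?_, hg1⟩
  · exact (U₂⁻¹ * U₁⁻¹).isUnit
  · intro σ
    simp [mul_assoc]
  · rw [hg0]; exact h00
  · rw [hg0]; exact h10

end Fermat.Agent.S53

end
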