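/-
S53 package P-K (part): the universal property for complete noetherian local `𝒪`-algebras,
stated abstractly for a ring `Ru` with a normalised representation `ru` whose entries are dense
and which is universal at every finite level.
-/
import Fermat.Agent.S53.Defs
import Fermat.Agent.S53.Bridge
import Fermat.Agent.S53.Residual
import Fermat.Agent.S53.NFExist
import Fermat.Agent.S53.NFUnique
import Fermat.Agent.S53.DefoBasic
import Fermat.Agent.S53.Glue

set_option autoImplicit false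

noncomputable section

namespace Fermat.Agent.S53

open IsLocalRing

namespace UnivProp

/-- Any `𝒪`-algebra homomorphism from a local ring into a local `𝒪`-algebra `B` whose structure
map is local and hits every residue class is a local homomorphism. -/
theorem isLocalHom_algHom_of_residue_surjective {𝒪 R B : Type*} [CommRing 𝒪]
    [CommRing R] [IsLocalRing R] [Algebra 𝒪 R] [CommRing B] [IsLocalRing B] [Algebra 𝒪 B]
    (hloc : IsLocalHom (algebraMap 𝒪 B))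
    (hsurj : Function.Surjective (residue B ∘ algebraMap 𝒪 B)) (φ : R →ₐ[𝒪] B) :
    IsLocalHom (φ : R →+* B) := by
  constructor
  intro x hx
  have hx' : IsUnit (φ x) := hx
  by_contra hxu
  obtain ⟨o, ho⟩ := hsurj (residue B (φ x))
  have h1 : φ x - algebraMap 𝒪 B o ∈ maximalIdeal B := by
    have h2 : residue B (φ x - algebraMap 𝒪 B o) = 0 := by
      rw [map_sub]
      exact sub_eq_zero.mpr ho.symm
    exact (residue_eq_zero_iff _).mp h2
  have ho_unit : IsUnit (algebraMap 𝒪 B o) := by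
    by_contra hcon
    have h3 : φ x ∈ maximalIdeal B := by
      have := Ideal.add_mem _ h1 ((mem_maximalIdeal _).mpr hcon)
      simpa using this
    exact (mem_maximalIdeal _).mp h3 hx'
  have ho' : IsUnit o := hloc.map_nonunit o ho_unit
  have hxo : IsUnit (x - algebraMap 𝒪 R o) := by
    by_contra hcon
    have h4 : algebraMap 𝒪 R o ∈ maximalIdeal R := by
      have := Ideal.sub_mem _ ((mem_maximalIdeal _).mpr hxu) ((mem_maximalIdeal _).mpr hcon)
      simpa using this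
    exact (mem_maximalIdeal _).mp h4 (ho'.map _)
  have h5 : IsUnit (φ x - algebraMap 𝒪 B o) := by
    have := hxo.map φ
    simpa using this
  exact (mem_maximalIdeal _).mp h1 h5

/-- Two algebra homomorphisms which agree on the entries of `r` agree on the subalgebra they
generate. -/
theorem eqOn_adjoin_entries {𝒪 R C : Type} [CommRing 𝒪] [CommRing R] [Algebra 𝒪 R]
    [CommRing C] [Algebra 𝒪 C] (r : Gal →* M2 R) (ψ₁ ψ₂ : R →ₐ[𝒪] C)
    (h : mapMat (ψ₁ : R →+* C) r = mapMat (ψ₂ : R →+* C) r) {y : R}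
    (hy : y ∈ Algebra.adjoin 𝒪 (entries r)) : ψ₁ y = ψ₂ y := by
  have hle : Algebra.adjoin 𝒪 (entries r) ≤ AlgHom.equalizer ψ₁ ψ₂ := by
    apply Algebra.adjoin_le
    rintro _ ⟨⟨σ, i, j⟩, rfl⟩
    have h1 := congrFun (congrFun (DFunLike.congr_fun h σ) i) j
    simpa [mapMat_apply] using h1
  exact hle hy

/-- Two algebra homomorphisms out of `R` which agree on the entries of `r` and kill a power of
the maximal ideal agree, provided the entries are dense. -/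
theorem algHom_ext_of_dense {𝒪 R C : Type} [CommRing 𝒪] [CommRing R] [IsLocalRing R] [Algebra 𝒪 R]
    [CommRing C] [Algebra 𝒪 C] (r : Gal →* M2 R)
    (hdense : ∀ (n : ℕ) (x : R), ∃ y ∈ Algebra.adjoin 𝒪 (entries r), x - y ∈ maximalIdeal R ^ n)
    (ψ₁ ψ₂ : R →ₐ[𝒪] C) (h : mapMat (ψ₁ : R →+* C) r = mapMat (ψ₂ : R →+* C) r) (N : ℕ)
    (h₁ : ∀ z ∈ maximalIdeal R ^ N, ψ₁ z = 0) (h₂ : ∀ z ∈ maximalIdeal R ^ N, ψ₂ z = 0) :
    ψ₁ = ψ₂ := by
  ext x
  obtain ⟨y, hy, hz⟩ := hdense N x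
  have hx : x = y + (x - y) := by ring
  rw [hx, map_add, map_add, h₁ _ hz, h₂ _ hz, eqOn_adjoin_entries r ψ₁ ψ₂ h hy]

/-- A local homomorphism maps the `n`-th power of the maximal ideal into the `n`-th power of the
maximal ideal. -/
theorem map_mem_maximalIdeal_pow {R B : Type*} [CommRing R] [IsLocalRing R] [CommRing B]
    [IsLocalRing B] (φ : R →+* B) (hφ : IsLocalHom φ) (n : ℕ) {z : R}
    (hz : z ∈ maximalIdeal R ^ n) : φ z ∈ maximalIdeal B ^ n := by
  have h1 : φ z ∈ (maximalIdeal R ^ n).map φ := Ideal.mem_map_of_mem φ hz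
  rw [Ideal.map_pow] at h1
  exact Ideal.pow_right_mono (map_maximalIdeal_le φ) n h1

section Main

attribute [local instance] quotPow_nontrivial quotPow_isLocalRing

variable {𝒪 : Type} [CommRing 𝒪] [IsLocalRing 𝒪] {ρbar : ResidualGaloisRep (ResidueField 𝒪)}
  {𝒟 : ∀ ⦃A : Type⦄ [CommRing A] [IsLocalRing A] [Algebra 𝒪 A], GaloisRepAdic A → Prop}

/-- Over a complete noetherian local `𝒪`-algebra, every deformation of type `𝒟` is equivalent to
`ofMat r` for a normalised lift `r` of `rb`, again of type `𝒟`. -/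
theorem exists_normalised (S : Setup 𝒪 ρbar) (h𝒟 : GaloisRep.IsDeformationCondition 𝒪 𝒟)
    (A : Type) [CommRing A] [IsLocalRing A] [IsNoetherianRing A]
    [IsAdicComplete (maximalIdeal A) A] [Algebra 𝒪 A] [IsLocalHom (algebraMap 𝒪 A)]
    (hsurj : Function.Surjective (residue A ∘ algebraMap 𝒪 A))
    (ρA : GaloisRepAdic A) (hD : 𝒟 ρA)
    (hres : ρA.residual.IsEquiv
      (ρbar.baseChangeAlong (ResidueField.map (algebraMap 𝒪 A)))) :
    ∃ (r : Gal →* M2 A) (hc : MatCont r), Lifts S r ∧ IsNF S r ∧ 𝒟 (ofMat r hc) ∧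
      ρA.IsEquiv (ofMat r hc) := by
  obtain ⟨r₁, hc₁, ⟨e₁⟩⟩ := exists_ofMat ρA
  have hres₁ : (ofMat r₁ hc₁).residual.IsEquiv
      (ρbar.baseChangeAlong (ResidueField.map (algebraMap 𝒪 A))) := by
    obtain ⟨e⟩ := hres
    exact ⟨(e₁.symm.residual).trans e⟩
  obtain ⟨N, hN, hNconj⟩ := (residual_isEquiv_iff S r₁ hc₁).mp hres₁
  obtain ⟨M₂, r₂, hM₂, hconj₂, hl₂⟩ := exists_lifts_of_conj S r₁ N hN hNconj
  obtain ⟨M₃, r₃, hM₃, hconj₃, hl₃, hn₃⟩ := exists_normalForm S r₂ hl₂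
  have hc₂ : MatCont r₂ := matCont_conj M₂ hM₂ hconj₂ hc₁
  have hc₃ : MatCont r₃ := matCont_conj M₃ hM₃ hconj₃ hc₂
  obtain ⟨e₁₂⟩ := (isEquiv_ofMat_iff r₁ r₂ hc₁ hc₂).mpr ⟨M₂, hM₂, hconj₂⟩
  obtain ⟨e₂₃⟩ := (isEquiv_ofMat_iff r₂ r₃ hc₂ hc₃).mpr ⟨M₃, hM₃, hconj₃⟩
  let e : GaloisRepAdic.Equiv ρA (ofMat r₃ hc₃) := (e₁.trans e₁₂).trans e₂₃
  refine ⟨r₃, hc₃, hl₃, hn₃, ?_, ⟨e⟩⟩
  rw [h𝒟.iff_forall_surjective inferInstance hsurj]
  intro B _ _ _ hB q hq hqs
  exact h𝒟.of_isEquiv hB ⟨e.baseChangeAlong (q : A →+* B) hq⟩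
    ((h𝒟.iff_forall_surjective inferInstance hsurj ρA).mp hD hB q hq hqs)

/-- Existence of the classifying map for a normalised deformation over a complete noetherian
local `𝒪`-algebra. -/
theorem exists_algHom_of_universal (S : Setup 𝒪 ρbar) (h𝒟 : GaloisRep.IsDeformationCondition 𝒪 𝒟)
    {Ru : Type} [CommRing Ru] [IsLocalRing Ru] [Algebra 𝒪 Ru] (ru : Gal →* M2 Ru)
    (hdense : ∀ (n : ℕ) (x : Ru), ∃ y ∈ Algebra.adjoin 𝒪 (entries ru),
      x - y ∈ maximalIdeal Ru ^ n)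
    (huniv : ∀ (n : ℕ) (B : Type) [CommRing B] [IsLocalRing B] [Algebra 𝒪 B],
      GaloisRep.IsArtinianTestAlgebra 𝒪 B → maximalIdeal B ^ n = ⊥ →
      ∀ r'' : Gal →* M2 B, IsDefo S 𝒟 r'' →
        ∃ φ : Ru →ₐ[𝒪] B, mapMat (φ : Ru →+* B) ru = r'')
    (A : Type) [CommRing A] [IsLocalRing A] [IsNoetherianRing A]
    [IsAdicComplete (maximalIdeal A) A] [Algebra 𝒪 A] [IsLocalHom (algebraMap 𝒪 A)]
    (hsurj : Function.Surjective (residue A ∘ algebraMap 𝒪 A))
    (r : Gal →* M2 A) (hc : MatCont r) (hl : Lifts S r) (hn : IsNF S r)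
    (hD : 𝒟 (ofMat r hc)) :
    ∃ φ : Ru →ₐ[𝒪] A, mapMat (φ : Ru →+* A) ru = r := by
  let q : ∀ n : ℕ, A →ₐ[𝒪] A ⧸ maximalIdeal A ^ (n + 1) := fun n => Ideal.Quotient.mkₐ 𝒪 _
  have hqloc : ∀ n, IsLocalHom ((q n : A →ₐ[𝒪] A ⧸ maximalIdeal A ^ (n + 1)) :
      A →+* A ⧸ maximalIdeal A ^ (n + 1)) := fun n =>
    quotPow_isLocalHom_mk A n
  have hB : ∀ n, GaloisRep.IsArtinianTestAlgebra 𝒪 (A ⧸ maximalIdeal A ^ (n + 1)) := fun n =>
    quotPow_test A inferInstance hsurj n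
  have hdefo : ∀ n, IsDefo S 𝒟 (mapMat ((q n : A →ₐ[𝒪] A ⧸ maximalIdeal A ^ (n + 1)) :
      A →+* A ⧸ maximalIdeal A ^ (n + 1)) r) := fun n =>
    { lifts := Lifts.map S (q n) (hqloc n) hl
      nf := IsNF.map S (q n) hn
      cont := matCont_mapMat _ (hqloc n) hc
      type := h𝒟.of_isEquiv (hB n) (ofMat_baseChangeAlong _ (hqloc n) r hc _)
        ((h𝒟.iff_forall_surjective inferInstance hsurj _).mp hD (hB n) (q n) (hqloc n)
          (Ideal.Quotient.mkₐ_surjective 𝒪 _)) }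
  choose g hg using fun n =>
    huniv (n + 1) _ (hB n) (quotPow_maximalIdeal_pow A n) _ (hdefo n)
  have hgent : ∀ n σ i j, g n (ru σ i j) = Ideal.Quotient.mk _ (r σ i j) := by
    intro n σ i j
    have h1 := congrFun (congrFun (DFunLike.congr_fun (hg n) σ) i) j
    simp only [mapMat_apply] at h1
    exact h1
  have hgloc : ∀ n, IsLocalHom ((g n : Ru →ₐ[𝒪] A ⧸ maximalIdeal A ^ (n + 1)) :
      Ru →+* A ⧸ maximalIdeal A ^ (n + 1)) := fun n =>
    isLocalHom_algHom_of_residue_surjective (hB n).isLocalHom (hB n).residue_surjective (g n)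
  have hgpow : ∀ n k z, z ∈ maximalIdeal Ru ^ k →
      ∃ a ∈ maximalIdeal A ^ k, g n z = Ideal.Quotient.mk _ a := by
    intro n k z hz
    have h1 := map_mem_maximalIdeal_pow _ (hgloc n) k hz
    rw [← IsLocalRing.map_maximalIdeal_of_surjective
      (Ideal.Quotient.mk (maximalIdeal A ^ (n + 1))) Ideal.Quotient.mk_surjective,
      ← Ideal.map_pow] at h1
    obtain ⟨a, ha, hga⟩ := (Ideal.mem_map_iff_of_surjective _ Ideal.Quotient.mk_surjective).mp h1
    exact ⟨a, ha, hga.symm⟩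
  let f : ∀ n : ℕ, Ru →ₐ[𝒪] A ⧸ maximalIdeal A ^ n := fun n =>
    (Ideal.Quotient.factorₐ 𝒪 (Ideal.pow_le_pow_right (Nat.le_succ n))).comp (g n)
  have hfent : ∀ n σ i j, f n (ru σ i j) = Ideal.Quotient.mk _ (r σ i j) := by
    intro n σ i j
    simp [f, hgent]
  have hfpow : ∀ n k z, z ∈ maximalIdeal Ru ^ k →
      ∃ a ∈ maximalIdeal A ^ k, f n z = Ideal.Quotient.mk _ a := by
    intro n k z hz
    obtain ⟨a, ha, hga⟩ := hgpow n k z hz
    exact ⟨a, ha, by simp [f, hga]⟩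
  have hf : ∀ {m n : ℕ} (hle : m ≤ n),
      (Ideal.Quotient.factorₐ 𝒪 (Ideal.pow_le_pow_right hle)).comp (f n) = f m := by
    intro m n hle
    apply algHom_ext_of_dense ru hdense _ _ ?_ m ?_ ?_
    · ext σ i j
      simp [mapMat_apply, hfent]
    · intro z hz
      obtain ⟨a, ha, hfa⟩ := hfpow n m z hz
      simp [hfa, Ideal.Quotient.eq_zero_iff_mem.mpr ha]
    · intro z hz
      obtain ⟨a, ha, hfa⟩ := hfpow m m z hz
      simp [hfa, Ideal.Quotient.eq_zero_iff_mem.mpr ha]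
  refine ⟨IsAdicComplete.liftAlgHom (maximalIdeal A) f hf, ?_⟩
  have key := IsHausdorff.funext' (maximalIdeal A)
    (f := fun x : Gal × Fin 2 × Fin 2 =>
      IsAdicComplete.liftAlgHom (maximalIdeal A) f hf (ru x.1 x.2.1 x.2.2))
    (g := fun x : Gal × Fin 2 × Fin 2 => r x.1 x.2.1 x.2.2) (fun n x => by
      rw [IsAdicComplete.mk_liftAlgHom, hfent])
  ext σ i j
  exact congrFun key (σ, i, j)

omit [IsLocalRing 𝒪] in
/-- Uniqueness of the classifying map: it is determined by the image of `ru`. -/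
theorem algHom_ext_of_mapMat {Ru : Type} [CommRing Ru] [IsLocalRing Ru] [Algebra 𝒪 Ru]
    (ru : Gal →* M2 Ru)
    (hdense : ∀ (n : ℕ) (x : Ru), ∃ y ∈ Algebra.adjoin 𝒪 (entries ru),
      x - y ∈ maximalIdeal Ru ^ n)
    (A : Type) [CommRing A] [IsLocalRing A]
    [IsAdicComplete (maximalIdeal A) A] [Algebra 𝒪 A] [IsLocalHom (algebraMap 𝒪 A)]
    (hsurj : Function.Surjective (residue A ∘ algebraMap 𝒪 A))
    (φ φ' : Ru →ₐ[𝒪] A) (h : mapMat (φ : Ru →+* A) ru = mapMat (φ' : Ru →+* A) ru) :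
    φ = φ' := by
  apply IsAdicComplete.algHom_ext (maximalIdeal A)
  intro n
  have hφ : IsLocalHom (φ : Ru →+* A) :=
    isLocalHom_algHom_of_residue_surjective inferInstance hsurj φ
  have hφ' : IsLocalHom (φ' : Ru →+* A) :=
    isLocalHom_algHom_of_residue_surjective inferInstance hsurj φ'
  apply algHom_ext_of_dense ru hdense _ _ ?_ n ?_ ?_
  · ext σ i j
    have h1 := congrFun (congrFun (DFunLike.congr_fun h σ) i) j
    simp only [mapMat_apply] at h1 ⊢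
    exact congrArg (Ideal.Quotient.mk _) h1
  · intro z hz
    exact Ideal.Quotient.eq_zero_iff_mem.mpr (map_mem_maximalIdeal_pow _ hφ n hz)
  · intro z hz
    exact Ideal.Quotient.eq_zero_iff_mem.mpr (map_mem_maximalIdeal_pow _ hφ' n hz)

end Main

end UnivProp

open UnivProp in
/-- The universal property (the `universal` field of `GaloisRep.DeformationRingData`) for a ring
`Ru` carrying a normalised representation `ru` whose entries are dense and which is universal at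
every finite level. -/
theorem exists_unique_algHom_of_universal
    {𝒪 : Type} [CommRing 𝒪] [IsLocalRing 𝒪] {ρbar : ResidualGaloisRep (ResidueField 𝒪)}
    {𝒟 : ∀ ⦃A : Type⦄ [CommRing A] [IsLocalRing A] [Algebra 𝒪 A], GaloisRepAdic A → Prop}
    (S : Setup 𝒪 ρbar) (h𝒟 : GaloisRep.IsDeformationCondition 𝒪 𝒟)
    {Ru : Type} [CommRing Ru] [IsLocalRing Ru] [Algebra 𝒪 Ru]
    (ru : Gal →* M2 Ru) (hcu : MatCont ru) (hlu : Lifts S ru) (hnu : IsNF S ru)
    (hdense : ∀ (n : ℕ) (x : Ru), ∃ y ∈ Algebra.adjoin 𝒪 (entries ru),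
      x - y ∈ maximalIdeal Ru ^ n)
    (huniv : ∀ (n : ℕ) (B : Type) [CommRing B] [IsLocalRing B] [Algebra 𝒪 B],
      GaloisRep.IsArtinianTestAlgebra 𝒪 B → maximalIdeal B ^ n = ⊥ →
      ∀ r'' : Gal →* M2 B, IsDefo S 𝒟 r'' →
        ∃ φ : Ru →ₐ[𝒪] B, mapMat (φ : Ru →+* B) ru = r'')
    (A : Type) [CommRing A] [IsLocalRing A] [IsNoetherianRing A]
    [IsAdicComplete (maximalIdeal A) A] [Algebra 𝒪 A] [IsLocalHom (algebraMap 𝒪 A)]
    (hsurj : Function.Surjective (residue A ∘ algebraMap 𝒪 A))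
    (ρA : GaloisRepAdic A) (hD : 𝒟 ρA)
    (hres : ρA.residual.IsEquiv
      (ρbar.baseChangeAlong (ResidueField.map (algebraMap 𝒪 A)))) :
    ∃! φ : Ru →ₐ[𝒪] A, ∃ hφ : IsLocalHom (φ : Ru →+* A),
      ((ofMat ru hcu).baseChangeAlong (φ : Ru →+* A) hφ).IsEquiv ρA := by
  obtain ⟨r, hc, hl, hn, hDr, ⟨e⟩⟩ := exists_normalised S h𝒟 A hsurj ρA hD hres
  obtain ⟨φ, hφr⟩ := exists_algHom_of_universal S h𝒟 ru hdense huniv A hsurj r hc hl hn hDr
  have hloc : ∀ ψ : Ru →ₐ[𝒪] A, IsLocalHom (ψ : Ru →+* A) := fun ψ =>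
    isLocalHom_algHom_of_residue_surjective inferInstance hsurj ψ
  refine ⟨φ, ⟨hloc φ, ?_⟩, ?_⟩
  · have hc' : MatCont (mapMat (φ : Ru →+* A) ru) := matCont_mapMat _ (hloc φ) hcu
    obtain ⟨e₁⟩ := ofMat_baseChangeAlong (φ : Ru →+* A) (hloc φ) ru hcu hc'
    have e₂ : (ofMat (mapMat (φ : Ru →+* A) ru) hc').IsEquiv (ofMat r hc) := by
      subst hφr
      exact ⟨GaloisRepAdic.Equiv.refl _⟩
    obtain ⟨e₂⟩ := e₂
    exact ⟨(e₁.trans e₂).trans e.symm⟩
  · rintro φ' ⟨hφ', ⟨e'⟩⟩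
    have hc' : MatCont (mapMat (φ' : Ru →+* A) ru) := matCont_mapMat _ hφ' hcu
    obtain ⟨e₁⟩ := ofMat_baseChangeAlong (φ' : Ru →+* A) hφ' ru hcu hc'
    have heq : (ofMat (mapMat (φ' : Ru →+* A) ru) hc').IsEquiv (ofMat r hc) :=
      ⟨(e₁.symm.trans e').trans e⟩
    obtain ⟨M, hM, hconj⟩ := (isEquiv_ofMat_iff _ _ hc' hc).mp heq
    have h1 : mapMat (φ' : Ru →+* A) ru = r :=
      normalForm_unique S hsurj _ r (Lifts.map S φ' hφ' hlu) hl (IsNF.map S φ' hnu) hn M hM hconj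
    exact algHom_ext_of_mapMat ru hdense A hsurj φ' φ (h1.trans hφr.symm)

end Fermat.Agent.S53

end
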