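/-
S53 assembly, part 2: the universal deformation over the limit ring (team lead).
-/
import Fermat.Agent.S53.Defs
import Fermat.Agent.S53.Glue
import Fermat.Agent.S53.Bridge
import Fermat.Agent.S53.Residual
import Fermat.Agent.S53.DefoBasic
import Fermat.Agent.S53.Limit
import Fermat.Agent.S53.Noeth
import Fermat.Agent.S53.Level
import Fermat.Agent.S53.Tower
import Fermat.Agent.S53.Setup
import Fermat.Agent.S53.UnivProp

set_option autoImplicit false
set_option linter.unusedSectionVars false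

noncomputable section

namespace Fermat.Agent.S53

open IsLocalRing

variable {𝒪 : Type} [CommRing 𝒪] [IsDomain 𝒪] [IsDiscreteValuationRing 𝒪]
  [Finite (ResidueField 𝒪)] {ρbar : ResidualGaloisRep (ResidueField 𝒪)}
  {𝒟 : ∀ ⦃A : Type⦄ [CommRing A] [IsLocalRing A] [Algebra 𝒪 A], GaloisRepAdic A → Prop}

/-- A tower of universal level objects. -/
structure TowerData (S : Setup 𝒪 ρbar)
    (𝒟 : ∀ ⦃A : Type⦄ [CommRing A] [IsLocalRing A] [Algebra 𝒪 A], GaloisRepAdic A → Prop) where
  X : ∀ n : ℕ, LevelObj S 𝒟 (n + 1)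
  univ : ∀ n, IsUniversal S (X n)
  π : ∀ n, (X (n + 1)).A →ₐ[𝒪] (X n).A
  π_map : ∀ n, mapMat (π n : (X (n + 1)).A →+* (X n).A) (X (n + 1)).r = (X n).r
  tower : IsTower 𝒪 (fun n => (X n).A) π

theorem nonempty_towerData (S : Setup 𝒪 ρbar) (h𝒟 : GaloisRep.IsDeformationCondition 𝒪 𝒟)
    (hbar : 𝒟 (GaloisRepAdic.ofResidualGaloisRep ρbar))
    (hfin : GaloisRep.TangentFinite 𝒪 ρbar 𝒟) : Nonempty (TowerData S 𝒟) := by
  choose X hX using fun n : ℕ =>
    exists_universal S h𝒟 hbar hfin (n + 1) (Nat.succ_le_succ (Nat.zero_le n))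
  have hX' : ∀ n, IsUniversal S (X n) := fun n => hX n
  choose π hπ using fun n : ℕ =>
    exists_transition S h𝒟 n (X n) (X (n + 1)) (hX' n) (hX' (n + 1))
  exact ⟨{ X := X
           univ := hX'
           π := π
           π_map := fun n => (hπ n).1
           tower :=
            { finite := fun n => inferInstance
              isLocalHom := fun n => (X n).test.isLocalHom
              residue_surjective := fun n => (X n).test.residue_surjective
              surjective := fun n => (hπ n).2.1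
              ker := fun n => (hπ n).2.2
              pow_eq := fun n => (X n).pow_eq } }⟩

namespace TowerData

variable {S : Setup 𝒪 ρbar} (T : TowerData S 𝒟)

/-- The limit ring. -/
abbrev R : Type := limSubalg 𝒪 (fun n => (T.X n).A) T.π

/-- The projections. -/
def p (n : ℕ) : T.R →ₐ[𝒪] (T.X n).A := limProj 𝒪 (fun n => (T.X n).A) T.π n

theorem p_apply (n : ℕ) (x : T.R) : T.p n x = x.1 n := rfl

instance instIsLocalRingR : IsLocalRing T.R := (lim_spec T.tower).choose

theorem spec :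
    IsAdicComplete (maximalIdeal T.R) T.R ∧ (maximalIdeal T.R).FG ∧
      IsLocalHom (algebraMap 𝒪 T.R) ∧
      Function.Surjective (residue T.R ∘ algebraMap 𝒪 T.R) ∧
      (∀ n, Function.Surjective (T.p n)) ∧
      (∀ n, RingHom.ker (T.p n : T.R →+* (T.X n).A) = maximalIdeal T.R ^ (n + 1)) :=
  (lim_spec T.tower).choose_spec

instance instIsAdicCompleteR : IsAdicComplete (maximalIdeal T.R) T.R := T.spec.1

instance instIsLocalHomR : IsLocalHom (algebraMap 𝒪 T.R) := T.spec.2.2.1

theorem residue_surjective : Function.Surjective (residue T.R ∘ algebraMap 𝒪 T.R) :=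
  T.spec.2.2.2.1

theorem p_surjective (n : ℕ) : Function.Surjective (T.p n) := T.spec.2.2.2.2.1 n

theorem ker_p (n : ℕ) :
    RingHom.ker (T.p n : T.R →+* (T.X n).A) = maximalIdeal T.R ^ (n + 1) :=
  T.spec.2.2.2.2.2 n

instance instIsNoetherianRingR : IsNoetherianRing T.R :=
  isNoetherianRing_of_isAdicComplete 𝒪 T.R (maximalIdeal T.R) T.spec.2.1 T.residue_surjective

theorem ext_of_p {x y : T.R} (h : ∀ n, T.p n x = T.p n y) : x = y :=
  Subtype.ext (funext h)

theorem mat_ext {P Q : M2 T.R}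
    (h : ∀ n, (T.p n : T.R →+* (T.X n).A).mapMatrix P = (T.p n : T.R →+* (T.X n).A).mapMatrix Q) :
    P = Q :=
  Matrix.ext fun i j => T.ext_of_p fun n => congrFun (congrFun (h n) i) j

/-- The matrices of the universal representation. -/
def rlimMat (σ : Gal) : M2 T.R :=
  Matrix.of fun i j => ⟨fun n => (T.X n).r σ i j, fun n => mapMat_congr_apply (T.π_map n) σ i j⟩

theorem rlimMat_map (n : ℕ) (σ : Gal) :
    (T.p n : T.R →+* (T.X n).A).mapMatrix (T.rlimMat σ) = (T.X n).r σ := by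
  ext i j
  rfl

/-- The universal representation. -/
def rlim : Gal →* M2 T.R where
  toFun := T.rlimMat
  map_one' := T.mat_ext fun n => by rw [T.rlimMat_map, map_one, map_one]
  map_mul' := fun σ τ => T.mat_ext fun n => by
    rw [T.rlimMat_map, map_mul, map_mul, T.rlimMat_map, T.rlimMat_map]

theorem map_rlim (n : ℕ) : mapMat (T.p n : T.R →+* (T.X n).A) T.rlim = (T.X n).r :=
  MonoidHom.ext fun σ => T.rlimMat_map n σ

theorem p_rlim (n : ℕ) (σ : Gal) (i j : Fin 2) : T.p n (T.rlim σ i j) = (T.X n).r σ i j := rfl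

theorem mem_maximalIdeal_iff (x : T.R) : x ∈ maximalIdeal T.R ↔ T.p 0 x = 0 := by
  have h : RingHom.ker (T.p 0 : T.R →+* (T.X 0).A) = maximalIdeal T.R :=
    (T.ker_p 0).trans (pow_one _)
  rw [← h, RingHom.mem_ker]
  rfl

theorem maximalIdeal_X0 : maximalIdeal (T.X 0).A = ⊥ :=
  (pow_one _).symm.trans (T.X 0).pow_eq

theorem lifts : Lifts S T.rlim := by
  intro σ i j
  rw [T.mem_maximalIdeal_iff, map_sub, T.p_rlim, AlgHom.commutes]
  have h := (T.X 0).defo.lifts σ i j
  rw [T.maximalIdeal_X0] at h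
  exact h

theorem nf : IsNF S T.rlim :=
  ⟨T.ext_of_p fun n => (T.X n).defo.nf.1,
   T.ext_of_p fun n => (T.X n).defo.nf.2.1,
   T.ext_of_p fun n => (T.X n).defo.nf.2.2⟩

theorem p_sub_one (n : ℕ) (σ : Gal) (i j : Fin 2) :
    T.p n ((T.rlim σ - 1) i j) = ((T.X n).r σ - 1) i j := by
  rw [Matrix.sub_apply, Matrix.sub_apply, map_sub, T.p_rlim, Matrix.one_apply, Matrix.one_apply]
  split_ifs
  · rw [map_one]
  · rw [map_zero]

theorem cont : MatCont T.rlim := by
  intro n
  cases n with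
  | zero =>
    exact ⟨⊥, inferInstance, fun σ _ i j => by rw [pow_zero, Ideal.one_eq_top]; trivial⟩
  | succ n =>
    obtain ⟨L, hL, h⟩ := (T.X n).defo.cont (n + 1)
    refine ⟨L, hL, fun σ hσ i j => ?_⟩
    rw [← T.ker_p n, RingHom.mem_ker]
    show T.p n ((T.rlim σ - 1) i j) = 0
    rw [T.p_sub_one]
    have := h σ hσ i j
    rw [(T.X n).pow_eq] at this
    exact this

theorem dense (n : ℕ) (x : T.R) :
    ∃ y ∈ Algebra.adjoin 𝒪 (entries T.rlim), x - y ∈ maximalIdeal T.R ^ n := by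
  cases n with
  | zero => exact ⟨0, zero_mem _, by rw [pow_zero, Ideal.one_eq_top]; trivial⟩
  | succ n =>
    have h1 : T.p n x ∈ (Algebra.adjoin 𝒪 (entries T.rlim)).map (T.p n) := by
      rw [AlgHom.map_adjoin]
      have h2 : (T.p n) '' entries T.rlim = entries (T.X n).r := by
        unfold entries
        rw [← Set.range_comp]
        rfl
      rw [h2, (T.X n).gen]
      exact Algebra.mem_top
    obtain ⟨y, hy, hxy⟩ := h1
    refine ⟨y, hy, ?_⟩
    rw [← T.ker_p n, RingHom.mem_ker]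
    show T.p n (x - y) = 0
    rw [map_sub, ← hxy]
    exact sub_self _

theorem univ' (n : ℕ) (B : Type) [CommRing B] [IsLocalRing B] [Algebra 𝒪 B]
    (hB : GaloisRep.IsArtinianTestAlgebra 𝒪 B) (hpow : maximalIdeal B ^ n = ⊥)
    (r' : Gal →* M2 B) (hr' : IsDefo S 𝒟 r') :
    ∃ φ : T.R →ₐ[𝒪] B, mapMat (φ : T.R →+* B) T.rlim = r' := by
  cases n with
  | zero =>
    exfalso
    rw [pow_zero, Ideal.one_eq_top] at hpow
    exact top_ne_bot hpow
  | succ n =>
    obtain ⟨φ', hφ'⟩ := T.univ n B hB hpow r' hr'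
    refine ⟨φ'.comp (T.p n), ?_⟩
    show mapMat ((φ' : (T.X n).A →+* B).comp (T.p n : T.R →+* (T.X n).A)) T.rlim = r'
    rw [mapMat_comp, T.map_rlim, hφ']

theorem type (h𝒟 : GaloisRep.IsDeformationCondition 𝒪 𝒟) : 𝒟 (ofMat T.rlim T.cont) := by
  rw [h𝒟.iff_forall_surjective (inferInstance : IsLocalHom (algebraMap 𝒪 T.R)) T.residue_surjective]
  intro B _ _ _ hB q hq _
  have := hB.isArtinian
  obtain ⟨N, hN⟩ := exists_maximalIdeal_pow_eq_bot_of_isArtinianRing B
  have hN1 : maximalIdeal B ^ (N + 1) = ⊥ := by rw [pow_succ, hN, Ideal.bot_mul]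
  have hker : RingHom.ker (T.p N).toRingHom ≤ RingHom.ker q.toRingHom := by
    intro a ha
    have ha' : a ∈ maximalIdeal T.R ^ (N + 1) := by
      rw [← T.ker_p N]
      exact ha
    exact map_eq_zero_of_mem_pow (q : T.R →+* B) hq hN1 ha'
  let q' : (T.X N).A →ₐ[𝒪] B := AlgHom.liftOfSurjective (T.p N) (T.p_surjective N) q hker
  have hq' : q'.comp (T.p N) = q := AlgHom.liftOfSurjective_comp _ _ _ _
  have hloc' : IsLocalHom (q' : (T.X N).A →+* B) := isLocalHom_of_pow_eq_bot (T.X N).pow_eq _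
  have hdefo : IsDefo S 𝒟 (mapMat (q' : (T.X N).A →+* B) (T.X N).r) :=
    IsDefo.map S h𝒟 (T.X N).test hB q' hloc' (T.X N).defo
  have heq : mapMat (q : T.R →+* B) T.rlim = mapMat (q' : (T.X N).A →+* B) (T.X N).r := by
    rw [← T.map_rlim N, ← mapMat_comp, ← hq']
    rfl
  have hc : MatCont (mapMat (q : T.R →+* B) T.rlim) := matCont_mapMat _ hq T.cont
  have h1 := ofMat_baseChangeAlong (q : T.R →+* B) hq T.rlim T.cont hc
  exact h𝒟.of_isEquiv hB
    (isEquiv_symm (isEquiv_trans h1 (ofMat_congr heq hc hdefo.cont))) hdefo.type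

theorem residual :
    (ofMat T.rlim T.cont).residual.IsEquiv
      (ρbar.baseChangeAlong (ResidueField.map (algebraMap 𝒪 T.R))) :=
  (residual_isEquiv_iff S T.rlim T.cont).mpr
    ⟨1, isUnit_one, fun σ => by rw [one_mul, mul_one]; exact map_residue_of_lifts S T.lifts σ⟩

end TowerData

/-- S53, with all hypotheses. -/
theorem nonempty_deformationRingData (𝒪 : Type) [CommRing 𝒪] [IsDomain 𝒪]
    [IsDiscreteValuationRing 𝒪] [IsAdicComplete (maximalIdeal 𝒪) 𝒪] [Finite (ResidueField 𝒪)]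
    (ρbar : ResidualGaloisRep (ResidueField 𝒪))
    (𝒟 : ∀ ⦃A : Type⦄ [CommRing A] [IsLocalRing A] [Algebra 𝒪 A], GaloisRepAdic A → Prop)
    (habs : ρbar.IsAbsolutelyIrreducible) (h𝒟 : GaloisRep.IsDeformationCondition 𝒪 𝒟)
    (hbar : 𝒟 (GaloisRepAdic.ofResidualGaloisRep ρbar))
    (hfin : GaloisRep.TangentFinite 𝒪 ρbar 𝒟) :
    Nonempty (GaloisRep.DeformationRingData 𝒪 ρbar 𝒟) := by
  obtain ⟨S⟩ := exists_setup 𝒪 ρbar habs
  obtain ⟨T⟩ := nonempty_towerData S h𝒟 hbar hfin
  exact ⟨{ R := T.R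
           residue_surjective := T.residue_surjective
           absIrr := habs
           ρ := ofMat T.rlim T.cont
           isOfType := T.type h𝒟
           residual_isEquiv := T.residual
           universal := fun A _ _ _ _ _ _ hsurj ρA hD hres =>
            exists_unique_algHom_of_universal S h𝒟 T.rlim T.cont T.lifts T.nf T.dense T.univ'
              A hsurj ρA hD hres }⟩

end Fermat.Agent.S53

end
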