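/-
S53 package P-H (helper lemmas): sequential inverse limits.
Generic statements with no reference to the deformation setting.
-/
import Mathlib.CategoryTheory.CofilteredSystem
import Mathlib.CategoryTheory.Functor.OfSequence
import Mathlib.RingTheory.AdicCompletion.Basic
import Mathlib.RingTheory.Ideal.Maps

set_option autoImplicit false

namespace Fermat.Agent.S53.LimitAux

open CategoryTheory

universe u

/-- In a tower of types with surjective transition maps, every element of level `n` extends to
a compatible family. -/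
theorem exists_compat_of_surjective {R : ℕ → Type u} (π : ∀ n, R (n + 1) → R n)
    (hπ : ∀ n, Function.Surjective (π n)) (n : ℕ) (y : R n) :
    ∃ x : ∀ m, R m, (∀ m, π m (x (m + 1)) = x m) ∧ x n = y := by
  induction n generalizing R with
  | zero =>
    refine ⟨fun m => Nat.rec (motive := fun m => R m) y
      (fun m xm => Classical.choose (hπ m xm)) m, ?_, rfl⟩
    intro m
    exact Classical.choose_spec (hπ m _)
  | succ n ih =>
    obtain ⟨x', hx', hx'n⟩ :=
      ih (R := fun m => R (m + 1)) (fun m => π (m + 1)) (fun m => hπ (m + 1)) y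
    refine ⟨fun m => match m with
      | 0 => π 0 (x' 0)
      | m + 1 => x' m, ?_, hx'n⟩
    intro m
    cases m with
    | zero => rfl
    | succ m => exact hx' m

/-- König's lemma for towers indexed by `ℕ`: a tower of nonempty finite types has a compatible
family. -/
theorem exists_compat_of_finite {C : ℕ → Type u} (t : ∀ n, C (n + 1) → C n)
    [∀ n, Finite (C n)] [∀ n, Nonempty (C n)] :
    ∃ c : ∀ n, C n, ∀ n, t n (c (n + 1)) = c n := by
  let F : ℕᵒᵖ ⥤ Type u := Functor.ofOpSequence (X := C) (fun n => TypeCat.ofHom (t n))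
  have hfin : ∀ j : ℕᵒᵖ, Finite (F.obj j) := fun j => inferInstanceAs (Finite (C j.unop))
  have hne : ∀ j : ℕᵒᵖ, Nonempty (F.obj j) := fun j => inferInstanceAs (Nonempty (C j.unop))
  obtain ⟨s, hs⟩ := nonempty_sections_of_finite_inverse_system F
  refine ⟨fun n => s (Opposite.op n), fun n => ?_⟩
  have h := hs (homOfLE (Nat.le_add_right n 1)).op
  rw [Functor.ofOpSequence_map_homOfLE_succ] at h
  exact h

/-- Completeness from a filtration: if `K n = I ^ (n + 1)` is separated and every sequence with
`f (n + 1) - f n ∈ K n` has a limit, then the ring is `I`-adically complete. -/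
theorem isAdicComplete_of_filtration {S : Type*} [CommRing S] (I : Ideal S) (K : ℕ → Ideal S)
    (hK : ∀ n, K n = I ^ (n + 1)) (hsep : ∀ x : S, (∀ n, x ∈ K n) → x = 0)
    (hlim : ∀ f : ℕ → S, (∀ n, f (n + 1) - f n ∈ K n) → ∃ L : S, ∀ n, L - f n ∈ K n) :
    IsAdicComplete I S := by
  have hH : IsHausdorff I S := by
    refine ⟨fun x hx => hsep x fun n => ?_⟩
    have h := hx (n + 1)
    rw [SModEq.zero, smul_eq_mul, Ideal.mul_top] at h
    rw [hK]
    exact h
  have hP : IsPrecomplete I S := by
    refine ⟨fun f hf => ?_⟩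
    obtain ⟨L, hL⟩ := hlim (fun n => f (n + 1)) (fun n => by
      have h := hf (Nat.le_succ (n + 1))
      rw [SModEq.sub_mem, smul_eq_mul, Ideal.mul_top] at h
      rw [hK, ← neg_sub]
      exact neg_mem h)
    refine ⟨L, fun n => ?_⟩
    rw [SModEq.sub_mem, smul_eq_mul, Ideal.mul_top]
    cases n with
    | zero => simp
    | succ n =>
      have h := hL n
      rw [hK] at h
      rw [← neg_sub]
      exact neg_mem h
  exact { toIsHausdorff := hH, toIsPrecomplete := hP }

/-- Completeness of a sequential inverse limit `S = lim R n` (given by projections `p n` which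
are jointly injective and glue compatible families) with respect to an ideal `I` such that
`ker (p n) = I ^ (n + 1)`. -/
theorem isAdicComplete_of_isLimit {S : Type*} [CommRing S] {R : ℕ → Type*} [∀ n, CommRing (R n)]
    (π : ∀ n, R (n + 1) →+* R n) (p : ∀ n, S →+* R n)
    (hcompat : ∀ n x, π n (p (n + 1) x) = p n x)
    (hinj : ∀ x : S, (∀ n, p n x = 0) → x = 0)
    (hglue : ∀ y : ∀ n, R n, (∀ n, π n (y (n + 1)) = y n) → ∃ x : S, ∀ n, p n x = y n)
    (I : Ideal S) (hker : ∀ n, RingHom.ker (p n) = I ^ (n + 1)) : IsAdicComplete I S := by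
  refine isAdicComplete_of_filtration I (fun n => RingHom.ker (p n)) hker
    (fun x hx => hinj x fun n => (RingHom.mem_ker).mp (hx n)) ?_
  intro f hf
  obtain ⟨L, hL⟩ := hglue (fun n => p n (f n)) (fun n => by
    have h := (RingHom.mem_ker).mp (hf n)
    rw [map_sub, sub_eq_zero] at h
    rw [hcompat, h])
  refine ⟨L, fun n => ?_⟩
  rw [RingHom.mem_ker, map_sub, hL n, sub_self]

end Fermat.Agent.S53.LimitAux
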